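/-
RED/BASE (B1) (helper12): the formal and analytic eta quotient
`t = q⁻¹ (η(q)/η(q^n))^e`   (`(n, e) = (4, 8)` or `(9, 3)`; in general `e * (n - 1) = 24`).

* formal: `etaq R = ∏ (1 - q^m)`, `etaqInv R`, `tq R n e ∈ R((q))` over every commutative ring `R`,
  `tq R n e ^ (n - 1) * uq R n = 1` (i.e. `t^(n-1) = Δ(q)/Δ(q^n)`), leading coefficient `1`,
  naturality under coefficient maps;
* analytic: `tauFun n e : ℍ → ℂ`, holomorphic, nowhere zero, `HasQExp (tq ℂ n e) (tauFun n e)`,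
  `tauFun n e z ^ (n - 1) * deltaQuot n z = 1`.
No modularity is used.
-/
import Fermat.Agent.IG.AN.DeltaQuotExp19

set_option autoImplicit false

open UpperHalfPlane ModularForm ModularCurve HahnSeries
open scoped MatrixGroups Manifold

noncomputable section

namespace Fermat.Agent.RED.BASE.EtaQuot12

open Fermat.Agent.X0 Fermat.Agent.X0.Analytic Fermat.Agent.X0.JQExp
open Fermat.Agent.IG.PR.Interface20 Fermat.Agent.IG.AN.DeltaQuot19
open Fermat.Agent.IG.AN.DeltaQuotExp19

/-! ### formal side -/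

/-- the inverse of the eta product `∏ (1 - X^m)` in `ℤ⟦X⟧`. -/
def etaProdInv : PowerSeries ℤ := etaProd.invOfUnit 1

theorem etaProd_mul_inv : etaProd * etaProdInv = 1 :=
  PowerSeries.mul_invOfUnit _ _ (by rw [constantCoeff_etaProd]; rfl)

theorem dedekindEtaUnitInv_eq : dedekindEtaUnitInv = etaProdInv ^ 24 := by
  have h1 : dedekindEtaUnit * etaProdInv ^ 24 = 1 := by
    rw [dedekindEtaUnit, ← mul_pow, etaProd_mul_inv, one_pow]
  calc dedekindEtaUnitInv = dedekindEtaUnitInv * (dedekindEtaUnit * etaProdInv ^ 24) := by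
        rw [h1, mul_one]
    _ = (dedekindEtaUnit * dedekindEtaUnitInv) * etaProdInv ^ 24 := by ring
    _ = etaProdInv ^ 24 := by rw [dedekindEtaUnit_mul_inv, one_mul]

section Formal

variable (R : Type*) [CommRing R]

/-- `∏ (1 - q^m)` in `R((q))`. -/
def etaq : LaurentSeries R := HahnSeries.ofPowerSeries ℤ R (etaProd.map (Int.castRingHom R))

/-- its inverse. -/
def etaqInv : LaurentSeries R :=
  HahnSeries.ofPowerSeries ℤ R (etaProdInv.map (Int.castRingHom R))

theorem etaq_mul_etaqInv : etaq R * etaqInv R = 1 := by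
  rw [etaq, etaqInv, ← map_mul, ← map_mul, etaProd_mul_inv, map_one, map_one]

theorem deltaq_eq : deltaq R = HahnSeries.single (1 : ℤ) 1 * etaq R ^ 24 := by
  rw [deltaq, etaq, dedekindEtaUnit, map_pow, map_pow]

theorem deltaqInv_eq : deltaqInv R = HahnSeries.single (-1 : ℤ) 1 * etaqInv R ^ 24 := by
  rw [deltaqInv, etaqInv, dedekindEtaUnitInv_eq, map_pow, map_pow]

/-- the formal eta quotient `q⁻¹ (η(q)/η(q^n))^e`. -/
def tq (n e : ℕ) [NeZero n] : LaurentSeries R :=
  HahnSeries.single (-1 : ℤ) 1 * etaq R ^ e * qExpand R n (etaqInv R) ^ e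

theorem single_pow_one (k : ℕ) (a : ℤ) :
    (HahnSeries.single a (1 : R)) ^ k = HahnSeries.single ((k : ℤ) * a) 1 := by
  rw [HahnSeries.single_pow, one_pow]
  simp

/-- `t^(n-1) * (Δ(q^n)/Δ(q)) = 1` when `e (n - 1) = 24`. -/
theorem tq_pow_mul_uq (n e : ℕ) [NeZero n] (h : e * (n - 1) = 24) :
    tq R n e ^ (n - 1) * uq R n = 1 := by
  have hn : 1 ≤ n := Nat.pos_of_ne_zero (NeZero.ne n)
  have hexp : qExpand R n (etaq R) * qExpand R n (etaqInv R) = 1 := by
    rw [← map_mul, etaq_mul_etaqInv, map_one]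
  rw [uq, deltaq_eq, deltaqInv_eq, tq, map_mul, map_pow, qExpand_single, mul_pow, mul_pow,
    ← pow_mul, ← pow_mul, h, single_pow_one]
  have hs : (HahnSeries.single (((n - 1 : ℕ) : ℤ) * (-1)) (1 : R)) *
      (HahnSeries.single ((n : ℤ) * 1) (1 : R)) * HahnSeries.single (-1 : ℤ) (1 : R) = 1 := by
    rw [HahnSeries.single_mul_single, HahnSeries.single_mul_single]
    have : ((n - 1 : ℕ) : ℤ) * (-1) + (n : ℤ) * 1 + -1 = 0 := by
      rw [Nat.cast_sub hn]; ring
    rw [this]
    simp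
  calc HahnSeries.single (((n - 1 : ℕ) : ℤ) * -1) (1 : R) * etaq R ^ 24 *
        qExpand R n (etaqInv R) ^ 24 *
        (HahnSeries.single ((n : ℤ) * 1) 1 * qExpand R n (etaq R) ^ 24 *
          (HahnSeries.single (-1 : ℤ) 1 * etaqInv R ^ 24))
      = (HahnSeries.single (((n - 1 : ℕ) : ℤ) * (-1)) (1 : R) *
          HahnSeries.single ((n : ℤ) * 1) (1 : R) * HahnSeries.single (-1 : ℤ) (1 : R)) *
          (etaq R * etaqInv R) ^ 24 *
          (qExpand R n (etaq R) * qExpand R n (etaqInv R)) ^ 24 := by ring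
    _ = 1 := by rw [hs, etaq_mul_etaqInv, hexp]; simp


/-! ### naturality and the leading coefficient -/

theorem coeffMap_etaq {S : Type*} [CommRing S] (φ : R →+* S) : coeffMap φ (etaq R) = etaq S := by
  rw [etaq, etaq, coeffMap_ofPowerSeries, map_intCast_map]

theorem coeffMap_etaqInv {S : Type*} [CommRing S] (φ : R →+* S) :
    coeffMap φ (etaqInv R) = etaqInv S := by
  rw [etaqInv, etaqInv, coeffMap_ofPowerSeries, map_intCast_map]

theorem coeffMap_tq {S : Type*} [CommRing S] (φ : R →+* S) (n e : ℕ) [NeZero n] :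
    coeffMap φ (tq R n e) = tq S n e := by
  rw [tq, tq, map_mul, map_mul, map_pow, map_pow, coeffMap_single, ModularCurve.coeffMap_qExpand,
    coeffMap_etaq, coeffMap_etaqInv, map_one]

/-- the power-series part of `tq`: `(η(X)/η(X^n))^e ∈ R⟦X⟧`. -/
def tNum (n e : ℕ) [hn : NeZero n] : PowerSeries R :=
  (etaProd.map (Int.castRingHom R)) ^ e *
    ((etaProdInv.map (Int.castRingHom R)).expand n hn.ne) ^ e

theorem constantCoeff_etaProdInv : PowerSeries.constantCoeff etaProdInv = 1 := by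
  have h := congrArg (PowerSeries.constantCoeff (R := ℤ)) etaProd_mul_inv
  rwa [map_mul, constantCoeff_etaProd, one_mul, map_one] at h

theorem constantCoeff_tNum (n e : ℕ) [hn : NeZero n] :
    PowerSeries.constantCoeff (tNum R n e) = 1 := by
  have h0 : PowerSeries.constantCoeff
      ((etaProdInv.map (Int.castRingHom R)).expand n hn.ne) = 1 := by
    have := PowerSeries.coeff_expand_mul n hn.ne (etaProdInv.map (Int.castRingHom R)) 0
    rw [mul_zero, PowerSeries.coeff_zero_eq_constantCoeff_apply,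
      PowerSeries.coeff_zero_eq_constantCoeff_apply] at this
    rw [this, ← PowerSeries.coeff_zero_eq_constantCoeff_apply, PowerSeries.coeff_map,
      PowerSeries.coeff_zero_eq_constantCoeff_apply, constantCoeff_etaProdInv]
    simp
  have h1 : PowerSeries.constantCoeff (etaProd.map (Int.castRingHom R)) = 1 := by
    rw [← PowerSeries.coeff_zero_eq_constantCoeff_apply, PowerSeries.coeff_map,
      PowerSeries.coeff_zero_eq_constantCoeff_apply, constantCoeff_etaProd]
    simp
  rw [tNum, map_mul, map_pow, map_pow, h0, h1]; simp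

/-- `t = q⁻¹ · (power series with constant coefficient 1)`. -/
theorem tq_eq_laurentOf (n e : ℕ) [hn : NeZero n] : tq R n e = laurentOf 1 (tNum R n e) := by
  have h2 : qExpand R n (etaqInv R) =
      HahnSeries.ofPowerSeries ℤ R ((etaProdInv.map (Int.castRingHom R)).expand n hn.ne) := by
    have := qExpand_laurentOf n 0 (etaProdInv.map (Int.castRingHom R))
    rwa [zero_mul, laurentOf_zero_left, laurentOf_zero_left] at this
  rw [tq, h2, etaq, laurentOf, tNum, map_mul, map_pow, map_pow]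
  simp [mul_assoc]

theorem coeff_tq_neg_one (n e : ℕ) [NeZero n] : (tq R n e).coeff (-1) = 1 := by
  rw [tq_eq_laurentOf, Fermat.Agent.X0.lor_laurentOf_coeff]
  simp [constantCoeff_tNum]

theorem coeff_tq_of_lt (n e : ℕ) [NeZero n] {k : ℤ} (hk : k < -1) : (tq R n e).coeff k = 0 := by
  rw [tq_eq_laurentOf, Fermat.Agent.X0.lor_laurentOf_coeff]
  rw [if_neg (by push_cast; omega)]

end Formal

/-! ### analytic side -/

/-- `∏ (1 - q^m)` as a function on the upper half plane. -/
def etaH (z : ℍ) : ℂ := etaFun (qH z)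

theorem etaH_ne_zero (z : ℍ) : etaH z ≠ 0 := etaFun_ne_zero (norm_qH_lt_one z)

theorem discriminant_eq_etaH (z : ℍ) : ModularForm.discriminant z = qH z * etaH z ^ 24 :=
  discriminant_eq_etaFun z

theorem hasQExp_etaq : HasQExp (etaq ℂ) etaH := by
  refine ⟨0, etaFun, differentiableOn_etaFun, ?_, fun z => by simp [etaH]⟩
  rw [tps_etaFun, etaq, lau]
  simp

theorem tps_etaFun_inv : tps etaFun⁻¹ = PowerSeries.map (Int.castRingHom ℂ) etaProdInv := by
  refine tps_inv_eq (analyticAt_etaFun (by simp)) (by simp [etaFun_zero]) tps_etaFun ?_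
  rw [← map_mul, etaProd_mul_inv, map_one]

theorem hasQExp_etaqInv : HasQExp (etaqInv ℂ) (fun z => (etaH z)⁻¹) := by
  refine ⟨0, etaFun⁻¹, ?_, ?_, fun z => by simp [etaH]⟩
  · refine differentiableOn_etaFun.inv fun q hq => ?_
    rw [mem_ball_zero_iff] at hq
    exact etaFun_ne_zero hq
  · rw [tps_etaFun_inv, etaqInv, lau]
    simp

theorem hasQExp_qInv : HasQExp (HahnSeries.single (-1 : ℤ) (1 : ℂ)) (fun z => (qH z)⁻¹) := by
  refine ⟨1, fun _ => 1, differentiableOn_const 1, ?_, fun z => ?_⟩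
  · rw [tps_const, lau]
    simp
  · have := qH_ne_zero z
    field_simp

theorem hasQExp_pow {f : LaurentSeries ℂ} {g : ℍ → ℂ} (h : HasQExp f g) (k : ℕ) :
    HasQExp (f ^ k) (g ^ k) := by
  induction k with
  | zero =>
    have h1 := HasQExp.const 1
    have e1 : (HahnSeries.C (1 : ℂ) : LaurentSeries ℂ) = 1 := map_one _
    have e2 : (fun _ : ℍ => (1 : ℂ)) = 1 := rfl
    rw [e1, e2] at h1
    rw [pow_zero, pow_zero]
    exact h1
  | succ k ih =>
    rw [pow_succ, pow_succ]
    exact ih.mul h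

/-- the analytic eta quotient `q⁻¹ (η(z)/η(n z))^e` (with `η` stripped of its `q^(1/24)`). -/
def tauFun (n e : ℕ) [NeZero n] (z : ℍ) : ℂ :=
  (qH z)⁻¹ * etaH z ^ e * ((etaH (scaleH n z))⁻¹) ^ e

theorem tauFun_ne_zero (n e : ℕ) [NeZero n] (z : ℍ) : tauFun n e z ≠ 0 := by
  unfold tauFun
  exact mul_ne_zero (mul_ne_zero (inv_ne_zero (qH_ne_zero z)) (pow_ne_zero _ (etaH_ne_zero z)))
    (pow_ne_zero _ (inv_ne_zero (etaH_ne_zero _)))

/-- **the `q`-expansion of `tauFun` is `tq`.** -/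
theorem hasQExp_tauFun (n e : ℕ) [NeZero n] : HasQExp (tq ℂ n e) (tauFun n e) := by
  have h := (hasQExp_qInv.mul (hasQExp_pow hasQExp_etaq e)).mul
    (hasQExp_pow (hasQExp_etaqInv.qExpand n) e)
  have hfun : ((fun z => (qH z)⁻¹) * etaH ^ e) * (fun z => (etaH (scaleH n z))⁻¹) ^ e
      = tauFun n e := by
    funext z
    simp [tauFun]
  rw [hfun] at h
  exact h

theorem tauFun_mem_HolH (n e : ℕ) [NeZero n] : tauFun n e ∈ HolH :=
  (hasQExp_tauFun n e).mdifferentiable

/-- `tauFun^(n-1) · Δ(n z)/Δ(z) = 1` when `e (n - 1) = 24`. -/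
theorem tauFun_pow_mul_deltaQuot (n e : ℕ) [NeZero n] (h : e * (n - 1) = 24) (z : ℍ) :
    tauFun n e z ^ (n - 1) * deltaQuot n z = 1 := by
  have hn : 1 ≤ n := Nat.pos_of_ne_zero (NeZero.ne n)
  have hq : qH z ≠ 0 := qH_ne_zero z
  have h1 : etaH z ≠ 0 := etaH_ne_zero z
  have h2 : etaH (scaleH n z) ≠ 0 := etaH_ne_zero _
  have hqn : qH z ^ n = qH z ^ (n - 1) * qH z := by
    rw [← pow_succ, Nat.sub_add_cancel hn]
  rw [deltaQuot, discriminant_eq_etaH, discriminant_eq_etaH, qH_scaleH, tauFun, mul_pow, mul_pow,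
    ← pow_mul, ← pow_mul, h, hqn, inv_pow, inv_pow]
  field_simp

/-! ### the version over `ℚbar` -/

theorem toC_tq (n e : ℕ) [NeZero n] : toC (tq Kbar n e) = tq ℂ n e :=
  coeffMap_tq Kbar iotaK n e

theorem hasQExp_tauFun_K (n e : ℕ) [NeZero n] : HasQExp (toC (tq Kbar n e)) (tauFun n e) := by
  rw [toC_tq]
  exact hasQExp_tauFun n e

theorem tq_eq_coeffMap_int (R : Type*) [CommRing R] (n e : ℕ) [NeZero n] :
    tq R n e = coeffMap (Int.castRingHom R) (tq ℤ n e) :=
  (coeffMap_tq ℤ (Int.castRingHom R) n e).symm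

end Fermat.Agent.RED.BASE.EtaQuot12
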