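/-
RED/BASE/Interface12 (helper12, chapter lead BASE): INTERFACE of chapter BASE (blueprint §2).

Parameters: `(n, e) = (4, 8)` (ℓ odd) or `(9, 3)` (ℓ = 2); in general `e * (n - 1) = 24`.
`tK n e = q⁻¹ (η(q)/η(q^n))^e ∈ ℚbar((q))` (integer coefficients, `EtaQuot12`), `tauFun n e` its
analytic avatar.  `M` is any level with `n ∣ M`.

Exports (Prop-defs; proved in the other BASE files, assembled in `Main12`):
* `TMem n e M`        (B2)  `tK ∈ Fbar_M`;
* `TRealize n e M`    (B2') `tK = a/b`, `a b ∈ ℚbar[j_d]`, `Θ a = Θ b · tauFun` (analytic dictionary);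
* `TGenBase n e`      (B3)  `ℚbar(t) = Fbar_n`;
* `TIsGen n e M`      (B3') `t` is a transcendental generator of `Fbar_M` (so `∑ e = [Fbar_M : ℚbar(t)]`);
* `CuspExp n e M`     (B5)  shape of `(cuspData M).T γ t` for every `γ ∈ SL₂(ℤ)`;
* `CuspSeparated n e M` (B4) distinct finite cusp values differ by units away from `n`;
* `Unbranched n e M`  (B6)  `ord_v (t - c) = 1` at every place `v` of `Fbar_M` with `0 ≤ ord_v j`.
Integrality is expressed by `IsIntAway n x` (`n^k x` is an algebraic integer for some `k`), which puts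
`x` in every valuation subring of `ℚbar` over a prime `ℓ ∤ n` (`IsIntAway.mem_of_inv_mem`).
-/
import Fermat.Agent.RED.BASE.EtaQuot12
import Fermat.Agent.X0.CuspExpand
import Fermat.Agent.X0.RealizeData
import Fermat.Agent.X0.FFDefs

set_option autoImplicit false

open UpperHalfPlane ModularCurve HahnSeries AlgebraicCurve
open scoped MatrixGroups IntermediateField

noncomputable section

namespace Fermat.Agent.RED.BASE.Interface12

open Fermat.Agent.X0 Fermat.Agent.X0.Analytic Fermat.Agent.RED.BASE.EtaQuot12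

/-! ### integrality away from `m` -/

/-- `x` is integral over `ℤ[1/m]`. -/
def IsIntAway (m : ℕ) (x : Kbar) : Prop := ∃ k : ℕ, IsIntegral ℤ ((m : Kbar) ^ k * x)

/-- `x` is a unit of the integral closure of `ℤ[1/m]`. -/
def IsUnitAway (m : ℕ) (x : Kbar) : Prop := x ≠ 0 ∧ IsIntAway m x ∧ IsIntAway m x⁻¹

theorem IsIntAway.mem_of_inv_mem {m : ℕ} {x : Kbar} (hx : IsIntAway m x)
    (A : ValuationSubring Kbar) (hm : ((m : Kbar))⁻¹ ∈ A) (hm0 : m ≠ 0) : x ∈ A := by
  obtain ⟨k, hk⟩ := hx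
  have h1 : (m : Kbar) ^ k * x ∈ A := by
    have hint : IsIntegral A ((m : Kbar) ^ k * x) := hk.tower_top
    obtain ⟨y, hy⟩ := (IsIntegrallyClosed.isIntegral_iff (R := A) (K := Kbar)).mp hint
    rw [← hy]
    exact y.2
  have hmK : (m : Kbar) ≠ 0 := Nat.cast_ne_zero.mpr hm0
  have : x = ((m : Kbar))⁻¹ ^ k * ((m : Kbar) ^ k * x) := by
    rw [← mul_assoc, ← mul_pow, inv_mul_cancel₀ hmK, one_pow, one_mul]
  rw [this]
  exact A.mul_mem _ _ (A.pow_mem hm k) h1

theorem IsUnitAway.inv_mem_of_inv_mem {m : ℕ} {x : Kbar} (hx : IsUnitAway m x)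
    (A : ValuationSubring Kbar) (hm : ((m : Kbar))⁻¹ ∈ A) (hm0 : m ≠ 0) : x ∈ A ∧ x⁻¹ ∈ A :=
  ⟨hx.2.1.mem_of_inv_mem A hm hm0, hx.2.2.mem_of_inv_mem A hm hm0⟩

theorem isIntAway_of_isIntegral {m : ℕ} {x : Kbar} (hx : IsIntegral ℤ x) : IsIntAway m x :=
  ⟨0, by simpa using hx⟩

theorem IsIntAway.add {m : ℕ} {x y : Kbar} (hx : IsIntAway m x) (hy : IsIntAway m y) :
    IsIntAway m (x + y) := by
  obtain ⟨k, hk⟩ := hx
  obtain ⟨l, hl⟩ := hy
  refine ⟨k + l, ?_⟩
  have hmI : IsIntegral ℤ (m : Kbar) := by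
    have h := isIntegral_algebraMap (R := ℤ) (A := Kbar) (x := (m : ℤ))
    simpa using h
  have : (m : Kbar) ^ (k + l) * (x + y)
      = (m : Kbar) ^ l * ((m : Kbar) ^ k * x) + (m : Kbar) ^ k * ((m : Kbar) ^ l * y) := by
    rw [_root_.pow_add]; ring
  rw [this]
  exact ((hmI.pow l).mul hk).add ((hmI.pow k).mul hl)

theorem IsIntAway.mul {m : ℕ} {x y : Kbar} (hx : IsIntAway m x) (hy : IsIntAway m y) :
    IsIntAway m (x * y) := by
  obtain ⟨k, hk⟩ := hx
  obtain ⟨l, hl⟩ := hy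
  refine ⟨k + l, ?_⟩
  have : (m : Kbar) ^ (k + l) * (x * y) = ((m : Kbar) ^ k * x) * ((m : Kbar) ^ l * y) := by
    rw [_root_.pow_add]; ring
  rw [this]
  exact hk.mul hl

theorem IsIntAway.neg {m : ℕ} {x : Kbar} (hx : IsIntAway m x) : IsIntAway m (-x) := by
  obtain ⟨k, hk⟩ := hx
  exact ⟨k, by rw [mul_neg]; exact hk.neg⟩

theorem isIntAway_inv_self (m : ℕ) : IsIntAway m ((m : Kbar))⁻¹ := by
  by_cases hm : (m : Kbar) = 0
  · exact ⟨0, by rw [hm]; simp; exact isIntegral_zero⟩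
  · exact ⟨1, by rw [pow_one, mul_inv_cancel₀ hm]; exact isIntegral_one⟩

/-! ### the formal Hauptmodul and the exports -/

section Exports

variable (n e : ℕ) [NeZero n]

/-- the formal Hauptmodul over `ℚbar`. -/
abbrev tK : LaurentSeries Kbar := tq Kbar n e

/-- (B2) `t ∈ Fbar_M`. -/
def TMem (M : ℕ) [NeZero M] : Prop := tK n e ∈ ModularCurve.modularFunctionFieldBar M

variable {n e}

/-- `t` as an element of `FF M`. -/
def tF (M : ℕ) [NeZero M] (h : TMem n e M) : FF M := ⟨tK n e, h⟩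

variable (n e)

/-- (B2') analytic dictionary: `t = a/b` with `Θ a = Θ b · tauFun`. -/
def TRealize (M : ℕ) [NeZero M] : Prop :=
  ∃ h : TMem n e M, ∃ a b : Rsub M, b ≠ 0 ∧ tF M h * (b : FF M) = (a : FF M) ∧
    ∀ z : ℍ, (realizeData M).Θ a z = (realizeData M).Θ b z * tauFun n e z

/-- (B3) `ℚbar(t) = Fbar_n` at the base level. -/
def TGenBase : Prop := ∃ h : TMem n e n, Kbar⟮tF n h⟯ = ⊤

/-- (B3') `t` is a transcendental generator of `Fbar_M`. -/
def TIsGen (M : ℕ) [NeZero M] : Prop := ∃ h : TMem n e M, FF.IsGen Kbar (tF M h)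

/-- (B6) branched only over the cusp values: at every place of `Fbar_M` which is not over
`j = ∞`, `t` is regular and `t - t(v)` is a uniformiser. -/
def Unbranched (M : ℕ) [NeZero M] : Prop :=
  ∃ h : TMem n e M, ∀ v : Place Kbar (FF M), 0 ≤ v.ord (jF M) →
    ∃ c : Kbar, v.ord (tF M h - algebraMap Kbar (FF M) c) = 1

/-- (B5) the shape of one cusp expansion `E = (cuspData M).T γ t ∈ ℚbar((q_M))`:
either `E⁻¹ = λ q_M^a V` (pole) or `E = c + λ q_M^a V` (finite value `c`), with `a > 0`, `V ∈ 1 + q_M ℚbar⟦q_M⟧`, all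
of `c`, the coefficients of `V` integral away from `m`, and `λ` a unit away from `m`. -/
def CuspShape (m : ℕ) (E : LaurentSeries Kbar) (c : Option Kbar) : Prop :=
  ∃ (a : ℕ) (lam : Kbar) (V : PowerSeries Kbar), 0 < a ∧ IsUnitAway m lam ∧
    PowerSeries.constantCoeff V = 1 ∧ (∀ i, IsIntAway m (PowerSeries.coeff i V)) ∧
    match c with
    | none => E⁻¹ = HahnSeries.C lam * HahnSeries.single (a : ℤ) 1 * HahnSeries.ofPowerSeries ℤ Kbar V
    | some c => IsIntAway m c ∧
        E = HahnSeries.C c + HahnSeries.C lam * HahnSeries.single (a : ℤ) 1 *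
          HahnSeries.ofPowerSeries ℤ Kbar V

/-- (B5) every cusp expansion of `t` at level `M` has the cusp shape, with a value function
`cv : SL₂(ℤ) → Option ℚbar` (`none` = pole). -/
def CuspExp (M : ℕ) [NeZero M] (cv : SL(2, ℤ) → Option Kbar) : Prop :=
  ∃ h : TMem n e M, ∀ γ : SL(2, ℤ), CuspShape n ((cuspData M).T γ (tF M h)) (cv γ)

/-- (B4) two finite cusp values are equal or differ by a unit away from `n`. -/
def CuspSeparated (cv : SL(2, ℤ) → Option Kbar) : Prop :=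
  ∀ (γ γ' : SL(2, ℤ)) (c c' : Kbar), cv γ = some c → cv γ' = some c' →
    c = c' ∨ IsUnitAway n (c - c')

/-- `Fbar_N ≤ Fbar_M` for `N ∣ M` (as sets of Laurent series). -/
theorem fbar_mono {N M : ℕ} [NeZero N] [NeZero M] (h : N ∣ M) :
    ModularCurve.modularFunctionFieldBar N ≤ ModularCurve.modularFunctionFieldBar M := by
  unfold ModularCurve.modularFunctionFieldBar ModularCurve.laurentBaseChange
  apply IntermediateField.adjoin.mono
  rintro _ ⟨x, hx, rfl⟩
  exact ⟨x, ModularCurve.full_degeneracy_le h hx, rfl⟩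

variable {n e} in
theorem TMem.mono {N M : ℕ} [NeZero N] [NeZero M] (h : N ∣ M) (ht : TMem n e N) : TMem n e M :=
  fbar_mono h ht

end Exports

end Fermat.Agent.RED.BASE.Interface12
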