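/-
Program H (S18) / chapter RED/BASE / helper19.

`PrimAdd19`: the primitive element theorem in "additive closure" form (pure Mathlib).

`K` a field of characteristic zero, `Ω/K` a field extension, `A ⊆ Ω` an additive subgroup all of
whose elements are roots of monic polynomials of degree `ψ` over `K`.  Then for every finite
`G ⊆ A` the field `K(G)` is generated by ONE element of `A`; hence `[K(G) : K] ≤ ψ`.
-/
import Mathlib

set_option autoImplicit false

open IntermediateField Polynomial

namespace Fermat.Agent.RED.BASE.PrimAdd19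

variable {K Ω : Type*} [Field K] [CharZero K] [Field Ω] [Algebra K Ω]

/-- Pigeonhole form of the primitive element theorem: for integral `α, β` some `α + n β`
(`n : ℕ`) generates `K(α, β)`. -/
theorem exists_nat_adjoin_pair_eq (α β : Ω) (hα : IsIntegral K α) (hβ : IsIntegral K β) :
    ∃ n : ℕ, K⟮α, β⟯ = K⟮α + (n : Ω) * β⟯ := by
  classical
  set E : IntermediateField K Ω := K⟮α, β⟯ with hE
  have hfd : FiniteDimensional K E := by
    refine IntermediateField.finiteDimensional_adjoin fun x hx => ?_
    rcases hx with rfl | hx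
    · exact hα
    · rw [Set.mem_singleton_iff] at hx
      exact hx ▸ hβ
  have hsep : Algebra.IsSeparable K E := inferInstance
  have hfin : Finite (IntermediateField K E) :=
    Field.finite_intermediateField_of_exists_primitive_element K E
      (Field.exists_primitive_element K E)
  have hαE : α ∈ E := subset_adjoin K _ (Set.mem_insert _ _)
  have hβE : β ∈ E := subset_adjoin K _ (Set.mem_insert_of_mem _ rfl)
  have hmem : ∀ n : ℕ, α + (n : Ω) * β ∈ E := fun n =>
    E.add_mem hαE (E.mul_mem (_root_.natCast_mem E n) hβE)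
  -- the fields `K(α + n β)`, as intermediate fields of `E`
  let φ : ℕ → IntermediateField K E := fun n => K⟮(⟨α + (n : Ω) * β, hmem n⟩ : E)⟯
  obtain ⟨n, m, hnm, hφ⟩ := Finite.exists_ne_map_eq_of_infinite φ
  refine ⟨n, le_antisymm ?_ ?_⟩
  · -- `α, β ∈ K(α + n β)`
    set M : IntermediateField K E := φ n with hM
    have hn : (⟨α + (n : Ω) * β, hmem n⟩ : E) ∈ M := mem_adjoin_simple_self K _
    have hm : (⟨α + (m : Ω) * β, hmem m⟩ : E) ∈ M := by
      rw [hφ]
      exact mem_adjoin_simple_self K _
    have hsub : (((n : E) - (m : E)) * ⟨β, hβE⟩ : E) ∈ M := by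
      have := M.sub_mem hn hm
      have e : (⟨α + (n : Ω) * β, hmem n⟩ : E) - ⟨α + (m : Ω) * β, hmem m⟩ =
          ((n : E) - (m : E)) * ⟨β, hβE⟩ := by
        apply Subtype.ext
        push_cast
        ring
      rwa [e] at this
    have hne : ((n : E) - (m : E)) ≠ 0 := by
      rw [sub_ne_zero]
      exact_mod_cast hnm
    have hcoef : ((n : E) - (m : E)) ∈ M :=
      M.sub_mem (_root_.natCast_mem M n) (_root_.natCast_mem M m)
    have hβM : (⟨β, hβE⟩ : E) ∈ M := by
      have := M.mul_mem (M.inv_mem hcoef) hsub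
      rwa [← mul_assoc, inv_mul_cancel₀ hne, one_mul] at this
    have hαM : (⟨α, hαE⟩ : E) ∈ M := by
      have := M.sub_mem hn (M.mul_mem (_root_.natCast_mem M n) hβM)
      have e : (⟨α + (n : Ω) * β, hmem n⟩ : E) - (n : E) * ⟨β, hβE⟩ = ⟨α, hαE⟩ := by
        apply Subtype.ext
        push_cast
        ring
      rwa [e] at this
    -- transfer to `Ω`
    have hlift : IntermediateField.lift M = K⟮α + (n : Ω) * β⟯ := by
      rw [hM]
      exact IntermediateField.lift_adjoin_simple K E _
    rw [← hlift]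
    refine IntermediateField.adjoin_le_iff.mpr ?_
    intro x hx
    rcases hx with rfl | hx
    · exact (IntermediateField.mem_lift (⟨x, hαE⟩ : E)).mpr hαM
    · rw [Set.mem_singleton_iff] at hx
      subst hx
      exact (IntermediateField.mem_lift (⟨x, hβE⟩ : E)).mpr hβM
  · rw [adjoin_simple_le_iff]
    exact hmem n

/-- Every finite subset `G` of an additive subgroup `A` of integral elements generates a field
which is generated by a single element of `A`. -/
theorem exists_mem_adjoin_eq (A : AddSubgroup Ω) (hA : ∀ a ∈ A, IsIntegral K a) (G : Finset Ω)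
    (hG : ∀ x ∈ G, x ∈ A) : ∃ θ ∈ A, IntermediateField.adjoin K (G : Set Ω) = K⟮θ⟯ := by
  classical
  induction G using Finset.induction_on with
  | empty =>
    refine ⟨0, A.zero_mem, ?_⟩
    rw [Finset.coe_empty, adjoin_empty, adjoin_zero]
  | insert β G' hβ ih =>
    obtain ⟨θ', hθ'A, hθ'⟩ := ih fun x hx => hG x (Finset.mem_insert_of_mem hx)
    have hβA : β ∈ A := hG β (Finset.mem_insert_self _ _)
    obtain ⟨n, hn⟩ := exists_nat_adjoin_pair_eq (K := K) θ' β (hA _ hθ'A) (hA _ hβA)
    refine ⟨θ' + (n : Ω) * β, A.add_mem hθ'A ?_, ?_⟩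
    · rw [← nsmul_eq_mul]
      exact A.nsmul_mem hβA n
    · rw [Finset.coe_insert, ← adjoin_insert_adjoin, hθ', adjoin_insert_adjoin, Set.pair_comm]
      exact hn

/-- **Degree bound.**  If every element of the additive subgroup `A` is a root of a monic polynomial
of degree `ψ` over `K`, then every finite `G ⊆ A` generates a field of degree `≤ ψ`. -/
theorem finrank_adjoin_le (A : AddSubgroup Ω) (ψ : ℕ)
    (hA : ∀ a ∈ A, ∃ p : K[X], p.Monic ∧ p.natDegree = ψ ∧ aeval a p = 0) (G : Finset Ω)
    (hG : ∀ x ∈ G, x ∈ A) :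
    FiniteDimensional K (IntermediateField.adjoin K (G : Set Ω)) ∧
      Module.finrank K (IntermediateField.adjoin K (G : Set Ω)) ≤ ψ := by
  have hint : ∀ a ∈ A, IsIntegral K a := fun a ha => by
    obtain ⟨p, hp, -, h0⟩ := hA a ha
    exact ⟨p, hp, h0⟩
  obtain ⟨θ, hθA, hθ⟩ := exists_mem_adjoin_eq A hint G hG
  obtain ⟨p, hp, hdeg, h0⟩ := hA θ hθA
  rw [hθ]
  refine ⟨adjoin.finiteDimensional (hint θ hθA), ?_⟩
  rw [adjoin.finrank (hint θ hθA), ← hdeg]
  exact natDegree_le_of_dvd (minpoly.dvd K θ h0) hp.ne_zero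

end Fermat.Agent.RED.BASE.PrimAdd19
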