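/-
Program H (S18) / chapter RED/BASE / helper19.

`QExpMem19`: the `q`-EXPANSION MEMBERSHIP PRINCIPLE for the function field
`FF N = ℚbar(j(q^d) : d ∣ N) ⊆ ℚbar((q))` of `X₀(N)`.

A Laurent series `f ∈ ℚbar((q))` is *nice* (`IsNice N f g`) if it is the convergent `q`-expansion of
a holomorphic `Γ₀(N)`-invariant function `g` on the upper half plane all of whose
`SL(2,ℤ)`-translates have `q_N`-expansions over `ℚbar`.

* `IsNice.exists_monic` : a nice `f` is a root of a MONIC polynomial of degree `ψ(N)` over `ℚbar(j)`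
  (X0 `intg_core` applied to the coset family of `g`);
* `mem_of_isNice`       : a nice `f` lies in `FF N` (degree argument: the nice series form a ring
  containing the generators `j(q^d)`; by the primitive element theorem in additive form
  (`PrimAdd19`) `ℚbar(j)(j(q^d), f)` is generated by a nice element, so has degree `≤ ψ(N)`
  `= [FF N : ℚbar(j)]`);
* `mem_Fbar_of_invariant` : the same in unbundled form;
* exports for the divisor computations: `T_eq_of_isNice` (the cusp expansions `C.T γ` of the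
  element are the given expansions) and `exists_fraction_of_isNice` (`w * b = a`, `a b ∈ R`, with
  `Θ a = Θ b * g` pointwise).
-/
import Mathlib
import Fermat.Agent.X0.Integrality
import Fermat.Agent.X0.Degree
import Fermat.Agent.X0.RealizeData
import Fermat.Agent.X0.CuspExpand
import Fermat.Agent.X0.FracR
import Fermat.Agent.X0.G1Index
import Fermat.Agent.X0.GNPsi
import Fermat.Agent.X0.RootsK
import Fermat.Agent.RED.BASE.PrimAdd19

set_option autoImplicit false
set_option linter.unusedSectionVars false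

open ModularCurve UpperHalfPlane Polynomial IntermediateField
open scoped MatrixGroups

noncomputable section

namespace Fermat.Agent.RED.BASE.QExpMem19

open Fermat.Agent.X0 Fermat.Agent.X0.Analytic

variable (N : ℕ) [NeZero N]

/-- `f` is the `q`-expansion of the holomorphic `Γ₀(N)`-invariant function `g`, and every
`SL(2,ℤ)`-translate of `g` has a `q_N`-expansion over `ℚbar`. -/
structure IsNice (f : LaurentSeries Kbar) (g : ℍ → ℂ) : Prop where
  hol : g ∈ HolH
  inv : ∀ γ : SL(2, ℤ), γ ∈ CongruenceSubgroup.Gamma0 N → compSL g γ = g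
  qexp : HasQExp (toC f) g
  cusp : ∀ γ : SL(2, ℤ), ∃ T : LaurentSeries Kbar, IntgQN N (compSL g γ) (toC T)

variable {N}

theorem IsNice.add {f₁ f₂ : LaurentSeries Kbar} {g₁ g₂ : ℍ → ℂ} (h₁ : IsNice N f₁ g₁)
    (h₂ : IsNice N f₂ g₂) : IsNice N (f₁ + f₂) (g₁ + g₂) where
  hol := HolH.add_mem h₁.hol h₂.hol
  inv γ hγ := by
    show compSL g₁ γ + compSL g₂ γ = _
    rw [h₁.inv γ hγ, h₂.inv γ hγ]
  qexp := by
    rw [map_add]
    exact h₁.qexp.add h₂.qexp
  cusp γ := by
    obtain ⟨T₁, hT₁⟩ := h₁.cusp γ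
    obtain ⟨T₂, hT₂⟩ := h₂.cusp γ
    refine ⟨T₁ + T₂, ?_⟩
    rw [map_add]
    exact intg_qn_add N hT₁ hT₂

theorem IsNice.mul {f₁ f₂ : LaurentSeries Kbar} {g₁ g₂ : ℍ → ℂ} (h₁ : IsNice N f₁ g₁)
    (h₂ : IsNice N f₂ g₂) : IsNice N (f₁ * f₂) (g₁ * g₂) where
  hol := HolH.mul_mem h₁.hol h₂.hol
  inv γ hγ := by
    show compSL g₁ γ * compSL g₂ γ = _
    rw [h₁.inv γ hγ, h₂.inv γ hγ]
  qexp := by
    rw [map_mul]
    exact h₁.qexp.mul h₂.qexp
  cusp γ := by
    obtain ⟨T₁, hT₁⟩ := h₁.cusp γ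
    obtain ⟨T₂, hT₂⟩ := h₂.cusp γ
    refine ⟨T₁ * T₂, ?_⟩
    rw [map_mul]
    exact intg_qn_mul N hT₁ hT₂

theorem toC_C (c : Kbar) : toC (HahnSeries.C c) = HahnSeries.C (iotaK c) := by
  ext n
  rw [toC_coeff, HahnSeries.C_apply, HahnSeries.C_apply, HahnSeries.coeff_single,
    HahnSeries.coeff_single]
  split_ifs
  · rfl
  · exact map_zero _

theorem isNice_const (c : Kbar) : IsNice N (HahnSeries.C c) (fun _ => iotaK c) where
  hol := HolH.algebraMap_mem (iotaK c)
  inv _ _ := rfl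
  qexp := by
    rw [toC_C]
    exact HasQExp.const _
  cusp _ := ⟨HahnSeries.C c, by rw [toC_C]; exact intg_qn_const N _⟩

/-- Elements of `R = ℚbar[j_d : d ∣ N]` are nice. -/
theorem isNice_of_Rsub (u : Rsub N) :
    IsNice N ((u : FF N) : LaurentSeries Kbar) (realize N u) where
  hol := realize_mem_HolH N u
  inv := realize_Gamma0_invariant N u
  qexp := hasQExp_realize N u
  cusp γ := ⟨(cuspData N).T γ (u : FF N), intg_T_spec N (realizeData N) (cuspData N) γ u⟩

variable (N)

/-- The ring of nice Laurent series. -/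
def niceRing : Subring (LaurentSeries Kbar) where
  carrier := {f | ∃ g, IsNice N f g}
  mul_mem' := by
    rintro a b ⟨ga, ha⟩ ⟨gb, hb⟩
    exact ⟨_, ha.mul hb⟩
  one_mem' := ⟨_, by simpa using isNice_const (N := N) 1⟩
  add_mem' := by
    rintro a b ⟨ga, ha⟩ ⟨gb, hb⟩
    exact ⟨_, ha.add hb⟩
  zero_mem' := ⟨_, by simpa using isNice_const (N := N) 0⟩
  neg_mem' := by
    rintro a ⟨ga, ha⟩
    have h := (isNice_const (N := N) (-1)).mul ha
    have e : (HahnSeries.C (-1 : Kbar) : LaurentSeries Kbar) * a = -a := by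
      rw [map_neg, map_one, neg_mul, one_mul]
    rw [e] at h
    exact ⟨_, h⟩

theorem mem_niceRing {f : LaurentSeries Kbar} : f ∈ niceRing N ↔ ∃ g, IsNice N f g := Iff.rfl

/-- The base field `ℚbar(j) ⊆ ℚbar((q))`. -/
abbrev K0 : IntermediateField Kbar (LaurentSeries Kbar) := Kbar⟮jqK⟯

theorem qExpand_algebraMap (c : Kbar) :
    qExpand Kbar N (algebraMap Kbar (LaurentSeries Kbar) c) =
      algebraMap Kbar (LaurentSeries Kbar) c := by
  rw [algebraMap_laurentSeries_eq_single, qExpand_single, mul_zero]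

theorem qExpand_aeval (x : LaurentSeries Kbar) (p : Kbar[X]) :
    qExpand Kbar N (aeval x p) = aeval (qExpand Kbar N x) p := by
  rw [aeval_def, aeval_def, Polynomial.hom_eval₂]
  congr 1
  exact RingHom.ext fun c => qExpand_algebraMap N c

theorem aeval_jqK_mem (p : Kbar[X]) : aeval jqK p ∈ K0 := by
  have hj : jqK ∈ (K0).toSubalgebra := subset_adjoin Kbar {jqK} (Set.mem_singleton _)
  have hle : Algebra.adjoin Kbar {jqK} ≤ (K0).toSubalgebra :=
    Algebra.adjoin_le (Set.singleton_subset_iff.mpr hj)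
  exact hle (Polynomial.aeval_mem_adjoin_singleton Kbar jqK)

variable {N}

/-- A nice series is a root of a monic polynomial of degree `ψ(N)` over `ℚbar(j)`. -/
theorem IsNice.exists_monic {f : LaurentSeries Kbar} {g : ℍ → ℂ} (h : IsNice N f g) :
    ∃ p : (K0)[X], p.Monic ∧ p.natDegree = dedekindPsi N ∧ aeval f p = 0 := by
  classical
  have : Fintype (SL(2, ℤ) ⧸ CongruenceSubgroup.Gamma0 N) := Fintype.ofFinite _
  let rep : SL(2, ℤ) ⧸ CongruenceSubgroup.Gamma0 N → SL(2, ℤ) := Quotient.out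
  have hrep : ∀ x, (rep x : SL(2, ℤ) ⧸ CongruenceSubgroup.Gamma0 N) = x := fun x =>
    QuotientGroup.out_eq' x
  choose T hT using fun x : SL(2, ℤ) ⧸ CongruenceSubgroup.Gamma0 N => h.cusp (rep x)⁻¹
  let x₀ : SL(2, ℤ) ⧸ CongruenceSubgroup.Gamma0 N := ((1 : SL(2, ℤ)) : _)
  -- the permutation of the cosets
  have hperm : ∀ δ : SL(2, ℤ), ∃ σ : Equiv.Perm (SL(2, ℤ) ⧸ CongruenceSubgroup.Gamma0 N),
      ∀ x z, compSL g (rep x)⁻¹ (δ • z) = compSL g (rep (σ x))⁻¹ z := by
    intro δ
    refine ⟨MulAction.toPerm δ⁻¹, fun x z => ?_⟩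
    set a := rep x with ha
    set b := rep ((MulAction.toPerm δ⁻¹ : Equiv.Perm _) x) with hb
    have hcoset : ((b : SL(2, ℤ)) : SL(2, ℤ) ⧸ CongruenceSubgroup.Gamma0 N)
        = ((δ⁻¹ * a : SL(2, ℤ)) : SL(2, ℤ) ⧸ CongruenceSubgroup.Gamma0 N) := by
      rw [hb, hrep, MulAction.toPerm_apply]
      conv_lhs => rw [← hrep x]
      rfl
    have hmem : b⁻¹ * (δ⁻¹ * a) ∈ CongruenceSubgroup.Gamma0 N := QuotientGroup.eq.mp hcoset
    have hmem' : (b⁻¹ * (δ⁻¹ * a))⁻¹ ∈ CongruenceSubgroup.Gamma0 N := inv_mem hmem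
    have hinv' := h.inv _ hmem'
    show g (a⁻¹ • δ • z) = g (b⁻¹ • z)
    have h1 : a⁻¹ • δ • z = (b⁻¹ * (δ⁻¹ * a))⁻¹ • (b⁻¹ • z) := by
      rw [← mul_smul, ← mul_smul]
      congr 1
      group
    rw [h1]
    exact congrFun hinv' (b⁻¹ • z)
  have hcore := intg_core N (fun x => compSL g (rep x)⁻¹) T
    (fun x => compSL_mem_HolH h.hol _) hT hperm
  -- the expansion at the trivial coset
  have hx₀ : T x₀ = qExpand Kbar N f := by
    have hmem : (rep x₀)⁻¹ ∈ CongruenceSubgroup.Gamma0 N := by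
      have h1 : ((rep x₀ : SL(2, ℤ)) : SL(2, ℤ) ⧸ CongruenceSubgroup.Gamma0 N)
          = ((1 : SL(2, ℤ)) : _) := hrep x₀
      have h2 := QuotientGroup.eq.mp h1
      rwa [mul_one] at h2
    have h3 := hT x₀
    rw [h.inv _ hmem] at h3
    have h4 : IntgQN N g (toC (qExpand Kbar N f)) := by
      rw [toC, ModularCurve.coeffMap_qExpand]
      exact h.qexp.qExpand N
    exact toC_injective (intg_qn_unique N h3 h4)
  -- the base embedding
  let φ : K0 →+* LaurentSeries Kbar :=
    (qExpand Kbar N).comp (algebraMap K0 (LaurentSeries Kbar))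
  set Q : (LaurentSeries Kbar)[X] := ∏ x, (X - C (T x)) with hQ
  have hQm : Q.Monic := monic_prod_of_monic _ _ fun x _ => monic_X_sub_C (T x)
  have hl : Q ∈ Polynomial.lifts φ := by
    rw [Polynomial.lifts_iff_coeff_lifts]
    intro k
    obtain ⟨p, hp, -⟩ := hcore k
    refine ⟨⟨aeval jqK p, aeval_jqK_mem p⟩, ?_⟩
    show qExpand Kbar N (aeval jqK p) = Q.coeff k
    rw [hp, qExpand_aeval]
  obtain ⟨p, hp, hdeg, hm⟩ := Polynomial.lifts_and_degree_eq_and_monic hl hQm
  refine ⟨p, hm, ?_, ?_⟩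
  · have h1 : p.natDegree = Q.natDegree := natDegree_eq_natDegree hdeg
    rw [h1, hQ, natDegree_prod_of_monic _ _ fun x _ => monic_X_sub_C (T x)]
    simp only [natDegree_X_sub_C, Finset.sum_const, Finset.card_univ, smul_eq_mul, mul_one]
    rw [← Nat.card_eq_fintype_card, G1Index.g1_card]
  · apply (qExpand Kbar N).injective
    rw [map_zero, aeval_def, Polynomial.hom_eval₂]
    show eval₂ φ (qExpand Kbar N f) p = 0
    rw [← Polynomial.eval_map, hp, ← hx₀, hQ, eval_prod]
    exact Finset.prod_eq_zero (Finset.mem_univ x₀) (by simp)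

variable (N)

theorem K0_le : K0 ≤ modularFunctionFieldBar N := by
  rw [adjoin_simple_le_iff, ← Fermat.Agent.X0.coe_jF N]
  exact (jF N).2

/-- `FF N` as an intermediate field of `ℚbar((q)) / ℚbar(j)`. -/
def Lext : IntermediateField K0 (LaurentSeries Kbar) := extendScalars (K0_le N)

theorem mem_Lext {x : LaurentSeries Kbar} : x ∈ Lext N ↔ x ∈ modularFunctionFieldBar N := Iff.rfl

/-- `ℚbar(j) ⊆ FF N` corresponds to `K0 ⊆ ℚbar((q))`. -/
theorem lift_adjoin_jF :
    IntermediateField.lift (Kbar⟮jF N⟯ : IntermediateField Kbar (FF N)) = K0 := by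
  rw [IntermediateField.lift_adjoin_simple, Fermat.Agent.X0.coe_jF]

/-- `[FF N : ℚbar(j)] = ψ(N)`, for `FF N` as an intermediate field of `ℚbar((q)) / ℚbar(j)`. -/
theorem finrank_Lext : Module.finrank K0 (Lext N) = dedekindPsi N := by
  rw [← Degree.finrank_adjoin N (realizeData N) (cuspData N)]
  symm
  let i : (Kbar⟮jF N⟯ : IntermediateField Kbar (FF N)) ≃+* K0 :=
    ((IntermediateField.liftAlgEquiv (Kbar⟮jF N⟯ : IntermediateField Kbar (FF N))).trans
      (IntermediateField.equivOfEq (lift_adjoin_jF N))).toRingEquiv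
  let j : FF N ≃+* Lext N :=
    { toFun := fun x => ⟨x.1, x.2⟩
      invFun := fun x => ⟨x.1, x.2⟩
      left_inv := fun _ => rfl
      right_inv := fun _ => rfl
      map_mul' := fun _ _ => rfl
      map_add' := fun _ _ => rfl }
  refine Algebra.finrank_eq_of_equiv_equiv i j ?_
  ext x
  rfl

theorem finiteDimensional_Lext : FiniteDimensional K0 (Lext N) := by
  apply FiniteDimensional.of_finrank_pos
  rw [finrank_Lext]
  exact GNPsi.gnp_dedekindPsi_pos (NeZero.ne N)

/-- The generator `j(q^d)` (`0` if `d ∤ N`), as a Laurent series. -/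
def gen (d : ℕ) : LaurentSeries Kbar :=
  if h : d ∣ N then
    haveI : NeZero d := ⟨ne_zero_of_dvd_ne_zero (NeZero.ne N) h⟩
    ((jdF N d h : FF N) : LaurentSeries Kbar)
  else 0

theorem gen_mem_niceRing (d : ℕ) : gen N d ∈ niceRing N := by
  unfold gen
  split_ifs with h
  · have : NeZero d := ⟨ne_zero_of_dvd_ne_zero (NeZero.ne N) h⟩
    exact ⟨_, isNice_of_Rsub (FracR.jdR N d h)⟩
  · exact (niceRing N).zero_mem

theorem gen_eq (d : ℕ) [NeZero d] (hd : d ∣ N) :
    gen N d = ((jdF N d hd : FF N) : LaurentSeries Kbar) := by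
  unfold gen
  rw [dif_pos hd]

variable {N}

/-- **`q`-expansion membership principle.** A nice Laurent series lies in the function field
`FF N = ℚbar(j(q^d) : d ∣ N)`. -/
theorem mem_of_isNice {f : LaurentSeries Kbar} {g : ℍ → ℂ} (h : IsNice N f g) :
    f ∈ modularFunctionFieldBar N := by
  classical
  set G : Finset (LaurentSeries Kbar) := insert f (N.divisors.image (gen N)) with hG
  have hGA : ∀ x ∈ G, x ∈ (niceRing N).toAddSubgroup := by
    intro x hx
    rw [hG, Finset.mem_insert, Finset.mem_image] at hx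
    rcases hx with rfl | ⟨d, -, rfl⟩
    · exact ⟨g, h⟩
    · exact gen_mem_niceRing N d
  have hA : ∀ a ∈ (niceRing N).toAddSubgroup,
      ∃ p : (K0)[X], p.Monic ∧ p.natDegree = dedekindPsi N ∧ aeval a p = 0 := by
    rintro a ⟨ga, ha⟩
    exact ha.exists_monic
  obtain ⟨hfd, hle⟩ := PrimAdd19.finrank_adjoin_le (K := K0) (niceRing N).toAddSubgroup
    (dedekindPsi N) hA G hGA
  set E1 : IntermediateField K0 (LaurentSeries Kbar) :=
    IntermediateField.adjoin K0 (G : Set (LaurentSeries Kbar)) with hE1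
  -- `FF N ≤ E1`
  have hLE : Lext N ≤ E1 := by
    intro x hx
    rw [mem_Lext] at hx
    let M : IntermediateField Kbar (FF N) :=
      (E1.restrictScalars Kbar).comap (modularFunctionFieldBar N).val
    have hM : IntermediateField.adjoin Kbar (genSet N) ≤ M := by
      rw [IntermediateField.adjoin_le_iff]
      rintro y ⟨d, hd0, hd, rfl⟩
      show ((jdF N d hd : FF N) : LaurentSeries Kbar) ∈ E1
      rw [← gen_eq N d hd]
      refine IntermediateField.subset_adjoin K0 _ ?_
      rw [hG, Finset.coe_insert, Finset.coe_image]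
      refine Set.mem_insert_of_mem _ ⟨d, ?_, rfl⟩
      exact Finset.mem_coe.mpr (Nat.mem_divisors.mpr ⟨hd, NeZero.ne N⟩)
    exact hM (FracR.mem_adjoin_genSet N ⟨x, hx⟩)
  have hfE1 : f ∈ E1 := by
    refine IntermediateField.subset_adjoin K0 _ ?_
    rw [hG, Finset.coe_insert]
    exact Set.mem_insert _ _
  -- equality by degrees
  have heq : (Lext N).toSubalgebra.toSubmodule = E1.toSubalgebra.toSubmodule := by
    have : FiniteDimensional K0 E1.toSubalgebra.toSubmodule := hfd
    refine Submodule.eq_of_le_of_finrank_le hLE ?_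
    have h1 : Module.finrank K0 (Lext N).toSubalgebra.toSubmodule = dedekindPsi N :=
      finrank_Lext N
    rw [h1]
    exact hle
  have : f ∈ (Lext N).toSubalgebra.toSubmodule := by
    rw [heq]
    exact hfE1
  exact this

/-- Unbundled form. -/
theorem mem_Fbar_of_invariant (g : ℍ → ℂ) (hg : g ∈ HolH)
    (hinv : ∀ γ : SL(2, ℤ), γ ∈ CongruenceSubgroup.Gamma0 N → compSL g γ = g)
    (T : SL(2, ℤ) → LaurentSeries Kbar) (hexp : ∀ γ, IntgQN N (compSL g γ) (toC (T γ)))
    (f : LaurentSeries Kbar) (hf : HasQExp (toC f) g) : f ∈ modularFunctionFieldBar N :=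
  mem_of_isNice ⟨hg, hinv, hf, fun γ => ⟨T γ, hexp γ⟩⟩

/-- **Export (ii).** The element `w = ⟨f, _⟩` of `FF N` attached to a nice series is a fraction
`a / b` of elements of `R = ℚbar[j_d]` whose realisations satisfy `Θ a = Θ b * g` pointwise. -/
theorem exists_fraction_of_isNice {f : LaurentSeries Kbar} {g : ℍ → ℂ} (h : IsNice N f g) :
    ∃ a b : Rsub N, b ≠ 0 ∧ (⟨f, mem_of_isNice h⟩ : FF N) * (b : FF N) = (a : FF N) ∧
      ∀ z, realize N a z = realize N b z * g z := by
  obtain ⟨a, b, hb, hw⟩ := FracR.exists_div_ne_zero N (⟨f, mem_of_isNice h⟩ : FF N)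
  have hb' : (b : FF N) ≠ 0 := fun h0 => hb (Subtype.ext h0)
  have hwb : (⟨f, mem_of_isNice h⟩ : FF N) * (b : FF N) = (a : FF N) := by
    rw [hw, div_mul_cancel₀ _ hb']
  refine ⟨a, b, hb, hwb, fun z => ?_⟩
  have hser : ((a : FF N) : LaurentSeries Kbar) = f * ((b : FF N) : LaurentSeries Kbar) := by
    rw [← hwb]
    rfl
  have h1 : HasQExp (toC ((a : FF N) : LaurentSeries Kbar)) (g * realize N b) := by
    rw [hser, map_mul]
    exact h.qexp.mul (hasQExp_realize N b)
  have h2 := HasQExp.unique_right (hasQExp_realize N a) h1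
  rw [h2]
  show g z * realize N b z = realize N b z * g z
  ring

/-- **Export (i).** The cusp expansions of the element attached to a nice series are the
`q_N`-expansions of the translates of `g`. -/
theorem T_eq_of_isNice {f : LaurentSeries Kbar} {g : ℍ → ℂ} (h : IsNice N f g) (γ : SL(2, ℤ))
    (T : LaurentSeries Kbar) (hT : IntgQN N (compSL g γ) (toC T)) :
    (cuspData N).T γ (⟨f, mem_of_isNice h⟩ : FF N) = T := by
  obtain ⟨a, b, hb, hwb, hfun⟩ := exists_fraction_of_isNice h
  have hb' : (b : FF N) ≠ 0 := fun h0 => hb (Subtype.ext h0)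
  have hTb : (cuspData N).T γ (b : FF N) ≠ 0 := by
    rw [Ne, map_eq_zero_iff _ ((cuspData N).T γ).injective]
    exact hb'
  have ha := intg_T_spec N (realizeData N) (cuspData N) γ a
  have hbs := intg_T_spec N (realizeData N) (cuspData N) γ b
  have hfun' : compSL ((realizeData N).Θ a) γ = compSL ((realizeData N).Θ b) γ * compSL g γ := by
    funext z
    exact hfun (γ • z)
  rw [hfun'] at ha
  have hprod := intg_qn_mul N hbs hT
  have h3 := toC_injective (by
    rw [map_mul]
    exact intg_qn_unique N ha hprod :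
      toC ((cuspData N).T γ (a : FF N)) = toC ((cuspData N).T γ (b : FF N) * T))
  rw [← hwb, map_mul, mul_comm] at h3
  exact mul_left_cancel₀ hTb h3

/-- Exports (i), (ii) in unbundled form. -/
theorem exports_of_invariant (g : ℍ → ℂ) (hg : g ∈ HolH)
    (hinv : ∀ γ : SL(2, ℤ), γ ∈ CongruenceSubgroup.Gamma0 N → compSL g γ = g)
    (T : SL(2, ℤ) → LaurentSeries Kbar) (hexp : ∀ γ, IntgQN N (compSL g γ) (toC (T γ)))
    (f : LaurentSeries Kbar) (hf : HasQExp (toC f) g) :
    ∃ hmem : f ∈ modularFunctionFieldBar N,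
      (∀ γ, (cuspData N).T γ (⟨f, hmem⟩ : FF N) = T γ) ∧
      ∃ a b : Rsub N, b ≠ 0 ∧ (⟨f, hmem⟩ : FF N) * (b : FF N) = (a : FF N) ∧
        ∀ z, (realizeData N).Θ a z = (realizeData N).Θ b z * g z := by
  have h : IsNice N f g := ⟨hg, hinv, hf, fun γ => ⟨T γ, hexp γ⟩⟩
  exact ⟨mem_of_isNice h, fun γ => T_eq_of_isNice h γ (T γ) (hexp γ), exists_fraction_of_isNice h⟩

end Fermat.Agent.RED.BASE.QExpMem19
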