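/-
Program H (S18) / chapter RED/BASE / helper19.

`TGen19` (B2'), (B3): consequences of `TMem n e M` (`t ∈ Fbar_M`).

* `exists_fraction_of_mem`, `T_eq_of_mem` : the analytic dictionary (fraction `w b = a` with
  `Θ a = Θ b · g`; identification of the cusp expansions) for ANY `f ∈ Fbar_N` which is the
  convergent `q`-expansion of a function `g` (no invariance hypothesis needed);
* `tRealize_of_tMem`   : `TMem n e M → TRealize n e M`;
* `order_tK`, `transcendental_tF`, `tIsGen_of_tMem` : `TMem n e M → TIsGen n e M`;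
* `adjoin_eq_top_of_unique_simple_pole` : in a function field `F/K` (with a transcendental generator)
  an element with exactly one pole, of order one, generates `F`;
* `tGenBase_of_poles`  : `TGenBase n e` from the pole data of `t` at level `n`;
* `finrank_adjoin_tF_mul`, `finrank_adjoin_tF` : `[Fbar_M : ℚbar(t)] = ψ(M)/ψ(n)` for `n ∣ M`, given
  `TGenBase n e`.
-/
import Mathlib
import Fermat.Agent.RED.BASE.QExpMem19
import Fermat.Agent.RED.BASE.Interface12
import Fermat.Agent.X0.FFSum
import Fermat.Agent.X0.FFExchange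
import Fermat.Agent.X0.FFPlace
import Fermat.Agent.X0.LaurentPlace

set_option autoImplicit false
set_option linter.unusedSectionVars false

open ModularCurve UpperHalfPlane Polynomial IntermediateField AlgebraicCurve
open scoped MatrixGroups

noncomputable section

namespace Fermat.Agent.RED.BASE.TGen19

open Fermat.Agent.X0 Fermat.Agent.X0.Analytic
open Fermat.Agent.RED.BASE.QExpMem19 Fermat.Agent.RED.BASE.Interface12
  Fermat.Agent.RED.BASE.EtaQuot12

/-! ### the analytic dictionary from membership alone -/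

section Dictionary

variable {N : ℕ} [NeZero N]

/-- **(ii)** An element `w = ⟨f, _⟩` of `FF N` whose series is the convergent `q`-expansion of `g` is a
fraction `a / b` of elements of `R = ℚbar[j_d]` with `Θ a = Θ b * g` pointwise. -/
theorem exists_fraction_of_mem {f : LaurentSeries Kbar} {g : ℍ → ℂ}
    (hf : f ∈ modularFunctionFieldBar N) (hq : HasQExp (toC f) g) :
    ∃ a b : Rsub N, b ≠ 0 ∧ (⟨f, hf⟩ : FF N) * (b : FF N) = (a : FF N) ∧
      ∀ z, (realizeData N).Θ a z = (realizeData N).Θ b z * g z := by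
  obtain ⟨a, b, hb, hw⟩ := FracR.exists_div_ne_zero N (⟨f, hf⟩ : FF N)
  have hb' : (b : FF N) ≠ 0 := fun h0 => hb (Subtype.ext h0)
  have hwb : (⟨f, hf⟩ : FF N) * (b : FF N) = (a : FF N) := by
    rw [hw, div_mul_cancel₀ _ hb']
  refine ⟨a, b, hb, hwb, fun z => ?_⟩
  have hser : ((a : FF N) : LaurentSeries Kbar) = f * ((b : FF N) : LaurentSeries Kbar) := by
    rw [← hwb]
    rfl
  have h1 : HasQExp (toC ((a : FF N) : LaurentSeries Kbar)) (g * realize N b) := by
    rw [hser, map_mul]
    exact hq.mul (hasQExp_realize N b)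
  have h2 := HasQExp.unique_right (hasQExp_realize N a) h1
  show realize N a z = realize N b z * g z
  rw [h2]
  show g z * realize N b z = realize N b z * g z
  ring

/-- **(i)** The cusp expansion `C.T γ w` is the `q_N`-expansion of `g ∘ γ`. -/
theorem T_eq_of_mem {f : LaurentSeries Kbar} {g : ℍ → ℂ}
    (hf : f ∈ modularFunctionFieldBar N) (hq : HasQExp (toC f) g) (γ : SL(2, ℤ))
    (T : LaurentSeries Kbar) (hT : IntgQN N (compSL g γ) (toC T)) :
    (cuspData N).T γ (⟨f, hf⟩ : FF N) = T := by
  obtain ⟨a, b, hb, hwb, hfun⟩ := exists_fraction_of_mem hf hq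
  have hb' : (b : FF N) ≠ 0 := fun h0 => hb (Subtype.ext h0)
  have hTb : (cuspData N).T γ (b : FF N) ≠ 0 := by
    rw [Ne, map_eq_zero_iff _ ((cuspData N).T γ).injective]
    exact hb'
  have ha := intg_T_spec N (realizeData N) (cuspData N) γ a
  have hbs := intg_T_spec N (realizeData N) (cuspData N) γ b
  have hfun' : compSL ((realizeData N).Θ a) γ = compSL ((realizeData N).Θ b) γ * compSL g γ := by
    funext z
    exact hfun (γ • z)
  rw [hfun'] at ha
  have hprod := intg_qn_mul N hbs hT
  have h3 := toC_injective (by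
    rw [map_mul]
    exact intg_qn_unique N ha hprod :
      toC ((cuspData N).T γ (a : FF N)) = toC ((cuspData N).T γ (b : FF N) * T))
  rw [← hwb, map_mul, mul_comm] at h3
  exact mul_left_cancel₀ hTb h3

/-- The function `g` attached to an element of `FF N` is `Γ₀(N)`-invariant. -/
theorem invariant_of_mem {f : LaurentSeries Kbar} {g : ℍ → ℂ}
    (hf : f ∈ modularFunctionFieldBar N) (hq : HasQExp (toC f) g) (γ : SL(2, ℤ))
    (hγ : γ ∈ CongruenceSubgroup.Gamma0 N) : compSL g γ = g := by
  obtain ⟨a, b, hb, hwb, hfun⟩ := exists_fraction_of_mem hf hq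
  -- `Θ b` is a nonzero holomorphic function; `Θ b * (g ∘ γ - g) = 0`
  have ha := realize_Gamma0_invariant N a γ hγ
  have hbi := realize_Gamma0_invariant N b γ hγ
  have hmul : ∀ z, realize N b z * (g (γ • z) - g z) = 0 := by
    intro z
    have h1 : realize N a (γ • z) = realize N b (γ • z) * g (γ • z) := hfun (γ • z)
    have h2 : realize N a z = realize N b z * g z := hfun z
    have h3 : realize N a (γ • z) = realize N a z := congrFun ha z
    have h4 : realize N b (γ • z) = realize N b z := congrFun hbi z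
    rw [h3, h4, h2] at h1
    rw [mul_sub, ← h1, sub_self]
  have hg : g ∈ HolH := hq.mdifferentiable
  have hd : compSL g γ - g ∈ HolH := HolH.sub_mem (compSL_mem_HolH hg γ) hg
  have hprod : realize N b * (compSL g γ - g) = 0 := by
    funext z
    exact hmul z
  rcases mul_eq_zero_HolH (realize_mem_HolH N b) hd hprod with h0 | h0
  · exfalso
    apply hb
    apply realize_injective N
    rw [h0, map_zero]
  · exact sub_eq_zero.mp h0

end Dictionary

/-! ### `TRealize` and `TIsGen` from `TMem` -/

section TFacts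

variable (n e : ℕ) [NeZero n]

/-- **(B2')** `TMem n e M → TRealize n e M`. -/
theorem tRealize_of_tMem (M : ℕ) [NeZero M] (h : TMem n e M) : TRealize n e M :=
  ⟨h, exists_fraction_of_mem h (hasQExp_tauFun_K n e)⟩

/-- The cusp expansions of `t` at level `M` are the `q_M`-expansions of `tauFun ∘ γ`. -/
theorem T_tF_eq (M : ℕ) [NeZero M] (h : TMem n e M) (γ : SL(2, ℤ)) (T : LaurentSeries Kbar)
    (hT : IntgQN M (compSL (tauFun n e) γ) (toC T)) : (cuspData M).T γ (tF M h) = T :=
  T_eq_of_mem h (hasQExp_tauFun_K n e) γ T hT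

/-- `tauFun` is `Γ₀(M)`-invariant as soon as `t ∈ Fbar_M`. -/
theorem tauFun_invariant (M : ℕ) [NeZero M] (h : TMem n e M) (γ : SL(2, ℤ))
    (hγ : γ ∈ CongruenceSubgroup.Gamma0 M) : compSL (tauFun n e) γ = tauFun n e :=
  invariant_of_mem h (hasQExp_tauFun_K n e) γ hγ

theorem tK_ne_zero : tK n e ≠ 0 := by
  intro h
  have := coeff_tq_neg_one Kbar n e
  rw [show tq Kbar n e = tK n e from rfl, h, HahnSeries.coeff_zero] at this
  exact zero_ne_one this

/-- The `q`-adic order of `t` is `-1`. -/
theorem order_tK : (tK n e).order = -1 := by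
  apply le_antisymm
  · exact HahnSeries.order_le_of_coeff_ne_zero (by
      rw [show tK n e = tq Kbar n e from rfl, coeff_tq_neg_one]
      exact one_ne_zero)
  · by_contra hlt
    rw [not_le] at hlt
    have h0 : (tK n e).coeff (tK n e).order ≠ 0 := fun h0 =>
      tK_ne_zero n e (HahnSeries.coeff_order_eq_zero.mp h0)
    exact h0 (coeff_tq_of_lt Kbar n e hlt)

/-- `t` is transcendental over `ℚbar` (it has a pole at the `q`-adic place). -/
theorem transcendental_tF (M : ℕ) [NeZero M] (h : TMem n e M) :
    Transcendental Kbar (tF M h) := by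
  let τ : FF M →+* LaurentSeries Kbar := (modularFunctionFieldBar M).val.toRingHom
  have hτ : ∀ c : Kbar, τ (algebraMap Kbar (FF M) c) = HahnSeries.C c := by
    intro c
    show algebraMap Kbar (LaurentSeries Kbar) c = HahnSeries.C c
    rw [algebraMap_laurentSeries_eq_single]
    rfl
  have ht0 : tF M h ≠ 0 := by
    intro h0
    apply tK_ne_zero n e
    exact congrArg Subtype.val h0
  have hord : (τ (tF M h)).order = -1 := order_tK n e
  have hnt : ∃ f, f ≠ 0 ∧ (τ f).order ≠ 0 := ⟨tF M h, ht0, by rw [hord]; decide⟩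
  obtain ⟨m, hm, hspec⟩ := LaurentPlace.embPlace_spec τ hτ hnt
  apply FF.ffp_transcendental_of_ord_ne_zero (LaurentPlace.embPlace τ hτ hnt)
  intro h0
  have := hspec (tF M h) ht0
  rw [hord, h0, mul_zero] at this
  exact absurd this (by decide)

/-- `t` is a transcendental generator of `Fbar_M`. -/
theorem isGen_tF (M : ℕ) [NeZero M] (h : TMem n e M) : FF.IsGen Kbar (tF M h) := by
  refine ⟨transcendental_tF n e M h, ?_⟩
  have := Degree.finiteDimensional_adjoin M (realizeData M) (cuspData M)
  exact FF.ffx_finiteDimensional_of_transcendental (jF M) (tF M h) (transcendental_tF n e M h)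

/-- **(B3')** `TMem n e M → TIsGen n e M`. -/
theorem tIsGen_of_tMem (M : ℕ) [NeZero M] (h : TMem n e M) : TIsGen n e M :=
  ⟨h, isGen_tF n e M h⟩

end TFacts

/-! ### a unique simple pole -/

section SimplePole

variable {K F : Type*} [Field K] [Field F] [Algebra K F] [IsAlgClosed K] [CharZero K]

/-- In a function field, an element with a unique pole, of order one, has degree one. -/
theorem finrank_eq_one_of_unique_simple_pole {x : F} (hx : FF.IsGen K x) (v₀ : Place K F)
    (h1 : v₀.ord x = -1) (h2 : ∀ v : Place K F, v.ord x < 0 → v = v₀) :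
    Module.finrank K⟮x⟯ F = 1 := by
  classical
  have hsum := FF.sum_ord_poles hx
  have hsingle : ∑ᶠ (v : Place K F) (_ : v.ord x < 0), -v.ord x = 1 := by
    rw [finsum_eq_single _ v₀]
    · rw [finsum_eq_if, if_pos (by rw [h1]; decide), h1]
      rfl
    · intro v hv
      rw [finsum_eq_if, if_neg]
      intro hneg
      exact hv (h2 v hneg)
  rw [hsingle] at hsum
  exact_mod_cast hsum.symm

/-- In a function field, an element with a unique pole, of order one, generates the field. -/
theorem adjoin_eq_top_of_unique_simple_pole {x : F} (hx : FF.IsGen K x) (v₀ : Place K F)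
    (h1 : v₀.ord x = -1) (h2 : ∀ v : Place K F, v.ord x < 0 → v = v₀) : K⟮x⟯ = ⊤ :=
  IntermediateField.finrank_eq_one_iff_eq_top.mp
    (finrank_eq_one_of_unique_simple_pole hx v₀ h1 h2)

end SimplePole

/-- **(B3)** `TGenBase n e` from the pole data of `t` on `X₀(n)`: a unique pole, of order one. -/
theorem tGenBase_of_poles (n e : ℕ) [NeZero n] (h : TMem n e n) (v₀ : Place Kbar (FF n))
    (h1 : v₀.ord (tF n h) = -1) (h2 : ∀ v : Place Kbar (FF n), v.ord (tF n h) < 0 → v = v₀) :
    TGenBase n e := by
  exact ⟨h, adjoin_eq_top_of_unique_simple_pole (isGen_tF n e n h) v₀ h1 h2⟩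

/-! ### the degree of `Fbar_M` over `ℚbar(t)` -/

section Degree

variable (n e : ℕ) [NeZero n]

theorem relfinrank_K0 (N : ℕ) [NeZero N] :
    IntermediateField.relfinrank K0 (modularFunctionFieldBar N) = dedekindPsi N := by
  rw [IntermediateField.relfinrank_eq_finrank_of_le (K0_le N)]
  exact finrank_Lext N

/-- the subfield `ℚbar(t)` of `Fbar_M` is the preimage of `Fbar_n`, when `ℚbar(t) = Fbar_n`. -/
theorem adjoin_tF_eq_comap (hbase : TGenBase n e) (M : ℕ) [NeZero M] (h : TMem n e M) :
    (Kbar⟮tF M h⟯ : IntermediateField Kbar (FF M)) =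
      (modularFunctionFieldBar n).comap (modularFunctionFieldBar M).val := by
  obtain ⟨hn, htop⟩ := hbase
  apply le_antisymm
  · rw [adjoin_simple_le_iff]
    exact hn
  · intro y hy
    have hy' : (y : LaurentSeries Kbar) ∈ modularFunctionFieldBar n := hy
    have h1 : (⟨(y : LaurentSeries Kbar), hy'⟩ : FF n) ∈ (Kbar⟮tF n hn⟯ : IntermediateField Kbar (FF n)) := by
      rw [htop]
      exact IntermediateField.mem_top
    have h2 : (y : LaurentSeries Kbar) ∈ IntermediateField.lift (Kbar⟮tF n hn⟯ : IntermediateField Kbar (FF n)) :=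
      (IntermediateField.mem_lift (⟨(y : LaurentSeries Kbar), hy'⟩ : FF n)).mpr h1
    rw [IntermediateField.lift_adjoin_simple] at h2
    have h3 : (y : LaurentSeries Kbar) ∈ IntermediateField.lift (Kbar⟮tF M h⟯ : IntermediateField Kbar (FF M)) := by
      rw [IntermediateField.lift_adjoin_simple]
      exact h2
    exact (IntermediateField.mem_lift y).mp h3

/-- **(B3)** `[Fbar_M : ℚbar(t)] · ψ(n) = ψ(M)` for `n ∣ M`, when `ℚbar(t) = Fbar_n`. -/
theorem finrank_adjoin_tF_mul (hbase : TGenBase n e) (M : ℕ) [NeZero M] (hnM : n ∣ M)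
    (h : TMem n e M) :
    dedekindPsi n * Module.finrank (Kbar⟮tF M h⟯ : IntermediateField Kbar (FF M)) (FF M) =
      dedekindPsi M := by
  rw [adjoin_tF_eq_comap n e hbase M h, IntermediateField.finrank_comap,
    IntermediateField.fieldRange_val, ← relfinrank_K0 n, ← relfinrank_K0 M]
  exact IntermediateField.relfinrank_mul_relfinrank (K0_le n) (fbar_mono hnM)

/-- The same as a quotient. -/
theorem finrank_adjoin_tF (hbase : TGenBase n e) (M : ℕ) [NeZero M] (hnM : n ∣ M)
    (h : TMem n e M) :
    Module.finrank (Kbar⟮tF M h⟯ : IntermediateField Kbar (FF M)) (FF M) =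
      dedekindPsi M / dedekindPsi n := by
  rw [← finrank_adjoin_tF_mul n e hbase M hnM h,
    Nat.mul_div_cancel_left _ (GNPsi.gnp_dedekindPsi_pos (NeZero.ne n))]

end Degree

end Fermat.Agent.RED.BASE.TGen19
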