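/-
Program H (S18), chapter RED/BASE (helper15): the BASE → GAUSS bridge for the Hauptmodul
`t = tq · n e = q⁻¹ (η(q)/η(q^n))^e` over number fields.

BASE lives over `ℚbar` (`Interface12.TMem n e M : tq ℚbar n e ∈ Fbar_M`); GAUSS / MODEL need, for a
number field `K ⊂ ℚbar` and the valuation ring `O = AK A K`:

* (T1) `exists_tq_mem` : `∃ K₁` f.d., `∀ K` f.d. `⊇ K₁`, `tq K n e ∈ FK M K`
  (descent of coefficients, `CoeffDescent1`, + `tq` has integer coefficients);
* (T2) `tq_mem_gaussRing`, `tG O n e : gaussRing O`, `gaussRed_tG : gaussRed O (tG O n e) = tq κ n e`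
  for every valuation subring `O` of every field;
* (T3) `transcendental_tq` : `tq κ n e` is transcendental over every field `κ`
  (a Laurent series algebraic over the constants is a power series:
  `coeff_eq_zero_of_isAlgebraic`), hence `transcendental_gaussRed_tG` (= `htr` of `G1Package8`);
* (T4) the same for `(tq κ n e)⁻¹`;
* `exists_t` : the combined statement in the literal shape asked for by the integrator.
-/
import Mathlib
import Fermat.Agent.RED.BASE.Interface12
import Fermat.Agent.RED.DESC.CoeffDescent1
import Fermat.Agent.RED.PUR.GaussGen8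
import Fermat.Agent.RED.Interface4

set_option autoImplicit false

noncomputable section

namespace Fermat.Agent.RED.BASE.TBridge15

open HahnSeries ModularCurve
open Fermat.Agent.RED.BASE.EtaQuot12 Fermat.Agent.RED.PUR.GaussGen8
open Fermat.Agent.RED.Interface4 Fermat.Agent.RED.DESC.CoeffDescent1

/-! ### (T3) series algebraic over the constants -/

section T3

variable (κ : Type*) [Field κ]

theorem algebraMap_comp_C :
    (algebraMap (PowerSeries κ) (LaurentSeries κ)).comp (PowerSeries.C (R := κ)) =
      algebraMap κ (LaurentSeries κ) := by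
  ext1 c
  show HahnSeries.ofPowerSeries ℤ κ (PowerSeries.C c) = algebraMap κ (LaurentSeries κ) c
  rw [HahnSeries.algebraMap_apply']
  simp

variable {κ}

/-- A Laurent series algebraic over the field of constants is a power series
(`κ⟦X⟧` is integrally closed in its fraction field `κ⸨X⸩`). -/
theorem exists_ofPowerSeries_eq_of_isAlgebraic {y : LaurentSeries κ} (hy : IsAlgebraic κ y) :
    ∃ Y : PowerSeries κ, HahnSeries.ofPowerSeries ℤ κ Y = y := by
  obtain ⟨p, hp, hpy⟩ := hy.isIntegral
  have h2 : IsIntegral (PowerSeries κ) y := by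
    refine ⟨p.map PowerSeries.C, hp.map _, ?_⟩
    rw [Polynomial.eval₂_map, algebraMap_comp_C]
    exact hpy
  obtain ⟨Y, hY⟩ :=
    (IsIntegrallyClosed.isIntegral_iff (R := PowerSeries κ) (K := LaurentSeries κ)).mp h2
  exact ⟨Y, hY⟩

/-- A Laurent series algebraic over the field of constants has no polar part. -/
theorem coeff_eq_zero_of_isAlgebraic {y : LaurentSeries κ} (hy : IsAlgebraic κ y) {k : ℤ}
    (hk : k < 0) : y.coeff k = 0 := by
  obtain ⟨Y, rfl⟩ := exists_ofPowerSeries_eq_of_isAlgebraic hy
  rw [HahnSeries.ofPowerSeries_apply]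
  simp [HahnSeries.embDomain_of_notMem_range, hk]

/-- A Laurent series with a nonzero polar coefficient is transcendental over the constants. -/
theorem transcendental_of_coeff_ne_zero {y : LaurentSeries κ} {k : ℤ} (hk : k < 0)
    (hy : y.coeff k ≠ 0) : Transcendental κ y :=
  fun h => hy (coeff_eq_zero_of_isAlgebraic h hk)

variable (κ)

theorem tq_ne_zero (n e : ℕ) [NeZero n] : tq κ n e ≠ 0 := by
  intro h
  have := coeff_tq_neg_one κ n e
  rw [h, HahnSeries.coeff_zero] at this
  exact zero_ne_one this

/-- **(T3)** the Hauptmodul series is transcendental over every field of constants. -/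
theorem transcendental_tq (n e : ℕ) [NeZero n] : Transcendental κ (tq κ n e) :=
  transcendental_of_coeff_ne_zero (k := -1) (by norm_num)
    (by rw [coeff_tq_neg_one]; exact one_ne_zero)

/-- **(T4)** so is its inverse. -/
theorem transcendental_tq_inv (n e : ℕ) [NeZero n] : Transcendental κ (tq κ n e)⁻¹ := by
  intro h
  apply transcendental_tq κ n e
  have := h.inv
  rwa [inv_inv] at this

end T3

/-! ### (T2) the Hauptmodul in the Gauss ring of an arbitrary valuation ring -/

section T2

variable {K : Type*} [Field K] (O : ValuationSubring K) (n e : ℕ) [NeZero n]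

theorem embK_tq : embK O (tq ↥O n e) = tq K n e := coeffMap_tq _ O.subtype n e

theorem redL_tq : redL O (tq ↥O n e) = tq (Res O) n e := coeffMap_tq _ (res0 O) n e

/-- **(T2)** `tq K n e` lies in the Gauss ring of every valuation subring `O` of `K`. -/
theorem tq_mem_gaussRing : tq K n e ∈ gaussRing O := by
  rw [← embK_tq O n e]
  exact embK_mem O _

/-- the Hauptmodul as an element of the Gauss ring. -/
def tG : ↥(gaussRing O) := ⟨tq K n e, tq_mem_gaussRing O n e⟩

@[simp] theorem coe_tG : ((tG O n e : ↥(gaussRing O)) : LaurentSeries K) = tq K n e := rfl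

/-- **(T2)** the residue of the Hauptmodul is the Hauptmodul series over the residue field. -/
theorem gaussRed_tG : gaussRed O (tG O n e) = tq (Res O) n e := by
  have h := gaussRed_embK O (tq ↥O n e)
  rw [redL_tq] at h
  rw [← h]
  congr 1
  exact Subtype.ext (embK_tq O n e).symm

/-- the residue of any Gauss-ring element equal to `tq K n e`. -/
theorem gaussRed_eq_tq (ht : tq K n e ∈ gaussRing O) :
    gaussRed O ⟨tq K n e, ht⟩ = tq (Res O) n e :=
  gaussRed_tG O n e

/-- `htr` of `G1Package8`: the residue of the Hauptmodul is transcendental over the residue field. -/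
theorem transcendental_gaussRed_tG : Transcendental (Res O) (gaussRed O (tG O n e)) := by
  rw [gaussRed_tG]
  exact transcendental_tq (Res O) n e

theorem tG_ne_zero : tG O n e ≠ 0 := fun h =>
  tq_ne_zero K n e (congrArg (Subtype.val) h)

/-- the inverse of the Hauptmodul lies in the Gauss ring too (its residue is nonzero). -/
theorem tq_inv_mem_gaussRing : (tq K n e)⁻¹ ∈ gaussRing O := by
  have h : gaussRed O (tG O n e) ≠ 0 := by
    rw [gaussRed_tG]
    exact tq_ne_zero (Res O) n e
  exact inv_mem_of_gaussRed_ne_zero O (tG O n e) h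

end T2

/-! ### (T1) descent of the Hauptmodul to number fields -/

section T1

variable (n e M : ℕ) [NeZero n] [NeZero M]

/-- **(T1)** if `tq ℚbar n e ∈ Fbar_M` then `tq K n e ∈ K·F_M` for every number field `K ⊂ ℚbar`
containing a suitable number field `K₁`. -/
theorem exists_tq_mem (h : Interface12.TMem n e M) :
    ∃ K₁ : IntermediateField ℚ Qbar, FiniteDimensional ℚ K₁ ∧
      ∀ K : IntermediateField ℚ Qbar, K₁ ≤ K → tq ↥K n e ∈ FK M K := by
  have : Algebra.IsAlgebraic ℚ Qbar := AlgebraicClosure.isAlgebraic ℚ
  have h' : tq Qbar n e ∈ laurentBaseChange Qbar (modularFunctionFieldFull M) := h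
  obtain ⟨K₁, -, hfin, x', hx', hx⟩ :=
    exists_finite_descent (F₀ := modularFunctionFieldFull M) (⊥ : IntermediateField ℚ Qbar) h'
  refine ⟨K₁, hfin, fun K hK => ?_⟩
  obtain ⟨x'', hx'', h''⟩ := exists_lift_of_le hK hx'
  have hcm : coeffMap (algebraMap ↥K Qbar) x'' = coeffMap (algebraMap ↥K Qbar) (tq ↥K n e) := by
    rw [h'', hx, coeffMap_tq]
  have : x'' = tq ↥K n e := coeffMap_injective (algebraMap ↥K Qbar) hcm
  rw [← this]
  exact hx''

end T1

/-! ### the combined statement -/

/-- **BASE → GAUSS bridge**, literal integrator shape: for every number field `K ⊇ K₁` there is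
`t ∈ FK M K` with underlying series `tq K n e`, lying in the Gauss ring of `AK A K`, with residue
`tq κ n e`. -/
theorem exists_t (n e M : ℕ) [NeZero n] [NeZero M] (h : Interface12.TMem n e M)
    (A : ValuationSubring Qbar) :
    ∃ K₁ : IntermediateField ℚ Qbar, FiniteDimensional ℚ K₁ ∧
      ∀ K : IntermediateField ℚ Qbar, FiniteDimensional ℚ K → K₁ ≤ K →
        ∃ (t : FK M K) (ht : (t : LaurentSeries K) ∈ gaussRing (AK A K)),
          (t : LaurentSeries K) = tq K n e ∧
          gaussRed (AK A K) ⟨_, ht⟩ = tq (Res (AK A K)) n e := by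
  obtain ⟨K₁, hfin, hK₁⟩ := exists_tq_mem n e M h
  refine ⟨K₁, hfin, fun K _ hK => ?_⟩
  exact ⟨⟨tq ↥K n e, hK₁ K hK⟩, tq_mem_gaussRing (AK A K) n e, rfl, gaussRed_tG (AK A K) n e⟩

end Fermat.Agent.RED.BASE.TBridge15
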