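/-
Program H (S18), chapter RED/BASE → GAUSS bridge (T5), helper25.

**`j ∈ K(t)` over number fields.**  BASE proves `ℚ̄(t) = ℚ̄·F_n` (`Interface12.TGenBase n e`) for the
Hauptmodul `t = tq n e` of `X₀(n)`, `n = 4, 9`.  Hence `j = r(t)/s(t)` with `r, s ∈ ℚ̄[X]`; the
coefficients of `r, s` lie in a number field `K₁`, and for every `K ⊇ K₁` the identity
`j · s(t) = r(t)` already holds in `K((q))` (coefficient embedding is injective).  So
`jqModC K ∈ K(tq K n e)` — the hypothesis `hjt` of `GaussInst25.exists_degLe_irr_FK`.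
-/
import Mathlib
import Fermat.Agent.RED.BASE.Interface12
import Fermat.Agent.RED.DESC.CoeffDescent1

set_option autoImplicit false

noncomputable section

open HahnSeries ModularCurve IntermediateField Polynomial

namespace Fermat.Agent.RED.BASE.JInKt25

open Fermat.Agent.X0 Fermat.Agent.RED.BASE.EtaQuot12 Fermat.Agent.RED.BASE.Interface12
open Fermat.Agent.RED.DESC.CoeffDescent1

section General

variable {K L : Type*} [Field K] [Field L] (φ : K →+* L)

theorem coeffMap_algebraMap'' (c : K) :
    coeffMap φ (algebraMap K (LaurentSeries K) c) = algebraMap L (LaurentSeries L) (φ c) := by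
  rw [algebraMap_laurentSeries_eq_single, algebraMap_laurentSeries_eq_single, coeffMap_single]

theorem coeffMap_injective' : Function.Injective (coeffMap φ) := by
  intro x y h
  ext n
  apply φ.injective
  have := congrArg (fun z => z.coeff n) h
  simpa using this

/-- `coeffMap φ` of a polynomial expression. -/
theorem coeffMap_aeval (x : LaurentSeries K) (p : K[X]) :
    coeffMap φ (aeval x p) = aeval (coeffMap φ x) (p.map φ) := by
  induction p using Polynomial.induction_on with
  | C a =>
    rw [aeval_C, Polynomial.map_C, aeval_C, coeffMap_algebraMap'']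
  | add p q hp hq => rw [map_add, map_add, hp, hq, Polynomial.map_add, map_add]
  | monomial n a h =>
    simp only [map_mul, aeval_C, map_pow, aeval_X, Polynomial.map_mul, Polynomial.map_C,
      Polynomial.map_pow, Polynomial.map_X, coeffMap_algebraMap'']

/-- Descent of a rational expression: if `coeffMap φ y = r(coeffMap φ x)/s(coeffMap φ x)` with `r, s`
coming from `K[X]`, then `y ∈ K(x)`. -/
theorem mem_adjoin_of_coeffMap_eq (x y : LaurentSeries K) (r s : K[X])
    (hs : aeval (coeffMap φ x) (s.map φ) ≠ 0)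
    (h : coeffMap φ y * aeval (coeffMap φ x) (s.map φ) = aeval (coeffMap φ x) (r.map φ)) :
    y ∈ K⟮x⟯ := by
  have hinj := coeffMap_injective' φ
  have h1 : y * aeval x s = aeval x r := by
    apply hinj
    rw [map_mul, coeffMap_aeval, coeffMap_aeval, h]
  have hs' : aeval x s ≠ 0 := by
    intro h0
    apply hs
    rw [← coeffMap_aeval, h0, map_zero]
  rw [mem_adjoin_simple_iff]
  exact ⟨r, s, by rw [eq_div_iff hs', h1]⟩

end General

section Main

variable (n e : ℕ) [NeZero n]

omit [NeZero n] in
/-- the underlying series of `jF n` is `jqModC ℚ̄`. -/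
theorem coe_jF_eq : ((jF n : FF n) : LaurentSeries Kbar) = jqModC Kbar := by
  show coeffEmb Kbar (qExpand ℚ 1 jq) = jqModC Kbar
  rw [qExpand_one_apply, coeffEmb, ← jqModC_rat, coeffMap_jqModC]

/-- **(T5)** `j ∈ K(t)` for every intermediate field `K ⊇ K₁`, `K₁` a number field. -/
theorem exists_j_mem_adjoin (hgen : TGenBase n e) :
    ∃ K₁ : IntermediateField ℚ Kbar, FiniteDimensional ℚ K₁ ∧
      ∀ K : IntermediateField ℚ Kbar, K₁ ≤ K → jqModC K ∈ K⟮tq K n e⟯ := by
  classical
  obtain ⟨h, htop⟩ := hgen
  have hj : jF n ∈ Kbar⟮tF n h⟯ := by rw [htop]; exact IntermediateField.mem_top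
  rw [mem_adjoin_simple_iff] at hj
  obtain ⟨r, s, hrs⟩ := hj
  have hjne : (jF n : FF n) ≠ 0 := by
    intro h0
    have := congrArg (fun x : FF n => (x : LaurentSeries Kbar)) h0
    simp only [coe_jF_eq] at this
    exact jqModC_ne_zero_of_nontrivial Kbar this
  have hs0 : aeval (tF n h) s ≠ 0 := by
    intro h0
    rw [h0, div_zero] at hrs
    exact hjne hrs
  -- the identity in `ℚ̄((q))`
  have hcoe : ∀ p : Kbar[X], ((aeval (tF n h) p : FF n) : LaurentSeries Kbar) = aeval (tK n e) p :=
    fun p => (aeval_algHom_apply (modularFunctionFieldBar n).val (tF n h) p).symm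
  have hrel : jqModC Kbar * aeval (tK n e) s = aeval (tK n e) r := by
    rw [← coe_jF_eq n, ← hcoe, ← hcoe]
    have : jF n * aeval (tF n h) s = aeval (tF n h) r := by
      rw [hrs, div_mul_cancel₀ _ hs0]
    exact_mod_cast congrArg (fun x : FF n => (x : LaurentSeries Kbar)) this
  have hs0' : aeval (tK n e) s ≠ 0 := by
    rw [← hcoe]
    intro h0
    exact hs0 (Subtype.ext h0)
  -- the field of coefficients
  let S : Set Kbar := ((r.coeffs ∪ s.coeffs : Finset Kbar) : Set Kbar)
  have : Finite S := Finset.finite_toSet _ |>.to_subtype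
  refine ⟨adjoin ℚ S, finiteDimensional_adjoin
    (fun x _ => (AlgebraicClosure.isAlgebraic ℚ).isAlgebraic x |>.isIntegral), ?_⟩
  intro K hK
  have hrange : Set.range (algebraMap K Kbar) = (K : Set Kbar) := by
    ext x
    constructor
    · rintro ⟨y, rfl⟩; exact y.2
    · intro hx; exact ⟨⟨x, hx⟩, rfl⟩
  have hlift : ∀ p : Kbar[X], (p.coeffs : Set Kbar) ⊆ S → ∃ p' : K[X], p'.map (algebraMap K Kbar) = p := by
    intro p hp
    have : p ∈ lifts (algebraMap K Kbar) := by
      rw [lifts_iff_coeffs_subset_range, hrange]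
      exact fun x hx => hK (subset_adjoin ℚ S (hp hx))
    exact (mem_lifts p).mp this
  obtain ⟨r', hr'⟩ := hlift r (fun x hx => by
    show x ∈ ((r.coeffs ∪ s.coeffs : Finset Kbar) : Set Kbar)
    exact_mod_cast Finset.mem_union_left _ hx)
  obtain ⟨s', hs'⟩ := hlift s (fun x hx => by
    show x ∈ ((r.coeffs ∪ s.coeffs : Finset Kbar) : Set Kbar)
    exact_mod_cast Finset.mem_union_right _ hx)
  have htq : coeffMap (algebraMap K Kbar) (tq K n e) = tK n e := coeffMap_tq K _ n e
  refine mem_adjoin_of_coeffMap_eq (algebraMap K Kbar) (tq K n e) (jqModC K) r' s' ?_ ?_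
  · rw [htq, hs']; exact hs0'
  · rw [htq, hs', hr', coeffMap_jqModC]; exact hrel

end Main

end Fermat.Agent.RED.BASE.JInKt25
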