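/-
Program H (S18) / chapter RED/BASE / helper19.

`TqTranscendental19` (T3), (T4): over ANY commutative ring `R ≠ 0` a Laurent series
`q^{-r} U(q)` (`r > 0`, `U(0) = 1`) is transcendental over `R`; in particular the formal Hauptmodul
`tq κ n e = q⁻¹ (η(q)/η(q^n))^e` is transcendental over every field `κ`, and so is its inverse.
-/
import Mathlib
import Fermat.Agent.RED.BASE.EtaQuot12
import Fermat.Agent.X0.LevelOneRational

set_option autoImplicit false

open Polynomial

noncomputable section

namespace Fermat.Agent.RED.BASE.TqTranscendental19

open Fermat.Agent.X0 Fermat.Agent.RED.BASE.EtaQuot12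

/-- `q^{-r} U(q)` with `r > 0`, `U(0) = 1` is transcendental over the coefficient ring. -/
theorem transcendental_laurentOf {R : Type*} [CommRing R] (r : ℕ) (hr : 0 < r)
    (U : PowerSeries R) (hU0 : PowerSeries.constantCoeff U = 1) :
    Transcendental R (laurentOf r U) := by
  rw [transcendental_iff]
  intro P hP
  have h := lor_coeff_aeval r hr U hU0 P P.natDegree le_rfl
  rw [hP, HahnSeries.coeff_zero] at h
  exact leadingCoeff_eq_zero.mp h.symm

/-- **(T3)** The formal Hauptmodul is transcendental over the coefficient ring. -/
theorem transcendental_tq (R : Type*) [CommRing R] (n e : ℕ) [NeZero n] :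
    Transcendental R (tq R n e) := by
  rw [tq_eq_laurentOf]
  exact transcendental_laurentOf 1 one_pos _ (constantCoeff_tNum R n e)

/-- **(T4)** The inverse of the formal Hauptmodul is transcendental over a coefficient field. -/
theorem transcendental_tq_inv (κ : Type*) [Field κ] (n e : ℕ) [NeZero n] :
    Transcendental κ (tq κ n e)⁻¹ := by
  intro h
  apply transcendental_tq κ n e
  have := h.inv
  rwa [inv_inv] at this

theorem tq_ne_zero (R : Type*) [CommRing R] [Nontrivial R] (n e : ℕ) [NeZero n] :
    tq R n e ≠ 0 := by
  intro h
  have := coeff_tq_neg_one R n e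
  rw [h, HahnSeries.coeff_zero] at this
  exact zero_ne_one this

end Fermat.Agent.RED.BASE.TqTranscendental19
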