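/-
Program H (S18), chapter RED/BASE (helper14): levels without elliptic points.

If `ν₂(N) = ν₃(N) = 0` (e.g. `4 ∣ N` or `9 ∣ N`), then every point place of `FF N` has
multiplicity one: for `v = pointPlaceD D z₀ c hc g`,
`ord_{z₀} (Θ u ∘ g⁻¹) = ord_v u` for all `u ∈ R`, `u ≠ 0`
(the uniformisation `ℍ → X₀(N)` is unramified).
-/
import Mathlib
import Fermat.Agent.X0.PointPlacesD
import Fermat.Agent.X0.PointSurjT
import Fermat.Agent.X0.PlaceCountX0
import Fermat.Agent.X0.HasCanDiv
import Fermat.Agent.X0.Degree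

set_option autoImplicit false

open UpperHalfPlane hiding I
open scoped MatrixGroups

namespace Fermat.Agent.RED.BASE.NoElliptic14

open Fermat.Agent.X0 Fermat.Agent.X0.PointPlacesD Fermat.Agent.X0.PointPlaces
open Fermat.Agent.X0.JOrderMain Fermat.Agent.X0.FF AlgebraicCurve MulAction ModularGroup
open CongruenceSubgroup

/-! ### Numerics: no elliptic points when `4 ∣ N` or `9 ∣ N` -/

theorem nuTwo_eq_zero_of_four_dvd {N : ℕ} (h : 4 ∣ N) : ModularCurve.nuTwo N = 0 := by
  unfold ModularCurve.nuTwo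
  rw [Nat.card_eq_zero]
  left
  constructor
  rintro ⟨x, hx⟩
  have h1 := congrArg (ZMod.castHom h (ZMod 4)) hx
  simp only [map_add, map_pow, map_one, map_zero] at h1
  generalize (ZMod.castHom h (ZMod 4)) x = y at h1
  revert y
  decide

theorem nuThree_eq_zero_of_four_dvd {N : ℕ} (h : 4 ∣ N) : ModularCurve.nuThree N = 0 := by
  unfold ModularCurve.nuThree
  rw [Nat.card_eq_zero]
  left
  constructor
  rintro ⟨x, hx⟩
  have h1 := congrArg (ZMod.castHom h (ZMod 4)) hx
  simp only [map_add, map_pow, map_one, map_zero] at h1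
  generalize (ZMod.castHom h (ZMod 4)) x = y at h1
  revert y
  decide

theorem nuTwo_eq_zero_of_nine_dvd {N : ℕ} (h : 9 ∣ N) : ModularCurve.nuTwo N = 0 := by
  unfold ModularCurve.nuTwo
  rw [Nat.card_eq_zero]
  left
  constructor
  rintro ⟨x, hx⟩
  have h1 := congrArg (ZMod.castHom h (ZMod 9)) hx
  simp only [map_add, map_pow, map_one, map_zero] at h1
  generalize (ZMod.castHom h (ZMod 9)) x = y at h1
  revert y
  decide

theorem nuThree_eq_zero_of_nine_dvd {N : ℕ} (h : 9 ∣ N) : ModularCurve.nuThree N = 0 := by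
  unfold ModularCurve.nuThree
  rw [Nat.card_eq_zero]
  left
  constructor
  rintro ⟨x, hx⟩
  have h1 := congrArg (ZMod.castHom h (ZMod 9)) hx
  simp only [map_add, map_pow, map_one, map_zero] at h1
  generalize (ZMod.castHom h (ZMod 9)) x = y at h1
  revert y
  decide

/-! ### Multiplicity one -/

variable {N : ℕ} [NeZero N]

/-- no coset is fixed when the number of fixed cosets is zero -/
theorem not_fixed_of_card_eq_zero (σ : SL(2, ℤ))
    (h : Nat.card (fixedBy (SL(2, ℤ) ⧸ Gamma0 N) σ) = 0)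
    (a : SL(2, ℤ) ⧸ Gamma0 N) : σ • a ≠ a := by
  intro ha
  rw [Nat.card_eq_zero] at h
  rcases h with h | h
  · exact h.false ⟨a, ha⟩
  · exact h.not_finite inferInstance

/-- All places over `j = c` have the maximal ramification `p` when no coset is fixed. -/
theorem ord_eq_of_no_fixed (D : RealizeData N) (C : CuspData N D) (z₀ : ℍ) (c : Kbar)
    (hc : jFun z₀ = iotaK c) (σ : SL(2, ℤ)) (hσz : σ • z₀ = z₀) (p : ℕ) (hp : p.Prime)
    (hσp : ∀ a : SL(2, ℤ) ⧸ Gamma0 N, σ ^ p • a = a) (hell : ellOrder z₀ = p)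
    (hfix : ∀ a : SL(2, ℤ) ⧸ Gamma0 N, σ • a = a →
      (pointPlaceDX D z₀ c hc a).1.ord (jF N - algebraMap Kbar (FF N) c) = 1)
    (hnofix : Nat.card (fixedBy (SL(2, ℤ) ⧸ Gamma0 N) σ) = 0) (g : SL(2, ℤ)) :
    (pointPlaceD D z₀ c hc g).ord (jF N - algebraMap Kbar (FF N) c) = p := by
  have H := HasCanDiv.genusHyp_FF D C
  have hdeg := Degree.finrank_adjoin N D C
  have hsum := H.sum_ord_fibre c
  rw [hdeg] at hsum
  have key := (PlaceCountX0.pcx_count_of_prime (K := Kbar) N
    (jF N - algebraMap Kbar (FF N) c) (H.finite_fibre c) hsum σ p hp hσp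
    (fun a => (pointPlaceDX D z₀ c hc a).1)
    (fun a => (pointPlaceDX D z₀ c hc a).2)
    (fun v hv => by
      obtain ⟨g', hg'⟩ := PointSurjT.exists_pointPlaceD_eq D z₀ C c hc v hv
      exact ⟨QuotientGroup.mk g', by rw [pointPlaceDX_mk, hg']⟩)
    (fun a => by rw [pointPlaceDX_smul_of_fixed D z₀ c hc σ hσz a])
    (fun a => by
      have := pointPlaceDX_ord_le D z₀ c hc a
      rw [hell] at this
      exact this)
    hfix).2
  have := key (QuotientGroup.mk g) (not_fixed_of_card_eq_zero σ hnofix _)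
  rwa [pointPlaceDX_mk] at this

/-- **Multiplicity one**: if `ν₂(N) = ν₃(N) = 0`, every point place has multiplicity `1`. -/
theorem pointMultD_eq_one (D : RealizeData N) (C : CuspData N D)
    (h2 : ModularCurve.nuTwo N = 0) (h3 : ModularCurve.nuThree N = 0)
    (z₀ : ℍ) (c : Kbar) (hc : jFun z₀ = iotaK c) (g : SL(2, ℤ)) :
    pointMultD D z₀ c hc g = 1 := by
  have key := pointMultD_mul_ord D z₀ c hc g
  have hpos := pointMultD_pos D z₀ c hc g
  by_cases hρ : ∃ γ : SL(2, ℤ), γ • ptRho = z₀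
  · obtain ⟨γ, rfl⟩ := hρ
    have hell : ellOrder (γ • ptRho) = 3 := by rw [ellOrder_smul, ellOrder_ptRho]
    have hσz : (γ * (S * T) * γ⁻¹) • (γ • ptRho) = γ • ptRho := by
      rw [← mul_smul, inv_mul_cancel_right, mul_smul, ho_ST_smul_ptRho]
    have hord := ord_eq_of_no_fixed D C (γ • ptRho) c hc (γ * (S * T) * γ⁻¹) hσz 3
      Nat.prime_three (G1Elliptic.g1_conj_pow_smul G1Elliptic.g1_ST_cube_smul γ) hell
      (fun a ha => pointPlaceDX_ord_of_fixed_ST D c γ hc a ha)
      (by rw [G1Elliptic.g1_card_fixedBy_conj_ST, h3]) g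
    rw [hord, hell] at key
    have : (pointMultD D (γ • ptRho) c hc g : ℤ) = 1 := by
      push_cast at key
      linarith
    exact_mod_cast this
  · by_cases hI : ∃ γ : SL(2, ℤ), γ • ptI = z₀
    · obtain ⟨γ, rfl⟩ := hI
      have hell : ellOrder (γ • ptI) = 2 := by rw [ellOrder_smul, ellOrder_ptI]
      have hσz : (γ * S * γ⁻¹) • (γ • ptI) = γ • ptI := by
        rw [← mul_smul, inv_mul_cancel_right, mul_smul, ho_S_smul_ptI]
      have hord := ord_eq_of_no_fixed D C (γ • ptI) c hc (γ * S * γ⁻¹) hσz 2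
        Nat.prime_two (G1Elliptic.g1_conj_pow_smul G1Elliptic.g1_S_sq_smul γ) hell
        (fun a ha => pointPlaceDX_ord_of_fixed_S D c γ hc a ha)
        (by rw [G1Elliptic.g1_card_fixedBy_conj_S, h2]) g
      rw [hord, hell] at key
      have : (pointMultD D (γ • ptI) c hc g : ℤ) = 1 := by
        push_cast at key
        linarith
      exact_mod_cast this
    · have hell : ellOrder z₀ = 1 := by
        unfold ellOrder
        rw [if_neg hρ, if_neg hI]
      rw [hell] at key
      have h1 : (0 : ℤ) ≤ pointMultD D z₀ c hc g := by positivity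
      have := Int.eq_one_of_mul_eq_one_right h1 (by exact_mod_cast key)
      exact_mod_cast this

/-- Multiplicity one, spec form: analytic order at `z₀` = order at the place. -/
theorem ordH_eq_ord (D : RealizeData N) (C : CuspData N D)
    (h2 : ModularCurve.nuTwo N = 0) (h3 : ModularCurve.nuThree N = 0)
    (z₀ : ℍ) (c : Kbar) (hc : jFun z₀ = iotaK c) (g : SL(2, ℤ)) (u : Rsub N) (hu : u ≠ 0) :
    ((ordH (compSL (D.Θ u) g⁻¹) z₀).toNat : ℤ) = (pointPlaceD D z₀ c hc g).ord (u : FF N) := by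
  have h := pointPlaceD_spec D z₀ c hc g u hu
  rw [pointMultD_eq_one D C h2 h3 z₀ c hc g] at h
  simpa using h

end Fermat.Agent.RED.BASE.NoElliptic14
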