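/-
Program H (S18), chapter RED/BASE (helper14), item (B6): a Hauptmodul is unbranched on `X₀(N)`.

Setting: two levels `N₀ ∣ N` (only the conditions `ν₂ = ν₃ = 0` at both levels are used, e.g.
`4 ∣ N₀` or `9 ∣ N₀`), a holomorphic function `τ : ℍ → ℂ` realising an element `t₀` of `FF N₀` and
an element `t` of `FF N` (in the application `t` is the image of `t₀`), such that `t₀` generates
`FF N₀` over `ℚbar` (degree one).  Then at every place `v` of `FF N` that is not a pole of `j`,
and every constant `c`: `0 < ord_v (t - c) → ord_v (t - c) = 1`.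

Proof: the point places of a level without elliptic points have multiplicity one
(`NoElliptic14`), so `ord_v (t - c) = ord_{z₀} ((τ - c) ∘ g⁻¹)` at both levels, and at level
`N₀` this is `≤ [FF N₀ : ℚbar(t₀)] = 1`.
-/
import Mathlib
import Fermat.Agent.RED.BASE.NoElliptic14
import Fermat.Agent.X0.FFSum
import Fermat.Agent.X0.FFConst
import Fermat.Agent.X0.FFPlace
import Fermat.Agent.X0.HolOrder
import Fermat.Agent.X0.RootsK
import Fermat.Agent.X0.JBasic

set_option autoImplicit false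

open UpperHalfPlane hiding I
open scoped MatrixGroups IntermediateField

namespace Fermat.Agent.RED.BASE.Unbranched14

open Fermat.Agent.X0 Fermat.Agent.X0.PointPlacesD Fermat.Agent.X0.PointPlaces
open Fermat.Agent.X0.FF AlgebraicCurve
open Fermat.Agent.RED.BASE.NoElliptic14

/-! ### Degree one ⇒ every zero of `x - c` is simple -/

theorem ord_eq_one_of_finrank_eq_one {K F : Type*} [Field K] [Field F] [Algebra K F]
    [IsAlgClosed K] [CharZero K] {x : F} (hx : IsGen K x)
    (h1 : Module.finrank K⟮x⟯ F = 1) (c : K) (v : Place K F)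
    (hv : 0 < v.ord (x - algebraMap K F c)) : v.ord (x - algebraMap K F c) = 1 := by
  have hfin := finite_fibre hx c
  have hsum := sum_ord_fibre hx c
  rw [h1] at hsum
  have hsum' : ∑ᶠ (w : Place K F) (_ : w ∈ {w : Place K F | 0 < w.ord (x - algebraMap K F c)}),
      w.ord (x - algebraMap K F c) = 1 := by
    simpa using hsum
  rw [finsum_mem_eq_finite_toFinset_sum _ hfin] at hsum'
  have hmem : v ∈ hfin.toFinset := by
    rw [Set.Finite.mem_toFinset]
    exact hv
  have hle := Finset.single_le_sum (f := fun w : Place K F => w.ord (x - algebraMap K F c))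
    (s := hfin.toFinset) (fun w hw => by
      rw [Set.Finite.mem_toFinset] at hw
      exact le_of_lt hw) hmem
  rw [hsum'] at hle
  have : v.ord (x - algebraMap K F c) ≤ 1 := hle
  omega

/-! ### Elements realised by a holomorphic function -/

variable {N : ℕ} [NeZero N]

/-- `t ∈ FF N` is the modular function `τ`: `t = a / b` with `a, b ∈ R`, `Θ a = Θ b · τ`. -/
def IsRealizedBy (D : RealizeData N) (t : FF N) (τ : ℍ → ℂ) : Prop :=
  ∃ a b : Rsub N, b ≠ 0 ∧ t * (b : FF N) = (a : FF N) ∧ ∀ z, D.Θ a z = D.Θ b z * τ z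

omit [NeZero N] in
theorem isRealizedBy_coe (D : RealizeData N) (u : Rsub N) : IsRealizedBy D (u : FF N) (D.Θ u) :=
  ⟨u, 1, one_ne_zero, by simp, fun z => by simp⟩

/-- **(B1)** At a level without elliptic points, the order of `t - c` at a point place is the
analytic order of `(τ - c) ∘ g⁻¹` at `z₀`. -/
theorem ord_sub_eq_ordH (D : RealizeData N) (C : CuspData N D)
    (h2 : ModularCurve.nuTwo N = 0) (h3 : ModularCurve.nuThree N = 0)
    {t : FF N} {τ : ℍ → ℂ} (hτ : τ ∈ HolH) (ht : IsRealizedBy D t τ)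
    (z₀ : ℍ) (cj : Kbar) (hc : jFun z₀ = iotaK cj) (g : SL(2, ℤ)) (c : Kbar)
    (hne : t - algebraMap Kbar (FF N) c ≠ 0) :
    (pointPlaceD D z₀ cj hc g).ord (t - algebraMap Kbar (FF N) c) =
      ((ordH (compSL (fun z => τ z - iotaK c) g⁻¹) z₀).toNat : ℤ) := by
  obtain ⟨a, b, hb, hab, hΘ⟩ := ht
  set v := pointPlaceD D z₀ cj hc g with hv
  set u : Rsub N := a - algebraMap Kbar (Rsub N) c * b with hu
  have hbF : (b : FF N) ≠ 0 := fun h => hb (Subtype.ext h)
  -- algebraic side
  have hmul : (t - algebraMap Kbar (FF N) c) * (b : FF N) = (u : FF N) := by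
    rw [hu, sub_mul, hab]
    push_cast
    rfl
  have huF : (u : FF N) ≠ 0 := by
    rw [← hmul]
    exact mul_ne_zero hne hbF
  have hu0 : u ≠ 0 := fun h => huF (by rw [h]; rfl)
  have hord : v.ord (t - algebraMap Kbar (FF N) c) + v.ord (b : FF N) = v.ord (u : FF N) := by
    rw [← hmul, Place.ord_mul v hne hbF]
  -- analytic side
  have hΘu : D.Θ u = D.Θ b * fun z => τ z - iotaK c := by
    rw [hu, map_sub, map_mul, D.algebraMap_eq]
    funext z
    simp only [Pi.sub_apply, Pi.mul_apply, hΘ z]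
    ring
  have hσ : (fun z => τ z - iotaK c) ∈ HolH :=
    HolH.sub_mem hτ (HolH.algebraMap_mem (iotaK c))
  have hcomp : compSL (D.Θ u) g⁻¹ =
      compSL (D.Θ b) g⁻¹ * compSL (fun z => τ z - iotaK c) g⁻¹ := by
    rw [hΘu, compSL_mul_fun]
  have hordH : ordH (compSL (D.Θ u) g⁻¹) z₀ =
      ordH (compSL (D.Θ b) g⁻¹) z₀ + ordH (compSL (fun z => τ z - iotaK c) g⁻¹) z₀ := by
    rw [hcomp, ordH_mul (compSL_mem_HolH (D.mem_HolH b) g⁻¹) (compSL_mem_HolH hσ g⁻¹)]
  have htopu := ordH_ne_top_D D z₀ g u hu0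
  have htopb := ordH_ne_top_D D z₀ g b hb
  have htopσ : ordH (compSL (fun z => τ z - iotaK c) g⁻¹) z₀ ≠ ⊤ := by
    intro h
    rw [h, add_top] at hordH
    exact htopu hordH
  have e1 := ordH_eq_ord D C h2 h3 z₀ cj hc g u hu0
  have e2 := ordH_eq_ord D C h2 h3 z₀ cj hc g b hb
  have e3 : ((ordH (compSL (D.Θ u) g⁻¹) z₀).toNat : ℤ) =
      ((ordH (compSL (D.Θ b) g⁻¹) z₀).toNat : ℤ) +
        ((ordH (compSL (fun z => τ z - iotaK c) g⁻¹) z₀).toNat : ℤ) := by
    rw [hordH, ENat.toNat_add htopb htopσ]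
    push_cast
    rfl
  rw [← hv] at e1 e2
  linarith

/-- Every place of `FF N` that is not a pole of `j` is a point place. -/
theorem exists_pointPlaceD_eq_of_ord_nonneg (D : RealizeData N) (C : CuspData N D)
    (v : Place Kbar (FF N)) (hv : 0 ≤ v.ord (jF N)) :
    ∃ (z₀ : ℍ) (cj : Kbar) (hc : jFun z₀ = iotaK cj) (g : SL(2, ℤ)),
      pointPlaceD D z₀ cj hc g = v := by
  have hgen := Degree.isGen_jF N D C
  have hmem : jF N ∈ v.toValuationSubring := (ffp_mem_iff_ord_nonneg v).mpr hv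
  obtain ⟨cj, hcj | hcj⟩ := exists_ord_sub_pos hgen v hmem
  · exfalso
    apply transcendental_jF N
    rw [hcj]
    exact isAlgebraic_algebraMap cj
  · obtain ⟨z₀, hz₀⟩ := jFun_surjective (iotaK cj)
    obtain ⟨g, hg⟩ := PointSurjT.exists_pointPlaceD_eq D z₀ C cj hz₀ v hcj
    exact ⟨z₀, cj, hz₀, g, hg⟩

/-- **(B6), two-level form.** `t₀ ∈ FF N₀` of degree one and `t ∈ FF N` are realised by the same
holomorphic function, both levels have no elliptic points: then `t` is unbranched at all places of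
`FF N` that are not poles of `j`. -/
theorem ord_sub_eq_one {N₀ : ℕ} [NeZero N₀] (D : RealizeData N) (C : CuspData N D)
    (D₀ : RealizeData N₀) (C₀ : CuspData N₀ D₀)
    (h2 : ModularCurve.nuTwo N = 0) (h3 : ModularCurve.nuThree N = 0)
    (h2₀ : ModularCurve.nuTwo N₀ = 0) (h3₀ : ModularCurve.nuThree N₀ = 0)
    {t : FF N} {t₀ : FF N₀} {τ : ℍ → ℂ} (hτ : τ ∈ HolH)
    (ht : IsRealizedBy D t τ) (ht₀ : IsRealizedBy D₀ t₀ τ)
    (hgen : IsGen Kbar t₀) (hdeg : Module.finrank Kbar⟮t₀⟯ (FF N₀) = 1)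
    (v : Place Kbar (FF N)) (hv : 0 ≤ v.ord (jF N)) (c : Kbar)
    (hpos : 0 < v.ord (t - algebraMap Kbar (FF N) c)) :
    v.ord (t - algebraMap Kbar (FF N) c) = 1 := by
  obtain ⟨z₀, cj, hc, g, rfl⟩ := exists_pointPlaceD_eq_of_ord_nonneg D C v hv
  have hne : t - algebraMap Kbar (FF N) c ≠ 0 := by
    intro h
    rw [h, Place.ord_zero] at hpos
    exact lt_irrefl _ hpos
  have hne₀ : t₀ - algebraMap Kbar (FF N₀) c ≠ 0 := by
    intro h
    apply hgen.transcendental
    rw [sub_eq_zero.mp h]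
    exact isAlgebraic_algebraMap c
  have e := ord_sub_eq_ordH D C h2 h3 hτ ht z₀ cj hc g c hne
  have e₀ := ord_sub_eq_ordH D₀ C₀ h2₀ h3₀ hτ ht₀ z₀ cj hc g c hne₀
  rw [e] at hpos ⊢
  rw [← e₀] at hpos ⊢
  exact ord_eq_one_of_finrank_eq_one hgen hdeg c _ hpos

/-- A function realised by a holomorphic `τ` has no pole at a point place. -/
theorem ord_nonneg_of_isRealizedBy (D : RealizeData N) (C : CuspData N D)
    (h2 : ModularCurve.nuTwo N = 0) (h3 : ModularCurve.nuThree N = 0)
    {t : FF N} {τ : ℍ → ℂ} (hτ : τ ∈ HolH) (ht : IsRealizedBy D t τ)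
    (z₀ : ℍ) (cj : Kbar) (hc : jFun z₀ = iotaK cj) (g : SL(2, ℤ)) :
    0 ≤ (pointPlaceD D z₀ cj hc g).ord t := by
  rcases eq_or_ne t 0 with rfl | h0
  · rw [Place.ord_zero]
  have hne : t - algebraMap Kbar (FF N) 0 ≠ 0 := by rwa [map_zero, sub_zero]
  have e := ord_sub_eq_ordH D C h2 h3 hτ ht z₀ cj hc g 0 hne
  rw [map_zero, sub_zero] at e
  rw [e]
  positivity

omit [NeZero N] in
/-- If `t` is realised by `τ` and is a constant, then `τ` is that constant. -/
theorem eq_const_of_isRealizedBy (D : RealizeData N) {t : FF N} {τ : ℍ → ℂ} (hτ : τ ∈ HolH)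
    (ht : IsRealizedBy D t τ) (c : Kbar) (htc : t = algebraMap Kbar (FF N) c) :
    τ = fun _ => iotaK c := by
  obtain ⟨a, b, hb, hab, hΘ⟩ := ht
  have hab' : a = algebraMap Kbar (Rsub N) c * b := by
    apply Subtype.ext
    rw [← hab, htc]
    push_cast
    rfl
  have hΘb : D.Θ b ≠ 0 := fun h => hb (D.injective (by rw [h, map_zero]))
  have hσ : (fun z => τ z - iotaK c) ∈ HolH :=
    HolH.sub_mem hτ (HolH.algebraMap_mem (iotaK c))
  have hprod : D.Θ b * (fun z => τ z - iotaK c) = 0 := by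
    funext z
    have h1 := hΘ z
    rw [hab', map_mul, D.algebraMap_eq] at h1
    simp only [Pi.mul_apply, Pi.zero_apply] at h1 ⊢
    linear_combination -h1
  rcases mul_eq_zero_HolH (D.mem_HolH b) hσ hprod with h | h
  · exact absurd h hΘb
  · funext z
    have := congrFun h z
    simp only [Pi.zero_apply] at this
    linear_combination this

omit [NeZero N] in
/-- If `t₀` is realised by a constant function, it is that constant. -/
theorem eq_algebraMap_of_isRealizedBy_const (D : RealizeData N) {t : FF N} (c : Kbar)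
    (ht : IsRealizedBy D t fun _ => iotaK c) : t = algebraMap Kbar (FF N) c := by
  obtain ⟨a, b, hb, hab, hΘ⟩ := ht
  have hbF : (b : FF N) ≠ 0 := fun h => hb (Subtype.ext h)
  have hab' : a = algebraMap Kbar (Rsub N) c * b := by
    apply D.injective
    rw [map_mul, D.algebraMap_eq]
    funext z
    rw [hΘ z, Pi.mul_apply]
    ring
  have : t * (b : FF N) = algebraMap Kbar (FF N) c * (b : FF N) := by
    rw [hab, hab']
    push_cast
    rfl
  exact mul_right_cancel₀ hbF this

omit [NeZero N] in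
/-- Transcendence transfers between two elements realised by the same function. -/
theorem transcendental_of_isRealizedBy {N₀ : ℕ} [NeZero N₀] (D : RealizeData N)
    (D₀ : RealizeData N₀) {t : FF N} {t₀ : FF N₀} {τ : ℍ → ℂ} (hτ : τ ∈ HolH)
    (ht : IsRealizedBy D t τ) (ht₀ : IsRealizedBy D₀ t₀ τ) (htr : Transcendental Kbar t₀) :
    Transcendental Kbar t := by
  intro halg
  obtain ⟨c, hc⟩ := eq_algebraMap_of_isAlgebraic halg
  have hconst := eq_const_of_isRealizedBy D hτ ht c hc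
  rw [hconst] at ht₀
  apply htr
  rw [eq_algebraMap_of_isRealizedBy_const D₀ c ht₀]
  exact isAlgebraic_algebraMap c

/-- **(B6)**: at every place `v` of `FF N` that is not a pole of `j`, `t` has a value `c` and
`t - c` is a uniformiser at `v`. -/
theorem exists_ord_sub_eq_one {N₀ : ℕ} [NeZero N₀] (D : RealizeData N) (C : CuspData N D)
    (D₀ : RealizeData N₀) (C₀ : CuspData N₀ D₀)
    (h2 : ModularCurve.nuTwo N = 0) (h3 : ModularCurve.nuThree N = 0)
    (h2₀ : ModularCurve.nuTwo N₀ = 0) (h3₀ : ModularCurve.nuThree N₀ = 0)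
    {t : FF N} {t₀ : FF N₀} {τ : ℍ → ℂ} (hτ : τ ∈ HolH)
    (ht : IsRealizedBy D t τ) (ht₀ : IsRealizedBy D₀ t₀ τ)
    (hgen : IsGen Kbar t₀) (hdeg : Module.finrank Kbar⟮t₀⟯ (FF N₀) = 1)
    (v : Place Kbar (FF N)) (hv : 0 ≤ v.ord (jF N)) :
    ∃ c : Kbar, v.ord (t - algebraMap Kbar (FF N) c) = 1 := by
  have htr := transcendental_of_isRealizedBy D D₀ hτ ht ht₀ hgen.transcendental
  have hgenj := Degree.isGen_jF N D C
  have htv : 0 ≤ v.ord t := by
    obtain ⟨z₀, cj, hc, g, rfl⟩ := exists_pointPlaceD_eq_of_ord_nonneg D C v hv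
    exact ord_nonneg_of_isRealizedBy D C h2 h3 hτ ht z₀ cj hc g
  have hmem : t ∈ v.toValuationSubring := (ffp_mem_iff_ord_nonneg v).mpr htv
  obtain ⟨c, hc | hc⟩ := exists_ord_sub_pos hgenj v hmem
  · exfalso
    apply htr
    rw [hc]
    exact isAlgebraic_algebraMap c
  · exact ⟨c, ord_sub_eq_one D C D₀ C₀ h2 h3 h2₀ h3₀ hτ ht ht₀ hgen hdeg v hv c hc⟩

end Fermat.Agent.RED.BASE.Unbranched14
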