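/-
RED/BASE (B2b)+(B3) (helper12): the Hauptmodul `t = q⁻¹ (η(q)/η(q^n))^e` of `X₀(n)`, `n = 4, 9`
(`e (n - 1) = 24`), lies in `Fbar_n` and generates it.

* `exists_ord_eq_of_genus_zero` : in a function field of genus `0` every divisor of degree `0` is
  principal (Riemann–Roch, `RR/RRMain`).
* `order_TK` : the `q_p`-order of the expansion of `Δ((a z + b)/e)/Δ(z)` is `a (p/e) - p`.
* `isNice_uq`, `uF` : the modular unit `uq = Δ(q^n)/Δ(q) = t^{-(n-1)}` as an element of `FF n`.
* `ord_uF_cases` : its order at every place of `Fbar_n` (point places: `0`; places over `j = ∞`: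
  from the expansions `e⁻¹² Δ((a z + b)/e)/Δ(z)`, `a e = n`, of order `a² - n` in `q_n`).
* `exists_hauptmodul`, `tMem_base` : `TMem n e n` (genus `0` + `(n - 1) ∣ div(uq)` + roots of
  constants are constants).
* `ord_tF_cases`, `tGenBase` : the divisor of `t`; `ℚbar(t) = Fbar_n` (a single simple zero).
* `BaseHyp n e`, `baseHyp_four : BaseHyp 4 8`, `baseHyp_nine : BaseHyp 9 3`, and the exports
  `tMem`, `tGenBase'`, `tMem_of_dvd`.
-/
import Fermat.Agent.RED.BASE.Interface12
import Fermat.Agent.RR.RRMain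
import Fermat.Agent.X0.HasCanDivInst
import Fermat.Agent.X0.CuspSurj
import Fermat.Agent.X0.CuspGood
import Fermat.Agent.IG.AN.DeltaAffineBridge11
import Fermat.Agent.RED.BASE.QExpMem19
import Fermat.Agent.RED.BASE.Unbranched14
import Fermat.Agent.X0.S24PointsD
import Fermat.Agent.X0.FFGenus
import Fermat.Agent.X0.Degree
import Fermat.Agent.X0.PointSurjT
import Fermat.Agent.RR.LHypGen
import Fermat.Agent.X0.GNTable

set_option autoImplicit false

open UpperHalfPlane ModularCurve HahnSeries AlgebraicCurve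
open scoped MatrixGroups IntermediateField

noncomputable section

namespace Fermat.Agent.RED.BASE.Hauptmodul12

open Fermat.Agent.X0 Fermat.Agent.X0.FF Fermat.Agent.X0.Analytic
open Fermat.Agent.RR.LSpace Fermat.Agent.RR.RRMain
open Fermat.Agent.RED.BASE.EtaQuot12 Fermat.Agent.RED.BASE.Interface12
open Fermat.Agent.IG.PR.Interface20 Fermat.Agent.IG.AN.DeltaQuot19
open Fermat.Agent.IG.AN.DeltaAffine11 Fermat.Agent.X0.QExpAffine

/-! ### genus zero: degree-zero divisors are principal -/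

section GenusZero

variable {K F : Type*} [Field K] [Field F] [Algebra K F] [IsAlgClosed K] [CharZero K] {x : F}
  [HasCanonicalDivisor (K := K) (F := F)]

theorem exists_ord_eq_of_genus_zero (hx : IsGen K x) (hg : genus K F = 0) (D : Divisor K F)
    (hD : Divisor.degree D = 0) : ∃ f : F, f ≠ 0 ∧ ∀ v : Place K F, v.ord f = D v := by
  have H := Fermat.Agent.RR.LHypGen.lHyp_of_isGen hx
  have h1 := finrank_L_of_degree_gt hx (-D) (by rw [hg, map_neg, hD]; norm_num)
  rw [map_neg, hD, hg] at h1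
  have h2 : Module.finrank K (riemannRochSpace (-D)) = 1 := by
    have : (Module.finrank K (riemannRochSpace (-D)) : ℤ) = 1 := by simpa using h1
    exact_mod_cast this
  have := finiteDimensional_L hx (-D)
  have hpos : 0 < Module.finrank K (riemannRochSpace (-D)) := by rw [h2]; exact one_pos
  obtain ⟨⟨f, hfL⟩, hf0⟩ := Module.finrank_pos_iff_exists_ne_zero.mp hpos
  have hf : f ≠ 0 := fun h => hf0 (Subtype.ext h)
  refine ⟨f, hf, fun v => ?_⟩
  have hle := (mem_L_iff hf).mp hfL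
  have hE : 0 ≤ divOf H hf - D := by
    intro w
    have := hle w
    rw [Finsupp.neg_apply, neg_neg] at this
    simp only [Finsupp.coe_zero, Pi.zero_apply, Finsupp.coe_sub, Pi.sub_apply, divOf_apply]
    omega
  have hdeg : Divisor.degree (divOf H hf - D) = 0 := by
    rw [map_sub, degree_divOf, hD, sub_zero]
  have h0 := eq_zero_of_degree_eq_zero H hE hdeg
  have := congrArg (fun E : Divisor K F => E v) h0
  simp only [Finsupp.coe_sub, Pi.sub_apply, divOf_apply, Finsupp.coe_zero, Pi.zero_apply] at this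
  omega

end GenusZero

/-! ### orders of the cusp expansions of `Δ(n z)/Δ(z)` -/

theorem order_eq_of_coeff {R : Type*} [Zero R] {f : HahnSeries ℤ R} {k : ℤ} (h1 : f.coeff k ≠ 0)
    (h2 : ∀ j < k, f.coeff j = 0) : f.order = k := by
  have hf : f ≠ 0 := by
    rintro rfl
    exact h1 rfl
  apply le_antisymm (HahnSeries.order_le_of_coeff_ne_zero h1)
  by_contra hlt
  exact hf (HahnSeries.coeff_order_eq_zero.mp (h2 _ (not_le.mp hlt)))

theorem order_laurentOf {R : Type*} [CommRing R] {P : PowerSeries R} {s : ℕ}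
    (hP : P.order = s) (m : ℕ) : (laurentOf m P).order = (s : ℤ) - m := by
  obtain ⟨h1, h2⟩ := (PowerSeries.order_eq_nat).mp hP
  apply order_eq_of_coeff
  · rw [coeff_laurentOf, if_pos (by omega)]
    have : ((s : ℤ) - m + m).toNat = s := by omega
    rwa [this]
  · intro j hj
    rw [coeff_laurentOf]
    split_ifs with h
    · exact h2 _ (by omega)
    · rfl

variable (p : ℕ) [NeZero p]

theorem zetaE_ne_zero {e : ℕ} (he : 0 < e) (hep : e ∣ p) : zetaE p e ≠ 0 := by
  intro h
  have := zetaE_pow p hep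
  rw [h, zero_pow he.ne'] at this
  exact zero_ne_one this

theorem order_AK (a e : ℕ) (b : ℤ) (ha : 0 < a) (he : 0 < e) (hep : e ∣ p) :
    (AK p a e b).order = ((a * (p / e) : ℕ) : ℕ∞) := by
  have hpe : 0 < p / e := Nat.div_pos (Nat.le_of_dvd (Nat.pos_of_ne_zero (NeZero.ne p)) hep) he
  have hs : 0 < a * (p / e) := Nat.mul_pos ha hpe
  rw [PowerSeries.order_eq_nat]
  constructor
  · rw [AK, coeff_affQ, if_pos dvd_rfl, Nat.div_self hs]
    have h1 : PowerSeries.coeff 1 (PowerSeries.X * etaU Kbar) = 1 := by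
      rw [PowerSeries.coeff_succ_X_mul, etaU, PowerSeries.coeff_map,
        PowerSeries.coeff_zero_eq_constantCoeff_apply, constantCoeff_dedekindEtaUnit]
      simp
    rw [h1, one_mul]
    exact zpow_ne_zero _ (zetaE_ne_zero p he hep)
  · intro i hi
    rw [AK, coeff_affQ]
    split_ifs with h
    · have hi0 : i = 0 := Nat.eq_zero_of_dvd_of_lt h hi
      subst hi0
      rw [Nat.zero_div, PowerSeries.coeff_zero_X_mul, zero_mul]
    · rfl

theorem order_BK : (BK p).order = 0 := by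
  rw [show (0 : ℕ∞) = ((0 : ℕ) : ℕ∞) from rfl, PowerSeries.order_eq_nat]
  refine ⟨?_, fun i hi => absurd hi (Nat.not_lt_zero i)⟩
  rw [BK, PowerSeries.coeff_zero_eq_constantCoeff_apply, PowerSeries.constantCoeff_expand, etaUInv,
    ← PowerSeries.coeff_zero_eq_constantCoeff_apply, PowerSeries.coeff_map,
    PowerSeries.coeff_zero_eq_constantCoeff_apply, constantCoeff_dedekindEtaUnitInv]
  simp

theorem laurentOf_ne_zero {R : Type*} [CommRing R] {P : PowerSeries R} {s : ℕ}
    (hP : P.order = s) (m : ℕ) : laurentOf m P ≠ 0 := by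
  obtain ⟨h1, -⟩ := (PowerSeries.order_eq_nat).mp hP
  intro h0
  have := coeff_laurentOf m P ((s : ℤ) - m)
  rw [h0, if_pos (by omega)] at this
  have hs : ((s : ℤ) - m + m).toNat = s := by omega
  rw [hs] at this
  exact h1 this.symm

theorem order_AK_mul_BK (a e : ℕ) (b : ℤ) (ha : 0 < a) (he : 0 < e) (hep : e ∣ p) :
    (AK p a e b * BK p).order = ((a * (p / e) : ℕ) : ℕ∞) := by
  rw [PowerSeries.order_mul, order_AK p a e b ha he hep, order_BK, add_zero]

theorem TK_ne_zero (a e : ℕ) (b : ℤ) (ha : 0 < a) (he : 0 < e) (hep : e ∣ p) :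
    TK p a e b ≠ 0 :=
  laurentOf_ne_zero (order_AK_mul_BK p a e b ha he hep) _

theorem order_TK (a e : ℕ) (b : ℤ) (ha : 0 < a) (he : 0 < e) (hep : e ∣ p) :
    (TK p a e b).order = ((a * (p / e) : ℕ) : ℤ) - p := by
  have h : (AK p a e b * BK p).order = ((a * (p / e) : ℕ) : ℕ∞) := by
    rw [PowerSeries.order_mul, order_AK p a e b ha he hep, order_BK, add_zero]
  rw [TK, order_laurentOf h]
  push_cast
  ring

/-! ### the modular unit `uq = Δ(q^n)/Δ(q)` as an element of `Fbar_n` -/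

open Fermat.Agent.RED.BASE.QExpMem19 Fermat.Agent.IG.AN.DeltaQuotExp19
open Fermat.Agent.RED.BASE.Unbranched14

theorem isNice_uq : IsNice p (uq Kbar p) (deltaQuot p) where
  hol := deltaQuot_mem_HolH p
  inv := fun γ hγ => deltaQuot_invariant p γ hγ
  qexp := by
    have h : toC (uq Kbar p) = uq ℂ p := by
      rw [toC, Fermat.Agent.IG.AN.DeltaAffine11.coeffMap_uq]
    rw [h]
    exact hasQExp_deltaQuot p
  cusp := fun γ => by
    obtain ⟨T, hT, -⟩ := Fermat.Agent.IG.AN.DeltaAffineBridge11.exists_expansion_compSL p γ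
    exact ⟨T, hT⟩

/-- the modular unit as an element of `FF p`. -/
def uF : FF p := ⟨uq Kbar p, mem_of_isNice (isNice_uq p)⟩

theorem coe_uF : ((uF p : FF p) : LaurentSeries Kbar) = uq Kbar p := rfl

theorem isRealizedBy_uF : IsRealizedBy (realizeData p) (uF p) (deltaQuot p) :=
  exists_fraction_of_isNice (isNice_uq p)

/-! ### the order of the modular unit at every place -/

section Orders

variable (n e : ℕ) [NeZero n]

theorem uF_ne_zero (he : e * (n - 1) = 24) : uF n ≠ 0 := by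
  intro h
  have h1 : uq Kbar n = 0 := congrArg Subtype.val h
  have h2 := tq_pow_mul_uq Kbar n e he
  rw [h1, mul_zero] at h2
  exact zero_ne_one h2

theorem deltaQuot_ne_zero' (he : e * (n - 1) = 24) (z : ℍ) : deltaQuot n z ≠ 0 :=
  right_ne_zero_of_mul_eq_one (tauFun_pow_mul_deltaQuot n e he z)

/-- at the places which are not poles of `j` the modular unit is a unit. -/
theorem ord_uF_point (he : e * (n - 1) = 24) (h2 : nuTwo n = 0) (h3 : nuThree n = 0)
    (v : Place Kbar (FF n)) (hv : 0 ≤ v.ord (jF n)) : v.ord (uF n) = 0 := by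
  obtain ⟨z₀, cj, hc, g, rfl⟩ :=
    exists_pointPlaceD_eq_of_ord_nonneg (realizeData n) (cuspData n) v hv
  have hne : uF n - algebraMap Kbar (FF n) 0 ≠ 0 := by
    rw [map_zero, sub_zero]
    exact uF_ne_zero n e he
  have e1 := ord_sub_eq_ordH (realizeData n) (cuspData n) h2 h3 (deltaQuot_mem_HolH n)
    (isRealizedBy_uF n) z₀ cj hc g 0 hne
  rw [map_zero, sub_zero] at e1
  rw [e1]
  have hhol : (fun z => deltaQuot n z - iotaK 0) ∈ HolH := by
    simp only [map_zero, sub_zero]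
    exact deltaQuot_mem_HolH n
  have h0 : ordH (compSL (fun z => deltaQuot n z - iotaK 0) g⁻¹) z₀ = 0 := by
    rw [ordH_eq_zero_iff (compSL_mem_HolH hhol g⁻¹), compSL_apply, map_zero, sub_zero]
    exact deltaQuot_ne_zero' n e he _
  rw [h0]
  rfl

/-- the orders of the cusp expansions of the modular unit: `a² - n` for a divisor `a` of `n`. -/
theorem order_T_uF (γ : SL(2, ℤ)) : ∃ a : ℕ, a ∣ n ∧
    ((cuspData n).T γ (uF n)).order = ((a * a : ℕ) : ℤ) - n := by
  obtain ⟨a, e', b, ha, he', hae, -, -, hfun⟩ := compSL_deltaQuot n γ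
  have hep : e' ∣ n := Dvd.intro_left a hae
  have hI : IntgQN n (compSL (deltaQuot n) γ)
      (toC (HahnSeries.C (((e' : Kbar)⁻¹) ^ 12) * TK n a e' b)) := by
    rw [hfun, map_mul, Fermat.Agent.IG.AN.DeltaAffineBridge11.toC_C, map_pow, map_inv₀,
      map_natCast]
    exact intg_qn_mul n (intg_qn_const n _) (intgQN_quot n a e' b ha he' hep)
  have hT := T_eq_of_isNice (isNice_uq n) γ _ hI
  refine ⟨a, Dvd.intro _ hae, ?_⟩
  have hc : HahnSeries.C (((e' : Kbar)⁻¹) ^ 12) ≠ (0 : LaurentSeries Kbar) := by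
    have : (e' : Kbar) ≠ 0 := by exact_mod_cast he'.ne'
    exact HahnSeries.C_ne_zero (pow_ne_zero _ (inv_ne_zero this))
  have hTK : TK n a e' b ≠ 0 := TK_ne_zero n a e' b ha he' hep
  have hdiv : n / e' = a := by rw [← hae]; exact Nat.mul_div_cancel a he'
  show ((cuspData n).T γ ⟨uq Kbar n, _⟩).order = _
  rw [hT, HahnSeries.order_mul hc hTK, HahnSeries.order_C, zero_add,
    order_TK n a e' b ha he' hep, hdiv]

/-- the order of the modular unit at every place: `0`, or `-(n - 1)` at an unramified place over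
`j = ∞` of width `n` (the zeros of `t`), or `w (n - 1)` at a place over `j = ∞` of width `w`
(the poles of `t`). -/
theorem ord_uF_cases (he : e * (n - 1) = 24) (h2 : nuTwo n = 0) (h3 : nuThree n = 0)
    (hsq : ∀ a : ℕ, a ∣ n → a = 1 ∨ a = n ∨ a * a = n) (v : Place Kbar (FF n)) :
    v.ord (uF n) = 0 ∨ (v.ord (uF n) = -((n : ℤ) - 1) ∧ v.ord (jF n) = -(n : ℤ)) ∨
      (v.ord (uF n) = -v.ord (jF n) * ((n : ℤ) - 1) ∧ v.ord (jF n) < 0) := by
  by_cases hv : 0 ≤ v.ord (jF n)
  · exact Or.inl (ord_uF_point n e he h2 h3 v hv)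
  have hv' : v.ord (jF n) < 0 := not_le.mp hv
  have hC := CuspGood.good (cuspData n)
  have hcard := Degree.card_eq_finrank_adjoin n (realizeData n) (cuspData n)
  have : FiniteDimensional Kbar⟮jF n⟯ (FF n) :=
    (Degree.isGen_jF n (realizeData n) (cuspData n)).finite
  obtain ⟨g, rfl⟩ := CuspSurj.exists_cuspPlace_eq hC hcard v hv'
  obtain ⟨m, hm, hspec, hmj⟩ := cuspPlace_spec hC g
  obtain ⟨a, han, hord⟩ := order_T_uF n g⁻¹
  have hW := hspec (uF n) (uF_ne_zero n e he)
  rw [hord] at hW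
  have hm0 : (m : ℤ) ≠ 0 := by exact_mod_cast hm.ne'
  set x := (cuspPlace hC g).ord (uF n) with hx
  set y := (cuspPlace hC g).ord (jF n) with hy
  rcases hsq a han with rfl | h | h
  · -- `a = 1`: `m = 1`
    right; left
    have h1 : (m : ℤ) ∣ n := ⟨-y, by linarith⟩
    have h2' : (m : ℤ) ∣ 1 - n := ⟨x, by push_cast at hW; linarith⟩
    have h3' : (m : ℤ) ∣ 1 := by
      have := dvd_add h1 h2'
      simpa using this
    have hm1 : (m : ℤ) = 1 := Int.eq_one_of_dvd_one (by positivity) h3'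
    rw [hm1] at hW hmj
    push_cast at hW
    constructor <;> linarith
  · -- `a = n`
    right; right
    rw [h] at hW
    refine ⟨?_, hv'⟩
    have : (m : ℤ) * x = (m : ℤ) * (-y * ((n : ℤ) - 1)) := by
      push_cast at hW
      rw [← hW]
      have : (n : ℤ) = (m : ℤ) * (-y) := by linarith
      calc (n : ℤ) * n - n = n * ((n : ℤ) - 1) := by ring
        _ = (m : ℤ) * (-y) * ((n : ℤ) - 1) := by rw [← this]
        _ = (m : ℤ) * (-y * ((n : ℤ) - 1)) := by ring
    exact mul_left_cancel₀ hm0 this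
  · left
    rw [h, sub_self] at hW
    rcases mul_eq_zero.mp hW.symm with h0 | h0
    · exact absurd h0 hm0
    · exact h0

theorem dvd_ord_uF (he : e * (n - 1) = 24) (h2 : nuTwo n = 0) (h3 : nuThree n = 0)
    (hsq : ∀ a : ℕ, a ∣ n → a = 1 ∨ a = n ∨ a * a = n) (v : Place Kbar (FF n)) :
    ((n : ℤ) - 1) ∣ v.ord (uF n) := by
  rcases ord_uF_cases n e he h2 h3 hsq v with h | ⟨h, -⟩ | ⟨h, -⟩
  · rw [h]; exact dvd_zero _
  · rw [h]; exact (dvd_refl _).neg_right
  · rw [h]; exact dvd_mul_left _ _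

end Orders

/-! ### the Hauptmodul -/

section Main

variable (n e : ℕ) [NeZero n]

theorem genus_FF_eq_zero [HasCanonicalDivisor (K := Kbar) (F := FF n)]
    (hgf : genusFormula n = 0) : genus Kbar (FF n) = 0 := by
  have hx : FF.IsGen Kbar (jF n) := Degree.isGen_jF n (realizeData n) (cuspData n)
  have hfd : FiniteDimensional (IntermediateField.adjoin Kbar {jF n}) (FF n) := hx.finite
  have hdeg := Degree.finrank_adjoin n (realizeData n) (cuspData n)
  have hcard := Degree.card_eq_finrank_adjoin n (realizeData n) (cuspData n)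
  have hC := CuspGood.good (cuspData n)
  have h := S24PointsD.genus_eq_genusFormula_of_surj (realizeData n) (cuspData n)
    (FFGenus.genusHyp hx) hdeg hC
    (fun z₀ c hc v hv =>
      PointSurjT.exists_pointPlaceD_eq (realizeData n) z₀ (cuspData n) c hc v hv)
    (fun v hv => CuspSurj.exists_cuspPlace_eq hC hcard v hv)
  rw [hgf] at h
  exact_mod_cast h

/-- **the Hauptmodul**: there is `s ∈ Fbar_n` with `div s = div(uq)/(n - 1)` and `t s` constant. -/
theorem exists_hauptmodul (hn : 2 ≤ n) (he : e * (n - 1) = 24) (h2 : nuTwo n = 0)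
    (h3 : nuThree n = 0) (hsq : ∀ a : ℕ, a ∣ n → a = 1 ∨ a = n ∨ a * a = n)
    (hgf : genusFormula n = 0) :
    ∃ s : FF n, s ≠ 0 ∧ (∀ v : Place Kbar (FF n), ((n : ℤ) - 1) * v.ord s = v.ord (uF n)) ∧
      ∃ d : Kbar, d ≠ 0 ∧ tq Kbar n e * (s : LaurentSeries Kbar) = HahnSeries.C d := by
  have := HasCanDivInst.hasCanonicalDivisor n
  have hx := HasCanDivInst.isGen n
  have H := Fermat.Agent.RR.LHypGen.lHyp_of_isGen hx
  have hW0 := uF_ne_zero n e he
  have hk : ((n - 1 : ℕ) : ℤ) = (n : ℤ) - 1 := by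
    have : 1 ≤ n := by omega
    push_cast [this]
    ring
  have hk0 : (n : ℤ) - 1 ≠ 0 := by
    have : (2 : ℤ) ≤ n := by exact_mod_cast hn
    omega
  set D0 : Divisor Kbar (FF n) :=
    Finsupp.mapRange (fun k : ℤ => k / ((n : ℤ) - 1)) (by simp) (divOf H hW0) with hD0def
  have hD0 : ∀ v : Place Kbar (FF n), ((n : ℤ) - 1) * D0 v = v.ord (uF n) := fun v => by
    rw [hD0def, Finsupp.mapRange_apply, divOf_apply]
    exact Int.mul_ediv_cancel' (dvd_ord_uF n e he h2 h3 hsq v)
  have hdeg : Divisor.degree D0 = 0 := by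
    have h1 : ((n : ℤ) - 1) • D0 = divOf H hW0 := by
      ext v
      rw [Finsupp.smul_apply, smul_eq_mul, hD0, divOf_apply]
    have h := congrArg Divisor.degree h1
    rw [map_zsmul, degree_divOf, smul_eq_mul] at h
    rcases mul_eq_zero.mp h with h | h
    · exact absurd h hk0
    · exact h
  obtain ⟨s, hs0, hs⟩ := exists_ord_eq_of_genus_zero hx (genus_FF_eq_zero n hgf) D0 hdeg
  have hsord : ∀ v : Place Kbar (FF n), ((n : ℤ) - 1) * v.ord s = v.ord (uF n) := fun v => by
    rw [hs v, hD0 v]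
  refine ⟨s, hs0, hsord, ?_⟩
  -- `uq / s^(n-1)` is a constant
  have hsk0 : s ^ (n - 1) ≠ 0 := pow_ne_zero _ hs0
  obtain ⟨c, hc⟩ : ∃ c : Kbar, uF n * (s ^ (n - 1))⁻¹ = algebraMap Kbar (FF n) c := by
    apply eq_algebraMap_of_forall_ord_nonneg H
    intro v
    rw [Place.ord_mul v hW0 (inv_ne_zero hsk0), Place.ord_inv, ← zpow_natCast, Place.ord_zpow, hk,
      hsord v]
    omega
  have hc0 : c ≠ 0 := by
    rintro rfl
    rw [map_zero] at hc
    exact (mul_ne_zero hW0 (inv_ne_zero hsk0)) hc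
  have hu : uF n = algebraMap Kbar (FF n) c * s ^ (n - 1) := by
    rw [← hc, inv_mul_cancel_right₀ hsk0]
  have huL : uq Kbar n = HahnSeries.C c * (s : LaurentSeries Kbar) ^ (n - 1) := by
    have := congrArg (Subtype.val : FF n → LaurentSeries Kbar) hu
    rw [coe_uF] at this
    rw [this]
    show ((algebraMap Kbar (FF n) c : FF n) : LaurentSeries Kbar) *
      ((s ^ (n - 1) : FF n) : LaurentSeries Kbar) = _
    rw [← CuspSurj.algebraMap_laurent]
    rfl
  -- `(t s)^(n-1) = 1/c`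
  set y : LaurentSeries Kbar := tq Kbar n e * (s : LaurentSeries Kbar) with hy
  have hyk : y ^ (n - 1) = HahnSeries.C c⁻¹ := by
    have h1 := tq_pow_mul_uq Kbar n e he
    rw [huL] at h1
    have hCc : (HahnSeries.C c⁻¹ : LaurentSeries Kbar) * HahnSeries.C c = 1 := by
      rw [← map_mul, inv_mul_cancel₀ hc0, map_one]
    calc y ^ (n - 1) = (HahnSeries.C c⁻¹ * HahnSeries.C c) *
          (tq Kbar n e * (s : LaurentSeries Kbar)) ^ (n - 1) := by rw [hCc, one_mul]
      _ = HahnSeries.C c⁻¹ *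
          (tq Kbar n e ^ (n - 1) * (HahnSeries.C c * (s : LaurentSeries Kbar) ^ (n - 1))) := by
            rw [mul_pow]; ring
      _ = HahnSeries.C c⁻¹ := by rw [h1, mul_one]
  have hkpos : 0 < n - 1 := by omega
  have hyalg : IsAlgebraic Kbar y := by
    refine ⟨Polynomial.X ^ (n - 1) - Polynomial.C c⁻¹,
      Polynomial.X_pow_sub_C_ne_zero hkpos _, ?_⟩
    rw [map_sub, map_pow, Polynomial.aeval_X, Polynomial.aeval_C, hyk,
      ← CuspSurj.algebraMap_laurent, RingHom.id_apply, sub_self]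
  obtain ⟨d, hd⟩ := FF.eq_algebraMap_of_isAlgebraic hyalg
  have hdC : y = HahnSeries.C d := by
    rw [hd, ← CuspSurj.algebraMap_laurent, RingHom.id_apply]
  refine ⟨d, ?_, hdC⟩
  rintro rfl
  rw [map_zero] at hdC
  rw [hdC, zero_pow hkpos.ne'] at hyk
  exact (HahnSeries.C_ne_zero (inv_ne_zero hc0)) hyk.symm

/-- **(B2)** `t ∈ Fbar_n`. -/
theorem tMem_base (hn : 2 ≤ n) (he : e * (n - 1) = 24) (h2 : nuTwo n = 0)
    (h3 : nuThree n = 0) (hsq : ∀ a : ℕ, a ∣ n → a = 1 ∨ a = n ∨ a * a = n)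
    (hgf : genusFormula n = 0) : TMem n e n := by
  obtain ⟨s, hs0, -, d, -, hd⟩ := exists_hauptmodul n e hn he h2 h3 hsq hgf
  have hsL : (s : LaurentSeries Kbar) ≠ 0 := fun h => hs0 (Subtype.ext h)
  have h : tq Kbar n e = HahnSeries.C d * (s : LaurentSeries Kbar)⁻¹ := by
    rw [← hd, mul_inv_cancel_right₀ hsL]
  unfold TMem tK
  rw [h, ← CuspSurj.algebraMap_laurent, RingHom.id_apply]
  exact mul_mem (IntermediateField.algebraMap_mem _ d) (inv_mem s.2)

variable {n e}

theorem tF_pow_mul_uF (he : e * (n - 1) = 24) (h : TMem n e n) :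
    tF n h ^ (n - 1) * uF n = 1 :=
  Subtype.ext (tq_pow_mul_uq Kbar n e he)

theorem tF_ne_zero (he : e * (n - 1) = 24) (h : TMem n e n) : tF n h ≠ 0 := by
  intro h0
  have h1 := tF_pow_mul_uF he h
  have hk : n - 1 ≠ 0 := by
    rintro hk
    rw [hk] at he
    omega
  rw [h0, zero_pow hk, zero_mul] at h1
  exact zero_ne_one h1

/-- the order of `t` at every place: `0`, or `1` at an unramified place over `j = ∞` of width `n`,
or `ord_v j < 0`. -/
theorem ord_tF_cases (hn : 2 ≤ n) (he : e * (n - 1) = 24) (h2 : nuTwo n = 0)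
    (h3 : nuThree n = 0) (hsq : ∀ a : ℕ, a ∣ n → a = 1 ∨ a = n ∨ a * a = n)
    (h : TMem n e n) (v : Place Kbar (FF n)) :
    v.ord (tF n h) = 0 ∨ (v.ord (tF n h) = 1 ∧ v.ord (jF n) = -(n : ℤ)) ∨
      (v.ord (tF n h) = v.ord (jF n) ∧ v.ord (jF n) < 0) := by
  have hk : ((n - 1 : ℕ) : ℤ) = (n : ℤ) - 1 := by
    have : 1 ≤ n := by omega
    push_cast [this]
    ring
  have hk0 : (n : ℤ) - 1 ≠ 0 := by
    have : (2 : ℤ) ≤ n := by exact_mod_cast hn
    omega
  have h1 := congrArg v.ord (tF_pow_mul_uF he h)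
  rw [Place.ord_mul v (pow_ne_zero _ (tF_ne_zero he h)) (uF_ne_zero n e he), Place.ord_one,
    ← zpow_natCast, Place.ord_zpow, hk] at h1
  rcases ord_uF_cases n e he h2 h3 hsq v with h0 | ⟨h0, hj⟩ | ⟨h0, hj⟩
  · left
    rw [h0, add_zero] at h1
    rcases mul_eq_zero.mp h1 with h' | h'
    · exact absurd h' hk0
    · exact h'
  · right; left
    refine ⟨?_, hj⟩
    rw [h0] at h1
    have : ((n : ℤ) - 1) * v.ord (tF n h) = ((n : ℤ) - 1) * 1 := by linarith
    exact mul_left_cancel₀ hk0 this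
  · right; right
    refine ⟨?_, hj⟩
    rw [h0] at h1
    have : ((n : ℤ) - 1) * v.ord (tF n h) = ((n : ℤ) - 1) * v.ord (jF n) := by linarith
    exact mul_left_cancel₀ hk0 this

theorem transcendental_tF (h : TMem n e n) : Transcendental Kbar (tF n h) := by
  intro halg
  obtain ⟨c, hc⟩ := FF.eq_algebraMap_of_isAlgebraic halg
  have h1 : tq Kbar n e = HahnSeries.C c := by
    have := congrArg (Subtype.val : FF n → LaurentSeries Kbar) hc
    rw [← CuspSurj.algebraMap_laurent, RingHom.id_apply]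
    exact this
  have h2 := coeff_tq_neg_one Kbar n e
  rw [h1, HahnSeries.C_apply, HahnSeries.coeff_single_of_ne (by norm_num)] at h2
  exact zero_ne_one h2

theorem isGen_tF (h : TMem n e n) : FF.IsGen Kbar (tF n h) :=
  (HasCanDivInst.isGen n).of_transcendental (transcendental_tF h)

/-- **(B3)** `ℚbar(t) = Fbar_n`. -/
theorem tGenBase (hn : 2 ≤ n) (he : e * (n - 1) = 24) (h2 : nuTwo n = 0)
    (h3 : nuThree n = 0) (hsq : ∀ a : ℕ, a ∣ n → a = 1 ∨ a = n ∨ a * a = n)
    (hpsi : dedekindPsi n < 2 * n) (h : TMem n e n) : Kbar⟮tF n h⟯ = ⊤ := by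
  have hgen := isGen_tF h
  have hj := HasCanDivInst.isGen n
  have hfinZ := FF.finite_zeros hgen
  have hfinP := FF.finite_poles hj
  have hsumZ := FF.sum_ord_zeros hgen
  have hsumP := FF.sum_ord_poles hj
  rw [Degree.finrank_adjoin n (realizeData n) (cuspData n)] at hsumP
  have hZ : ∀ v : Place Kbar (FF n), 0 < v.ord (tF n h) →
      v.ord (tF n h) = 1 ∧ v.ord (jF n) = -(n : ℤ) := by
    intro v hv
    rcases ord_tF_cases hn he h2 h3 hsq h v with h0 | h0 | ⟨h0, hj0⟩
    · omega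
    · exact h0
    · omega
  replace hsumZ : ∑ᶠ (v : Place Kbar (FF n)) (_ : v ∈ {v : Place Kbar (FF n) | 0 < v.ord (tF n h)}),
      v.ord (tF n h) = (Module.finrank Kbar⟮tF n h⟯ (FF n) : ℤ) := hsumZ
  replace hsumP : ∑ᶠ (v : Place Kbar (FF n)) (_ : v ∈ {v : Place Kbar (FF n) | v.ord (jF n) < 0}),
      -v.ord (jF n) = ((dedekindPsi n : ℕ) : ℤ) := hsumP
  rw [finsum_mem_eq_finite_toFinset_sum _ hfinZ] at hsumZ
  rw [finsum_mem_eq_finite_toFinset_sum _ hfinP] at hsumP
  have hcardZ : ((hfinZ.toFinset.card : ℕ) : ℤ) = (Module.finrank Kbar⟮tF n h⟯ (FF n) : ℤ) := by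
    rw [← hsumZ, Finset.sum_congr rfl (fun v hv => (hZ v (hfinZ.mem_toFinset.mp hv)).1)]
    simp
  have hsub : hfinZ.toFinset ⊆ hfinP.toFinset := by
    intro v hv
    rw [Set.Finite.mem_toFinset] at hv ⊢
    have := (hZ v hv).2
    have hn0 : (0 : ℤ) < n := by exact_mod_cast (by omega : 0 < n)
    show v.ord (jF n) < 0
    omega
  have hle : ∑ v ∈ hfinZ.toFinset, -v.ord (jF n) ≤ ∑ v ∈ hfinP.toFinset, -v.ord (jF n) := by
    apply Finset.sum_le_sum_of_subset_of_nonneg hsub
    intro v hv _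
    rw [Set.Finite.mem_toFinset] at hv
    have : v.ord (jF n) < 0 := hv
    omega
  rw [hsumP, Finset.sum_congr rfl (fun v hv => by
    rw [(hZ v (hfinZ.mem_toFinset.mp hv)).2, neg_neg] :
    ∀ v ∈ hfinZ.toFinset, -v.ord (jF n) = (n : ℤ))] at hle
  rw [Finset.sum_const, nsmul_eq_mul] at hle
  have hfd : FiniteDimensional Kbar⟮tF n h⟯ (FF n) := hgen.finite
  have hpos : 0 < Module.finrank Kbar⟮tF n h⟯ (FF n) := Module.finrank_pos
  have hone : Module.finrank Kbar⟮tF n h⟯ (FF n) = 1 := by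
    have h1 : (hfinZ.toFinset.card : ℤ) * n < 2 * n := by
      have : ((dedekindPsi n : ℕ) : ℤ) < 2 * n := by exact_mod_cast hpsi
      linarith
    have hn0 : (0 : ℤ) < n := by exact_mod_cast (by omega : 0 < n)
    have h2' : (hfinZ.toFinset.card : ℤ) < 2 := lt_of_mul_lt_mul_right h1 hn0.le
    have h3' : (Module.finrank Kbar⟮tF n h⟯ (FF n) : ℤ) < 2 := by rw [← hcardZ]; exact h2'
    have : Module.finrank Kbar⟮tF n h⟯ (FF n) < 2 := by exact_mod_cast h3'
    omega
  exact IntermediateField.finrank_eq_one_iff_eq_top.mp hone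

end Main

/-! ### the two base levels -/

/-- the numerical facts about the base level `n` (and the exponent `e`) used in the chapter. -/
structure BaseHyp (n e : ℕ) : Prop where
  two_le : 2 ≤ n
  exp : e * (n - 1) = 24
  nuTwo : nuTwo n = 0
  nuThree : nuThree n = 0
  sq : ∀ a : ℕ, a ∣ n → a = 1 ∨ a = n ∨ a * a = n
  genus : genusFormula n = 0
  psi : dedekindPsi n < 2 * n
  four_or_nine : 4 ∣ n ∨ 9 ∣ n

open Fermat.Agent.X0.GNTable Fermat.Agent.RED.BASE.NoElliptic14 in
theorem baseHyp_four : BaseHyp 4 8 where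
  two_le := by norm_num
  exp := by norm_num
  nuTwo := nuTwo_eq_zero_of_four_dvd (dvd_refl 4)
  nuThree := nuThree_eq_zero_of_four_dvd (dvd_refl 4)
  sq := by
    intro a ha
    have hle : a ≤ 4 := Nat.le_of_dvd (by norm_num) ha
    interval_cases a <;> simp_all
  genus := by
    unfold genusFormula
    rw [gnt_psi_four, gnt_cusp_four, nuTwo_eq_zero_of_four_dvd (dvd_refl 4),
      nuThree_eq_zero_of_four_dvd (dvd_refl 4)]
    norm_num
  psi := by rw [gnt_psi_four]; norm_num
  four_or_nine := Or.inl (dvd_refl 4)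

open Fermat.Agent.X0.GNTable Fermat.Agent.RED.BASE.NoElliptic14 in
theorem baseHyp_nine : BaseHyp 9 3 where
  two_le := by norm_num
  exp := by norm_num
  nuTwo := nuTwo_eq_zero_of_nine_dvd (dvd_refl 9)
  nuThree := nuThree_eq_zero_of_nine_dvd (dvd_refl 9)
  sq := by
    intro a ha
    have hle : a ≤ 9 := Nat.le_of_dvd (by norm_num) ha
    interval_cases a <;> simp_all
  genus := by
    unfold genusFormula
    rw [gnt_psi_nine, gnt_cusp_nine, nuTwo_eq_zero_of_nine_dvd (dvd_refl 9),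
      nuThree_eq_zero_of_nine_dvd (dvd_refl 9)]
    norm_num
  psi := by rw [gnt_psi_nine]; norm_num
  four_or_nine := Or.inr (dvd_refl 9)

section Final

variable {n e : ℕ} [NeZero n]

/-- **(B2)** `t ∈ Fbar_n`. -/
theorem tMem (hb : BaseHyp n e) : TMem n e n :=
  tMem_base n e hb.two_le hb.exp hb.nuTwo hb.nuThree hb.sq hb.genus

/-- **(B3)** `ℚbar(t) = Fbar_n`. -/
theorem tGenBase' (hb : BaseHyp n e) : TGenBase n e :=
  ⟨tMem hb, tGenBase hb.two_le hb.exp hb.nuTwo hb.nuThree hb.sq hb.psi (tMem hb)⟩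

/-- `t ∈ Fbar_M` for every multiple `M` of `n`. -/
theorem tMem_of_dvd (hb : BaseHyp n e) {M : ℕ} [NeZero M] (hM : n ∣ M) : TMem n e M :=
  (tMem hb).mono hM

end Final

end Fermat.Agent.RED.BASE.Hauptmodul12
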