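/-
Program H (S18), chapter RED/BASE (helper14): (B6) in the literal shape of `Interface12`.

`Interface12.Unbranched n e M` follows from the analytic dictionary at the two levels `n` and `M`
(`TRealize n e n`, `TRealize n e M`), the base generation (B3) `TGenBase n e`, and the absence of
elliptic points at both levels (`4 ∣ n` or `9 ∣ n`, and `n ∣ M`).
-/
import Mathlib
import Fermat.Agent.RED.BASE.Unbranched14
import Fermat.Agent.RED.BASE.Interface12

set_option autoImplicit false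

open UpperHalfPlane hiding I
open scoped MatrixGroups IntermediateField

namespace Fermat.Agent.RED.BASE.UnbranchedMain14

open Fermat.Agent.X0 Fermat.Agent.X0.FF AlgebraicCurve
open Fermat.Agent.RED.BASE.NoElliptic14 Fermat.Agent.RED.BASE.Unbranched14
open Fermat.Agent.RED.BASE.Interface12 Fermat.Agent.RED.BASE.EtaQuot12

/-- no elliptic points of order 2 when `4 ∣ N` or `9 ∣ N` -/
theorem nuTwo_eq_zero {N : ℕ} (h : 4 ∣ N ∨ 9 ∣ N) : ModularCurve.nuTwo N = 0 :=
  h.elim nuTwo_eq_zero_of_four_dvd nuTwo_eq_zero_of_nine_dvd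

/-- no elliptic points of order 3 when `4 ∣ N` or `9 ∣ N` -/
theorem nuThree_eq_zero {N : ℕ} (h : 4 ∣ N ∨ 9 ∣ N) : ModularCurve.nuThree N = 0 :=
  h.elim nuThree_eq_zero_of_four_dvd nuThree_eq_zero_of_nine_dvd

/-- `K(x) = F` forces `x` to be a transcendental generator of degree one, as soon as `F ≠ K`. -/
theorem isGen_of_adjoin_eq_top {K F : Type*} [Field K] [Field F] [Algebra K F] [IsAlgClosed K]
    {x y : F} (hy : Transcendental K y) (hx : K⟮x⟯ = ⊤) :
    IsGen K x ∧ Module.finrank K⟮x⟯ F = 1 := by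
  have hfin : Module.finrank K⟮x⟯ F = 1 := by
    rw [hx]
    exact IntermediateField.finrank_top
  refine ⟨⟨?_, ?_⟩, hfin⟩
  · intro halg
    obtain ⟨c, hc⟩ := eq_algebraMap_of_isAlgebraic halg
    have hbot : K⟮x⟯ = ⊥ := by
      rw [hc]
      exact IntermediateField.adjoin_simple_eq_bot_iff.mpr (IntermediateField.algebraMap_mem ⊥ c)
    have hymem : y ∈ (⊥ : IntermediateField K F) := by
      rw [← hbot, hx]
      exact IntermediateField.mem_top
    obtain ⟨d, hd⟩ := IntermediateField.mem_bot.mp hymem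
    apply hy
    rw [← hd]
    exact isAlgebraic_algebraMap d
  · exact Module.finite_of_finrank_eq_succ hfin

/-- **(B6)**, literal `Interface12` shape. -/
theorem unbranched (n e M : ℕ) [NeZero n] [NeZero M] (hn : 4 ∣ n ∨ 9 ∣ n) (hnM : n ∣ M)
    (hR₀ : TRealize n e n) (hR : TRealize n e M) (hG : TGenBase n e) : Unbranched n e M := by
  have hM : 4 ∣ M ∨ 9 ∣ M := hn.imp (fun h => h.trans hnM) (fun h => h.trans hnM)
  obtain ⟨h₀, a₀, b₀, hb₀, hab₀, hΘ₀⟩ := hR₀
  obtain ⟨h, a, b, hb, hab, hΘ⟩ := hR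
  obtain ⟨h₀', htop⟩ := hG
  obtain ⟨hgen, hdeg⟩ := isGen_of_adjoin_eq_top (transcendental_jF n) htop
  refine ⟨h, fun v hv => ?_⟩
  exact exists_ord_sub_eq_one (realizeData M) (cuspData M) (realizeData n) (cuspData n)
    (nuTwo_eq_zero hM) (nuThree_eq_zero hM) (nuTwo_eq_zero hn) (nuThree_eq_zero hn)
    (tauFun_mem_HolH n e) ⟨a, b, hb, hab, hΘ⟩ ⟨a₀, b₀, hb₀, hab₀, hΘ₀⟩ hgen hdeg v hv

end Fermat.Agent.RED.BASE.UnbranchedMain14
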