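/-
RED/BASE Main (helper12): the exports of the BASE chapter of Program H, assembled, except for the
cusp part (B4)/(B5) (file `MainCusp12`).

For `(n, e) = (4, 8)` or `(9, 3)` (`hb : BaseHyp n e`) and every multiple `M` of `n`, the formal
Hauptmodul `t = tq Kbar n e = q⁻¹ (η(q)/η(q^n))^e` satisfies:

* `TMem n e M`      : `t ∈ Fbar_M`                                            (Hauptmodul12)
* `TRealize n e M`  : `t = a/b` with `Θ a = Θ b · tauFun n e`                  (TGen19)
* `TGenBase n e`    : `ℚbar(t) = Fbar_n`                                       (Hauptmodul12)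
* `TIsGen n e M`    : `t` is a transcendental generator of `Fbar_M`            (TGen19)
* `Unbranched n e M`: at every place not over `j = ∞`, `t - t(v)` is a uniformiser (UnbranchedMain14)
* degree            : `ψ(n) · [Fbar_M : ℚbar(t)] = ψ(M)`                        (TGen19)
-/
import Fermat.Agent.RED.BASE.Hauptmodul12
import Fermat.Agent.RED.BASE.TGen19
import Fermat.Agent.RED.BASE.UnbranchedMain14

set_option autoImplicit false

open ModularCurve AlgebraicCurve
open scoped IntermediateField

namespace Fermat.Agent.RED.BASE.Main12

open Fermat.Agent.X0 Fermat.Agent.RED.BASE.Interface12 Fermat.Agent.RED.BASE.Hauptmodul12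

/-- the exports of the chapter at level `M` (all but the cusp expansions). -/
structure BaseExports (n e M : ℕ) [NeZero n] [NeZero M] : Prop where
  mem : TMem n e M
  realize : TRealize n e M
  realizeBase : TRealize n e n
  genBase : TGenBase n e
  isGen : TIsGen n e M
  unbranched : Unbranched n e M
  degree : ∀ h : TMem n e M, dedekindPsi n * Module.finrank Kbar⟮tF M h⟯ (FF M) = dedekindPsi M

variable {n e : ℕ} [NeZero n]

theorem baseExports (hb : BaseHyp n e) (M : ℕ) [NeZero M] (hnM : n ∣ M) : BaseExports n e M where
  mem := tMem_of_dvd hb hnM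
  realize := TGen19.tRealize_of_tMem n e M (tMem_of_dvd hb hnM)
  realizeBase := TGen19.tRealize_of_tMem n e n (tMem hb)
  genBase := tGenBase' hb
  isGen := TGen19.tIsGen_of_tMem n e M (tMem_of_dvd hb hnM)
  unbranched := UnbranchedMain14.unbranched n e M hb.four_or_nine hnM
    (TGen19.tRealize_of_tMem n e n (tMem hb)) (TGen19.tRealize_of_tMem n e M (tMem_of_dvd hb hnM))
    (tGenBase' hb)
  degree := fun h => TGen19.finrank_adjoin_tF_mul n e (tGenBase' hb) M hnM h

/-- level `4`, exponent `8` (used for odd `ℓ`). -/
theorem baseExports_four (M : ℕ) [NeZero M] (hM : 4 ∣ M) : BaseExports 4 8 M :=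
  baseExports baseHyp_four M hM

/-- level `9`, exponent `3` (used for `ℓ = 2`). -/
theorem baseExports_nine (M : ℕ) [NeZero M] (hM : 9 ∣ M) : BaseExports 9 3 M :=
  baseExports baseHyp_nine M hM

end Fermat.Agent.RED.BASE.Main12
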