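/-
Program H (S18), chapter RED/BASE, helper11: leaf (B5), part 1.

Cusp expansions of a `k`-th root `t` of the inverse of the eta quotient `u = Δ(p z)/Δ(z)`
(`t^k u = 1`, `r k = 24`) at every cusp of `X₀(M)`, `M = p c`:

* `exists_root_of_unity_of_pow_eq` : `X^k = Y^k` in `ℚbar((q))` gives `X = ξ Y`, `ξ^k = 1`;
* `HermiteRel`, `mem_Gamma0_of_hermiteRel`, `compSL_deltaQuot_prim` : primitive Hermite data
  `(a, e, b)` of `γ` (with `a e = p`), and equal data give equal `Γ₀(p)`-cosets;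
* `WK`, `WKInv`, `VK`, `EK` : the explicit series; `coeff_VK_mem`, `coeff_VK_middle`;
* `isIntegral_const`, `isIntegral_const_inv` : integrality of the leading constants;
* `cusp_expansion` : the expansion `(cuspData M).T γ t = qExpand c (c₀ q_p^o V)`.
-/
import Mathlib
import Fermat.Agent.IG.AN.DeltaAffineBridge11
import Fermat.Agent.X0.CuspExpand

set_option autoImplicit false

noncomputable section

namespace Fermat.Agent.RED.BASE.CuspExpT11

open Fermat.Agent.X0 Fermat.Agent.X0.Analytic Fermat.Agent.X0.Hermite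
open Fermat.Agent.X0.QExpAffine
open UpperHalfPlane ModularCurve
open scoped MatrixGroups
open scoped PowerSeries.WithPiTopology
open Filter Topology
open Fermat.Agent.IG.PR.Interface20 Fermat.Agent.IG.AN.DeltaAffine11
open Fermat.Agent.IG.AN.DeltaQuot19 Fermat.Agent.IG.AN.DeltaAffineBridge11

/-! ### (S3) `k`-th roots in the Laurent series field -/

/-- In `ℚbar((q))`: `X^k = Y^k`, `Y ≠ 0` implies `X = ξ Y` for a `k`-th root of unity `ξ`. -/
theorem exists_root_of_unity_of_pow_eq {k : ℕ} (hk : 0 < k) {X Y : LaurentSeries Kbar}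
    (hY : Y ≠ 0) (h : X ^ k = Y ^ k) :
    ∃ ξ : Kbar, ξ ^ k = 1 ∧ X = HahnSeries.C ξ * Y := by
  have h1 : (X / Y) ^ k = 1 := by
    rw [div_pow, h, div_self (pow_ne_zero k hY)]
  have halg : IsAlgebraic Kbar (X / Y) := by
    refine ⟨Polynomial.X ^ k - 1, ?_, ?_⟩
    · exact Polynomial.X_pow_sub_C_ne_zero hk (1 : Kbar)
    · simp [h1]
  have hint : IsIntegral Kbar (X / Y) := halg.isIntegral
  have hirr := minpoly.irreducible hint
  have hdeg := IsAlgClosed.degree_eq_one_of_irreducible Kbar hirr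
  obtain ⟨ξ, hξ⟩ := minpoly.mem_range_of_degree_eq_one Kbar (X / Y) hdeg
  have hC : algebraMap Kbar (LaurentSeries Kbar) ξ = HahnSeries.C ξ := by
    rw [HahnSeries.algebraMap_apply']
    simp
  rw [hC] at hξ
  refine ⟨ξ, ?_, ?_⟩
  · have h2 : (HahnSeries.C ξ : LaurentSeries Kbar) ^ k = 1 := by rw [hξ, h1]
    rw [← map_pow] at h2
    have h3 : (HahnSeries.C (ξ ^ k) : LaurentSeries Kbar) = HahnSeries.C (1 : Kbar) := by
      rw [h2, map_one]
    exact HahnSeries.C_injective h3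
  · rw [hξ, div_mul_cancel₀ _ hY]

/-! ### Hermite data with primitivity -/

/-- The Hermite relation `diag(d, 1) γ = γ' (a b; 0 e)` for some `γ' ∈ SL(2, ℤ)`. -/
def HermiteRel (d : ℕ) (γ : SL(2, ℤ)) (a e : ℕ) (b : ℤ) : Prop :=
  ∃ γ' : SL(2, ℤ), (d : ℤ) * γ 0 0 = γ' 0 0 * a ∧ (d : ℤ) * γ 0 1 = γ' 0 0 * b + γ' 0 1 * e ∧
    γ 1 0 = γ' 1 0 * a ∧ γ 1 1 = γ' 1 0 * b + γ' 1 1 * e

/-- Two matrices with the same Hermite data lie in the same coset `Γ₀(d) γ`. -/
theorem mem_Gamma0_of_hermiteRel {d : ℕ} {γ₁ γ₂ : SL(2, ℤ)} {a e : ℕ} {b : ℤ} (hae : a * e = d)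
    (h₁ : HermiteRel d γ₁ a e b) (h₂ : HermiteRel d γ₂ a e b) :
    γ₂ * γ₁⁻¹ ∈ CongruenceSubgroup.Gamma0 d := by
  obtain ⟨δ₁, -, -, h13, h14⟩ := h₁
  obtain ⟨δ₂, -, -, h23, h24⟩ := h₂
  rw [CongruenceSubgroup.Gamma0_mem]
  have hentry : ((γ₂ * γ₁⁻¹ : SL(2, ℤ)) 1 0 : ℤ) = γ₂ 1 0 * γ₁ 1 1 - γ₂ 1 1 * γ₁ 1 0 := by
    rw [Matrix.SpecialLinearGroup.coe_mul, Matrix.SpecialLinearGroup.SL2_inv_expl, Matrix.mul_apply,
      Fin.sum_univ_two]
    simp
    ring
  rw [hentry, h13, h14, h23, h24]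
  have : δ₂ 1 0 * (a : ℤ) * (δ₁ 1 0 * b + δ₁ 1 1 * e) - (δ₂ 1 0 * b + δ₂ 1 1 * e) * (δ₁ 1 0 * a)
      = (d : ℤ) * (δ₂ 1 0 * δ₁ 1 1 - δ₂ 1 1 * δ₁ 1 0) := by
    rw [← hae]
    push_cast
    ring
  rw [this]
  push_cast
  simp

/-- Hermite normal form with denominators and primitivity of `(a, b, e)`. -/
theorem exists_scaleH_smul_denom_prim (γ : SL(2, ℤ)) (d : ℕ) [NeZero d] :
    ∃ (γ' : SL(2, ℤ)) (a e : ℕ) (b : ℤ) (ha : 0 < a) (he : 0 < e), a * e = d ∧ 0 ≤ b ∧ b < e ∧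
      (∀ g : ℕ, g ∣ a → (g : ℤ) ∣ b → g ∣ e → g = 1) ∧ HermiteRel d γ a e b ∧
      ∀ z : ℍ, scaleH d (γ • z) = γ' • affH a e b ha he z ∧
        denom γ' (affH a e b ha he z) = denom γ z / e := by
  have hd : 0 < d := Nat.pos_of_ne_zero (NeZero.ne d)
  obtain ⟨γ', a, e, b, hae, ha, he, hb0, hbe, h1, h2, h3, h4⟩ := exists_hermite γ hd
  refine ⟨γ', a, e, b, ha, he, hae, hb0, hbe, ?_, ⟨γ', h1, h2, h3, h4⟩, fun z => ?_⟩
  · intro g hga hgb hge
    have hdet : γ 0 0 * γ 1 1 - γ 0 1 * γ 1 0 = 1 := by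
      have := γ.det_coe
      rw [Matrix.det_fin_two] at this
      exact this
    have hga' : (g : ℤ) ∣ (a : ℤ) := Int.natCast_dvd_natCast.mpr hga
    have hge' : (g : ℤ) ∣ (e : ℤ) := Int.natCast_dvd_natCast.mpr hge
    have h10 : (g : ℤ) ∣ γ 1 0 := by rw [h3]; exact Dvd.dvd.mul_left hga' _
    have h11 : (g : ℤ) ∣ γ 1 1 := by
      rw [h4]; exact dvd_add (Dvd.dvd.mul_left hgb _) (Dvd.dvd.mul_left hge' _)
    have h1' : (g : ℤ) ∣ 1 := by
      rw [← hdet]
      exact dvd_sub (Dvd.dvd.mul_left h11 _) (Dvd.dvd.mul_left h10 _)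
    have := Int.natCast_dvd_natCast.mp (by simpa using h1' : ((g : ℕ) : ℤ) ∣ ((1 : ℕ) : ℤ))
    exact Nat.dvd_one.mp this
  have hden := Hermite.denom_ne_zero' γ z
  have hden' := Hermite.denom_ne_zero' γ' (affH a e b ha he z)
  rw [coe_affH] at hden'
  have heC : (e : ℂ) ≠ 0 := by exact_mod_cast he.ne'
  have e1 : ((d : ℤ) : ℂ) * ((γ 0 0 : ℤ) : ℂ) = ((γ' 0 0 : ℤ) : ℂ) * ((a : ℤ) : ℂ) := by
    exact_mod_cast congrArg (Int.cast : ℤ → ℂ) h1
  have e2 : ((d : ℤ) : ℂ) * ((γ 0 1 : ℤ) : ℂ) =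
      ((γ' 0 0 : ℤ) : ℂ) * (b : ℂ) + ((γ' 0 1 : ℤ) : ℂ) * ((e : ℤ) : ℂ) := by
    exact_mod_cast congrArg (Int.cast : ℤ → ℂ) h2
  have e3 : ((γ 1 0 : ℤ) : ℂ) = ((γ' 1 0 : ℤ) : ℂ) * ((a : ℤ) : ℂ) := by
    exact_mod_cast congrArg (Int.cast : ℤ → ℂ) h3
  have e4 : ((γ 1 1 : ℤ) : ℂ) =
      ((γ' 1 0 : ℤ) : ℂ) * (b : ℂ) + ((γ' 1 1 : ℤ) : ℂ) * ((e : ℤ) : ℂ) := by
    exact_mod_cast congrArg (Int.cast : ℤ → ℂ) h4
  simp only [Int.cast_natCast] at e1 e2 e3 e4
  have hnum : ((γ' 0 0 : ℤ) : ℂ) * (((a : ℂ) * z + b) / e) + ((γ' 0 1 : ℤ) : ℂ) =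
      ((d : ℂ) * (((γ 0 0 : ℤ) : ℂ) * z + ((γ 0 1 : ℤ) : ℂ))) / e := by
    field_simp
    linear_combination (-(z : ℂ)) * e1 - e2
  have hdenom : ((γ' 1 0 : ℤ) : ℂ) * (((a : ℂ) * z + b) / e) + ((γ' 1 1 : ℤ) : ℂ) =
      (((γ 1 0 : ℤ) : ℂ) * z + ((γ 1 1 : ℤ) : ℂ)) / e := by
    field_simp
    linear_combination (-(z : ℂ)) * e3 - e4
  constructor
  · apply UpperHalfPlane.ext
    rw [coe_scaleH, coe_smul', coe_smul', coe_affH, hnum, hdenom]
    field_simp
  · rw [denom_eq, denom_eq, coe_affH, hdenom]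

/-- The automorphy step with primitive Hermite data. -/
theorem compSL_deltaQuot_prim (p : ℕ) [NeZero p] (γ : SL(2, ℤ)) :
    ∃ (a e : ℕ) (b : ℤ) (ha : 0 < a) (he : 0 < e), a * e = p ∧ 0 ≤ b ∧ b < e ∧
      (∀ g : ℕ, g ∣ a → (g : ℤ) ∣ b → g ∣ e → g = 1) ∧ HermiteRel p γ a e b ∧
      compSL (deltaQuot p) γ = fun z => ((e : ℂ)⁻¹) ^ 12 * deltaAff a e b ha he z := by
  obtain ⟨γ', a, e, b, ha, he, hae, hb0, hbe, hprim, hrel, h⟩ := exists_scaleH_smul_denom_prim γ p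
  refine ⟨a, e, b, ha, he, hae, hb0, hbe, hprim, hrel, funext fun z => ?_⟩
  obtain ⟨h1, h2⟩ := h z
  have heC : (e : ℂ) ≠ 0 := by exact_mod_cast he.ne'
  have hden : denom γ z ≠ 0 := denom_ne_zero γ z
  have hΔ : ModularForm.discriminant z ≠ 0 := ModularForm.discriminant_ne_zero z
  show ModularForm.discriminant (scaleH p (γ • z)) / ModularForm.discriminant (γ • z) = _
  rw [h1, discriminant_smul_pow, discriminant_smul_pow, h2, deltaAff]
  field_simp

/-! ### Formal eta products over `ℚbar` -/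

/-- `∏ (1 - q^n)` over `ℚbar`. -/
def WK : PowerSeries Kbar := etaProd.map (Int.castRingHom Kbar)

/-- The inverse of `WK`. -/
def WKInv : PowerSeries Kbar := (etaProd.invOfUnit 1).map (Int.castRingHom Kbar)

theorem WK_mul_WKInv : WK * WKInv = 1 := by
  rw [WK, WKInv, ← map_mul, PowerSeries.mul_invOfUnit _ _ (by rw [constantCoeff_etaProd]; rfl),
    map_one]

theorem constantCoeff_WK : PowerSeries.constantCoeff WK = 1 := by
  rw [WK, ← PowerSeries.coeff_zero_eq_constantCoeff, PowerSeries.coeff_map,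
    PowerSeries.coeff_zero_eq_constantCoeff, constantCoeff_etaProd]
  simp

theorem constantCoeff_WKInv : PowerSeries.constantCoeff WKInv = 1 := by
  have h := congrArg (PowerSeries.constantCoeff (R := Kbar)) WK_mul_WKInv
  rwa [map_mul, constantCoeff_WK, one_mul, map_one] at h

theorem etaU_eq : etaU Kbar = WK ^ 24 := by
  rw [etaU, dedekindEtaUnit, map_pow, WK]

theorem etaUInv_eq : etaUInv Kbar = WKInv ^ 24 := by
  have h1 : etaU Kbar * etaUInv Kbar = 1 := by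
    rw [etaU, etaUInv, ← map_mul, dedekindEtaUnit_mul_inv, map_one]
  have h2 : etaU Kbar * WKInv ^ 24 = 1 := by
    rw [etaU_eq, ← mul_pow, WK_mul_WKInv, one_pow]
  calc etaUInv Kbar = etaUInv Kbar * (etaU Kbar * WKInv ^ 24) := by rw [h2, mul_one]
    _ = (etaU Kbar * etaUInv Kbar) * WKInv ^ 24 := by ring
    _ = WKInv ^ 24 := by rw [h1, one_mul]

/-! ### Low coefficients of the eta product -/

theorem finprod_sub_dvd (N : ℕ) :
    (PowerSeries.X : PowerSeries ℤ) ^ 2 ∣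
      (∏ n ∈ Finset.range (N + 1), (1 - PowerSeries.X ^ (n + 1)) : PowerSeries ℤ) -
        (1 - PowerSeries.X) := by
  induction N with
  | zero => simp
  | succ N ih =>
    rw [Finset.prod_range_succ]
    have h2 : (PowerSeries.X : PowerSeries ℤ) ^ 2 ∣ PowerSeries.X ^ (N + 1 + 1) :=
      pow_dvd_pow _ (by omega)
    have : (∏ n ∈ Finset.range (N + 1), (1 - PowerSeries.X ^ (n + 1)) : PowerSeries ℤ) *
        (1 - PowerSeries.X ^ (N + 1 + 1)) - (1 - PowerSeries.X) =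
        ((∏ n ∈ Finset.range (N + 1), (1 - PowerSeries.X ^ (n + 1)) : PowerSeries ℤ) -
          (1 - PowerSeries.X))
        - (∏ n ∈ Finset.range (N + 1), (1 - PowerSeries.X ^ (n + 1)) : PowerSeries ℤ) *
          PowerSeries.X ^ (N + 1 + 1) := by
      ring
    rw [this]
    exact dvd_sub ih (Dvd.dvd.mul_left h2 _)

theorem coeff_one_etaProd : PowerSeries.coeff 1 etaProd = -1 := by
  have hB : Tendsto (fun N => (∏ n ∈ Finset.range N, (1 - PowerSeries.X ^ (n + 1)) :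
        PowerSeries ℤ)) atTop (𝓝 ModularCurve.etaProd) :=
    (PowerSeries.WithPiTopology.multipliable_one_sub_X_pow ℤ).hasProd.tendsto_prod_nat
  have hB' : Tendsto (fun N => PowerSeries.coeff 1
      (∏ n ∈ Finset.range N, (1 - PowerSeries.X ^ (n + 1)) : PowerSeries ℤ)) atTop
      (𝓝 (PowerSeries.coeff 1 ModularCurve.etaProd)) :=
    ((PowerSeries.WithPiTopology.continuous_coeff ℤ 1).tendsto _).comp hB
  have hconst : ∀ N, PowerSeries.coeff 1
      (∏ n ∈ Finset.range (N + 1), (1 - PowerSeries.X ^ (n + 1)) : PowerSeries ℤ) = -1 := by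
    intro N
    have h := (PowerSeries.X_pow_dvd_iff.mp (finprod_sub_dvd N)) 1 (by norm_num)
    rw [map_sub, sub_eq_zero] at h
    rw [h, map_sub, PowerSeries.coeff_one_X]
    simp
  have hB'' := (tendsto_add_atTop_iff_nat 1).mpr hB'
  simp only [hconst] at hB''
  exact (tendsto_nhds_unique hB'' tendsto_const_nhds)

theorem coeff_one_WK : PowerSeries.coeff 1 WK = -1 := by
  rw [WK, PowerSeries.coeff_map, coeff_one_etaProd]
  simp

theorem coeff_one_WKInv : PowerSeries.coeff 1 WKInv = 1 := by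
  have h := congrArg (PowerSeries.coeff 1) WK_mul_WKInv
  rw [PowerSeries.coeff_mul, Finset.Nat.sum_antidiagonal_eq_sum_range_succ_mk,
    Finset.sum_range_succ, Finset.sum_range_one] at h
  simp only [Nat.sub_zero, Nat.sub_self, PowerSeries.coeff_zero_eq_constantCoeff] at h
  rw [constantCoeff_WK, constantCoeff_WKInv, coeff_one_WK, one_mul, mul_one,
    PowerSeries.coeff_one] at h
  simp at h
  linear_combination h

/-! ### Congruences `P ≡ 1 + α X^m mod X^(m+1)` -/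

theorem cong_mul {m : ℕ} (hm : 0 < m) {P Q : PowerSeries Kbar} {α β : Kbar}
    (hP : PowerSeries.X ^ (m + 1) ∣ P - (1 + PowerSeries.C α * PowerSeries.X ^ m))
    (hQ : PowerSeries.X ^ (m + 1) ∣ Q - (1 + PowerSeries.C β * PowerSeries.X ^ m)) :
    PowerSeries.X ^ (m + 1) ∣ P * Q - (1 + PowerSeries.C (α + β) * PowerSeries.X ^ m) := by
  have h2 : (PowerSeries.X : PowerSeries Kbar) ^ (m + 1) ∣ PowerSeries.X ^ (m + m) :=
    pow_dvd_pow _ (by omega)
  have : P * Q - (1 + PowerSeries.C (α + β) * PowerSeries.X ^ m) =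
      (P - (1 + PowerSeries.C α * PowerSeries.X ^ m)) * Q +
      (1 + PowerSeries.C α * PowerSeries.X ^ m) * (Q - (1 + PowerSeries.C β * PowerSeries.X ^ m)) +
      PowerSeries.C α * PowerSeries.C β * PowerSeries.X ^ (m + m) := by
    rw [map_add, pow_add]
    ring
  rw [this]
  exact dvd_add (dvd_add (Dvd.dvd.mul_right hP _) (Dvd.dvd.mul_left hQ _)) (Dvd.dvd.mul_left h2 _)

theorem cong_pow {m : ℕ} (hm : 0 < m) {P : PowerSeries Kbar} {α : Kbar}
    (hP : PowerSeries.X ^ (m + 1) ∣ P - (1 + PowerSeries.C α * PowerSeries.X ^ m)) (r : ℕ) :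
    PowerSeries.X ^ (m + 1) ∣ P ^ r - (1 + PowerSeries.C ((r : Kbar) * α) * PowerSeries.X ^ m) := by
  induction r with
  | zero => simp
  | succ r ih =>
    have := cong_mul hm ih hP
    rw [pow_succ]
    have h : ((r : Kbar) * α + α) = ((r + 1 : ℕ) : Kbar) * α := by push_cast; ring
    rwa [h] at this

theorem coeff_of_cong {m : ℕ} {P : PowerSeries Kbar} {α : Kbar}
    (hP : PowerSeries.X ^ (m + 1) ∣ P - (1 + PowerSeries.C α * PowerSeries.X ^ m)) {n : ℕ}
    (hn : n ≤ m) :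
    PowerSeries.coeff n P = PowerSeries.coeff n (1 + PowerSeries.C α * PowerSeries.X ^ m) := by
  have h := (PowerSeries.X_pow_dvd_iff.mp hP) n (by omega)
  rwa [map_sub, sub_eq_zero] at h

/-! ### `affQ` as a ring homomorphism -/

/-- The substitution `X ↦ c X^s` as a ring hom. -/
def substHom (s : ℕ) (hs : s ≠ 0) (c : Kbar) : PowerSeries Kbar →+* PowerSeries Kbar :=
  ((PowerSeries.expand s hs : PowerSeries Kbar →ₐ[Kbar] PowerSeries Kbar) : PowerSeries Kbar →+*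
    PowerSeries Kbar).comp (PowerSeries.rescale c)

theorem affQ_eq_substHom (P : PowerSeries Kbar) (s : ℕ) (hs : s ≠ 0) (b : ℤ) (ζ : Kbar) :
    affQ P 0 s b ζ = substHom s hs (ζ ^ b) P := by
  ext k
  rw [coeff_affQ, substHom, RingHom.comp_apply, RingHom.coe_coe, PowerSeries.coeff_expand]
  split_ifs with h
  · rw [PowerSeries.coeff_rescale, Nat.cast_zero, sub_zero, zpow_mul, zpow_natCast, mul_comm]
  · rfl

theorem affQ_mul (P Q : PowerSeries Kbar) (s : ℕ) (hs : s ≠ 0) (b : ℤ) (ζ : Kbar) :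
    affQ (P * Q) 0 s b ζ = affQ P 0 s b ζ * affQ Q 0 s b ζ := by
  rw [affQ_eq_substHom _ s hs, affQ_eq_substHom _ s hs, affQ_eq_substHom _ s hs, map_mul]

theorem affQ_pow (P : PowerSeries Kbar) (n : ℕ) (s : ℕ) (hs : s ≠ 0) (b : ℤ) (ζ : Kbar) :
    affQ (P ^ n) 0 s b ζ = affQ P 0 s b ζ ^ n := by
  rw [affQ_eq_substHom _ s hs, affQ_eq_substHom _ s hs, map_pow]

theorem affQ_one (s : ℕ) (hs : s ≠ 0) (b : ℤ) (ζ : Kbar) :
    affQ (1 : PowerSeries Kbar) 0 s b ζ = 1 := by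
  rw [affQ_eq_substHom _ s hs, map_one]

theorem affQ_X (s : ℕ) (hs : s ≠ 0) (b : ℤ) (ζ : Kbar) :
    affQ (PowerSeries.X : PowerSeries Kbar) 0 s b ζ = PowerSeries.C (ζ ^ b) * PowerSeries.X ^ s := by
  rw [affQ_eq_substHom _ s hs, substHom, RingHom.comp_apply, PowerSeries.rescale_X, map_mul,
    RingHom.coe_coe, PowerSeries.expand_C, PowerSeries.expand_X]

/-! ### The unit part `V` of the expansion -/

section Formal

variable (p : ℕ) [NeZero p]

/-- The unit part of the `q_p`-expansion of the `k`-th root (`k r = 24`) of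
`Δ(z)/Δ((a z + b)/e)`: `(∏ (1 - q_p^(p n)) / ∏ (1 - ζ_e^(b n) q_p^(a (p/e) n)))^r`. -/
def VK (a e : ℕ) (b : ℤ) (r : ℕ) : PowerSeries Kbar :=
  affQ WKInv 0 (a * (p / e)) b (zetaE p e) ^ r * (WK.expand p (NeZero.ne p)) ^ r

theorem constantCoeff_VK (a e : ℕ) (b : ℤ) (r : ℕ) :
    PowerSeries.constantCoeff (VK p a e b r) = 1 := by
  rw [VK, map_mul, map_pow, map_pow, PowerSeries.constantCoeff_expand, constantCoeff_WK, one_pow,
    mul_one, ← PowerSeries.coeff_zero_eq_constantCoeff, coeff_zero_affQ,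
    PowerSeries.coeff_zero_eq_constantCoeff, constantCoeff_WKInv]
  simp

theorem AK_mul_BK_mul_VK_pow {a e : ℕ} (b : ℤ) (hs : a * (p / e) ≠ 0) {k r : ℕ}
    (hkr : r * k = 24) :
    AK p a e b * BK p * VK p a e b r ^ k =
      PowerSeries.C (zetaE p e ^ b) * PowerSeries.X ^ (a * (p / e)) := by
  have hA : AK p a e b = PowerSeries.C (zetaE p e ^ b) * PowerSeries.X ^ (a * (p / e)) *
      affQ WK 0 (a * (p / e)) b (zetaE p e) ^ 24 := by
    rw [AK, affQ_mul _ _ _ hs, affQ_X _ hs, etaU_eq, affQ_pow _ _ _ hs]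
  have hB : BK p = (WKInv.expand p (NeZero.ne p)) ^ 24 := by
    rw [BK, etaUInv_eq, map_pow]
  have hV : VK p a e b r ^ k = affQ WKInv 0 (a * (p / e)) b (zetaE p e) ^ 24 *
      (WK.expand p (NeZero.ne p)) ^ 24 := by
    rw [VK, mul_pow, ← pow_mul, ← pow_mul, hkr]
  have h1 : affQ WK 0 (a * (p / e)) b (zetaE p e) * affQ WKInv 0 (a * (p / e)) b (zetaE p e) = 1 := by
    rw [← affQ_mul _ _ _ hs, WK_mul_WKInv, affQ_one _ hs]
  have h2 : WKInv.expand p (NeZero.ne p) * WK.expand p (NeZero.ne p) = 1 := by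
    rw [← map_mul, mul_comm, WK_mul_WKInv, map_one]
  rw [hA, hB, hV]
  calc _ = PowerSeries.C (zetaE p e ^ b) * PowerSeries.X ^ (a * (p / e)) *
        (affQ WK 0 (a * (p / e)) b (zetaE p e) * affQ WKInv 0 (a * (p / e)) b (zetaE p e)) ^ 24 *
        (WKInv.expand p (NeZero.ne p) * WK.expand p (NeZero.ne p)) ^ 24 := by ring
    _ = _ := by rw [h1, h2, one_pow, mul_one, mul_one]

/-- The explicit expansion `c q_p^o V(q_p)`. -/
def EK (c : Kbar) (o : ℤ) (V : PowerSeries Kbar) : LaurentSeries Kbar :=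
  HahnSeries.C c * HahnSeries.single o (1 : Kbar) * HahnSeries.ofPowerSeries ℤ Kbar V

theorem EK_pow_mul_TK {a e : ℕ} (b : ℤ) (hs : a * (p / e) ≠ 0) {k r : ℕ} (hkr : r * k = 24)
    {c : Kbar} (hc : c ^ k * (((e : Kbar)⁻¹) ^ 12 * zetaE p e ^ b) = 1) {o : ℤ}
    (ho : (k : ℤ) * o + ((a * (p / e) : ℕ) : ℤ) = (p : ℤ)) :
    EK c o (VK p a e b r) ^ k * (HahnSeries.C (((e : Kbar)⁻¹) ^ 12) * TK p a e b) = 1 := by
  have hT : TK p a e b = HahnSeries.single (-(p : ℤ)) (1 : Kbar) *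
      HahnSeries.ofPowerSeries ℤ Kbar (AK p a e b * BK p) := by
    rw [TK, laurentOf, zero_mul, zero_add]
  have hE : EK c o (VK p a e b r) ^ k = HahnSeries.C (c ^ k) *
      HahnSeries.single ((k : ℤ) * o) (1 : Kbar) *
      HahnSeries.ofPowerSeries ℤ Kbar (VK p a e b r ^ k) := by
    rw [EK, mul_pow, mul_pow, HahnSeries.single_pow, one_pow, nsmul_eq_mul,
      ← map_pow (HahnSeries.C : Kbar →+* LaurentSeries Kbar),
      ← map_pow (HahnSeries.ofPowerSeries ℤ Kbar)]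
  have hprod : HahnSeries.ofPowerSeries ℤ Kbar (VK p a e b r ^ k) *
      HahnSeries.ofPowerSeries ℤ Kbar (AK p a e b * BK p) =
      HahnSeries.C (zetaE p e ^ b) * HahnSeries.single (((a * (p / e) : ℕ) : ℤ)) (1 : Kbar) := by
    rw [← map_mul, mul_comm, AK_mul_BK_mul_VK_pow p b hs hkr, map_mul, HahnSeries.ofPowerSeries_C,
      HahnSeries.ofPowerSeries_X_pow]
  rw [hE, hT]
  calc _ = HahnSeries.C (c ^ k) * HahnSeries.C (((e : Kbar)⁻¹) ^ 12) *
        (HahnSeries.single ((k : ℤ) * o) (1 : Kbar) * HahnSeries.single (-(p : ℤ)) (1 : Kbar)) *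
        (HahnSeries.ofPowerSeries ℤ Kbar (VK p a e b r ^ k) *
          HahnSeries.ofPowerSeries ℤ Kbar (AK p a e b * BK p)) := by ring
    _ = HahnSeries.C (c ^ k * (((e : Kbar)⁻¹) ^ 12 * zetaE p e ^ b)) *
        (HahnSeries.single ((k : ℤ) * o) (1 : Kbar) * HahnSeries.single (-(p : ℤ)) (1 : Kbar) *
          HahnSeries.single (((a * (p / e) : ℕ) : ℤ)) (1 : Kbar)) := by
      rw [hprod, map_mul, map_mul]; ring
    _ = 1 := by
      rw [hc, HahnSeries.single_mul_single, HahnSeries.single_mul_single, one_mul, one_mul,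
        HahnSeries.C_one, one_mul]
      have : (k : ℤ) * o + -(p : ℤ) + ((a * (p / e) : ℕ) : ℤ) = 0 := by linarith
      rw [this, HahnSeries.single_zero_one]

/-! #### integrality of the coefficients of `V` -/

omit [NeZero p] in
theorem coeff_pow_mem {R : Type*} [CommRing R] (S : Subring R) {P : PowerSeries R}
    (hP : ∀ n, PowerSeries.coeff n P ∈ S) (m : ℕ) : ∀ n, PowerSeries.coeff n (P ^ m) ∈ S := by
  induction m with
  | zero =>
    intro n
    rw [pow_zero, PowerSeries.coeff_one]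
    split_ifs
    · exact S.one_mem
    · exact S.zero_mem
  | succ m ih =>
    intro n
    rw [pow_succ]
    exact coeff_mul_mem S ih hP n

omit [NeZero p] in
theorem coeff_WK_mem (S : Subring Kbar) (n : ℕ) : PowerSeries.coeff n WK ∈ S := by
  rw [WK, PowerSeries.coeff_map]
  exact intCast_mem S _

omit [NeZero p] in
theorem coeff_WKInv_mem (S : Subring Kbar) (n : ℕ) : PowerSeries.coeff n WKInv ∈ S := by
  rw [WKInv, PowerSeries.coeff_map]
  exact intCast_mem S _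

/-- The coefficients of `V` lie in `ℤ[ζ_p]`. -/
theorem coeff_VK_mem (a : ℕ) {e : ℕ} (b : ℤ) (he : 0 < e) (hep : e ∣ p) (r n : ℕ) :
    PowerSeries.coeff n (VK p a e b r) ∈ Subring.closure {zetaK p} := by
  rw [VK]
  refine coeff_mul_mem _ (coeff_pow_mem _ (fun n => ?_) r) (coeff_pow_mem _ (fun n => ?_) r) n
  · rw [coeff_affQ]
    split_ifs
    · exact Subring.mul_mem _ (coeff_WKInv_mem _ _)
        (zpow_mem_of_pow_eq_one _ (zetaE_mem p e) he (zetaE_pow p hep) _)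
    · exact Subring.zero_mem _
  · rw [PowerSeries.coeff_expand]
    split_ifs
    · exact coeff_WK_mem _ _
    · exact Subring.zero_mem _

/-! #### the middle case `a = e` -/

omit [NeZero p] in
theorem cong_affQ_WKInv {s : ℕ} (hs : 0 < s) (b : ℤ) (ζ : Kbar) :
    PowerSeries.X ^ (s + 1) ∣
      affQ WKInv 0 s b ζ - (1 + PowerSeries.C (ζ ^ b) * PowerSeries.X ^ s) := by
  rw [PowerSeries.X_pow_dvd_iff]
  intro n hn
  rw [map_sub, map_add, PowerSeries.coeff_one, PowerSeries.coeff_C_mul_X_pow, coeff_affQ]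
  rcases Nat.eq_zero_or_pos n with rfl | hn0
  · rw [if_pos (dvd_zero s), if_pos rfl, if_neg hs.ne, Nat.zero_div,
      PowerSeries.coeff_zero_eq_constantCoeff, constantCoeff_WKInv]
    simp
  · rw [if_neg hn0.ne']
    rcases Nat.lt_or_ge n s with hlt | hge
    · rw [if_neg (Nat.not_dvd_of_pos_of_lt hn0 hlt), if_neg hlt.ne]
      simp
    · have hns : n = s := by omega
      subst hns
      rw [if_pos (dvd_refl n), if_pos rfl, Nat.div_self hn0, coeff_one_WKInv]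
      simp

theorem cong_expand_WK :
    PowerSeries.X ^ (p + 1) ∣
      WK.expand p (NeZero.ne p) - (1 + PowerSeries.C (-1 : Kbar) * PowerSeries.X ^ p) := by
  have hp0 : 0 < p := Nat.pos_of_ne_zero (NeZero.ne p)
  rw [PowerSeries.X_pow_dvd_iff]
  intro n hn
  rw [map_sub, map_add, PowerSeries.coeff_one, PowerSeries.coeff_C_mul_X_pow,
    PowerSeries.coeff_expand]
  rcases Nat.eq_zero_or_pos n with rfl | hn0
  · rw [if_pos (dvd_zero p), if_pos rfl, if_neg hp0.ne, Nat.zero_div,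
      PowerSeries.coeff_zero_eq_constantCoeff, constantCoeff_WK]
    simp
  · rw [if_neg hn0.ne']
    rcases Nat.lt_or_ge n p with hlt | hge
    · rw [if_neg (Nat.not_dvd_of_pos_of_lt hn0 hlt), if_neg hlt.ne]
      simp
    · have hns : n = p := by omega
      subst hns
      rw [if_pos (dvd_refl n), if_pos rfl, Nat.div_self hn0, coeff_one_WK]
      simp

/-- In the middle case `a = e` (`p = a^2`): `V ≡ 1 + r (ζ_a^b - 1) q_p^p mod q_p^(p+1)`. -/
theorem cong_VK_middle {a : ℕ} (ha : 0 < a) (hp : a * a = p) (b : ℤ) (r : ℕ) :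
    PowerSeries.X ^ (p + 1) ∣ VK p a a b r -
      (1 + PowerSeries.C ((r : Kbar) * (zetaE p a ^ b - 1)) * PowerSeries.X ^ p) := by
  have hp0 : 0 < p := Nat.pos_of_ne_zero (NeZero.ne p)
  have hs : a * (p / a) = p := by
    rw [← hp, Nat.mul_div_cancel _ ha]
  rw [VK, hs]
  have h1 := cong_pow hp0 (cong_affQ_WKInv hp0 b (zetaE p a)) r
  have h2 := cong_pow hp0 (cong_expand_WK p) r
  have h3 := cong_mul hp0 h1 h2
  have h : (r : Kbar) * zetaE p a ^ b + (r : Kbar) * (-1) = (r : Kbar) * (zetaE p a ^ b - 1) := by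
    ring
  rwa [h] at h3

theorem coeff_VK_middle {a : ℕ} (ha : 0 < a) (hp : a * a = p) (b : ℤ) (r : ℕ) :
    PowerSeries.coeff p (VK p a a b r) = (r : Kbar) * (zetaE p a ^ b - 1) := by
  have hp0 : 0 < p := Nat.pos_of_ne_zero (NeZero.ne p)
  rw [coeff_of_cong (cong_VK_middle p ha hp b r) le_rfl, map_add, PowerSeries.coeff_one,
    PowerSeries.coeff_C_mul_X_pow, if_neg hp0.ne', if_pos rfl, zero_add]

theorem coeff_VK_middle_of_lt {a : ℕ} (ha : 0 < a) (hp : a * a = p) (b : ℤ) (r : ℕ) {n : ℕ}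
    (hn0 : 0 < n) (hn : n < p) : PowerSeries.coeff n (VK p a a b r) = 0 := by
  rw [coeff_of_cong (cong_VK_middle p ha hp b r) hn.le, map_add, PowerSeries.coeff_one,
    PowerSeries.coeff_C_mul_X_pow, if_neg hn0.ne', if_neg hn.ne, zero_add]

end Formal

/-! ### Arithmetic of the constants -/

section Constants

variable (p : ℕ) [NeZero p]

/-- `ζ_a^b ≠ 1` when `a ∤ b`. -/
theorem zetaE_zpow_ne_one {a : ℕ} (ha : 0 < a) (hap : a ∣ p) {b : ℤ} (hb : ¬ (a : ℤ) ∣ b) :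
    zetaE p a ^ b ≠ 1 := by
  intro h
  have h1 := congrArg iotaK h
  rw [map_zpow₀, iotaK_zetaE p ha hap, map_one] at h1
  have hprim : IsPrimitiveRoot (zetaC a) a := by
    have := Complex.isPrimitiveRoot_exp a ha.ne'
    rwa [show zetaC a = Complex.exp (2 * Real.pi * Complex.I / a) from rfl]
  exact hb ((hprim.zpow_eq_one_iff_dvd b).mp h1)

/-- In the middle case the primitivity of the Hermite data gives `ζ_a^b ≠ 1`. -/
theorem zetaE_zpow_ne_one_of_prim {a : ℕ} (ha : 1 < a) (hap : a ∣ p) {b : ℤ}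
    (hprim : ∀ g : ℕ, g ∣ a → (g : ℤ) ∣ b → g ∣ a → g = 1) : zetaE p a ^ b ≠ 1 := by
  refine zetaE_zpow_ne_one p (by omega) hap fun hdvd => ?_
  have := hprim a dvd_rfl hdvd dvd_rfl
  omega

theorem isIntegral_zetaE_zpow {e : ℕ} (he : 0 < e) (hep : e ∣ p) (b : ℤ) :
    IsIntegral ℤ (zetaE p e ^ b) := by
  refine IsIntegral.of_pow he ?_
  rw [← zpow_natCast, ← zpow_mul, mul_comm, zpow_mul, zpow_natCast, zetaE_pow p hep, one_zpow]
  exact isIntegral_one

/-- The constant `c₀` is an algebraic integer. -/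
theorem isIntegral_const {e : ℕ} (he : 0 < e) (hep : e ∣ p) {b : ℤ} {k : ℕ} (hk : 0 < k)
    {c₀ : Kbar} (hc : c₀ ^ k * (((e : Kbar)⁻¹) ^ 12 * zetaE p e ^ b) = 1) : IsIntegral ℤ c₀ := by
  have he0 : (e : Kbar) ≠ 0 := by exact_mod_cast he.ne'
  have hpow : c₀ ^ k = (e : Kbar) ^ 12 * zetaE p e ^ (-b) := by
    have hζ : zetaE p e ^ b * zetaE p e ^ (-b) = 1 := by
      rw [← zpow_add₀, add_neg_cancel, zpow_zero]
      intro h0
      have := zetaE_pow p hep
      rw [h0, zero_pow he.ne'] at this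
      exact zero_ne_one this
    calc c₀ ^ k = c₀ ^ k * (((e : Kbar)⁻¹) ^ 12 * zetaE p e ^ b) *
          ((e : Kbar) ^ 12 * zetaE p e ^ (-b)) := by
          have : ((e : Kbar)⁻¹) ^ 12 * (e : Kbar) ^ 12 = 1 := by
            rw [← mul_pow, inv_mul_cancel₀ he0, one_pow]
          calc c₀ ^ k = c₀ ^ k * ((((e : Kbar)⁻¹) ^ 12 * (e : Kbar) ^ 12) *
                (zetaE p e ^ b * zetaE p e ^ (-b))) := by rw [this, hζ, mul_one, mul_one]
            _ = _ := by ring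
      _ = _ := by rw [hc, one_mul]
  refine IsIntegral.of_pow hk ?_
  rw [hpow]
  exact (IsIntegral.pow (isIntegral_algebraMap (R := ℤ) (A := Kbar) (x := (e : ℤ)) |> fun h => by
    simpa using h) 12).mul (isIntegral_zetaE_zpow p he hep (-b))

/-- `e^12 / c₀` is an algebraic integer: `c₀` is a unit outside `e`. -/
theorem isIntegral_const_inv {e : ℕ} (he : 0 < e) (hep : e ∣ p) {b : ℤ} {k : ℕ} (hk : 0 < k)
    {c₀ : Kbar} (hc : c₀ ^ k * (((e : Kbar)⁻¹) ^ 12 * zetaE p e ^ b) = 1) :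
    IsIntegral ℤ ((e : Kbar) ^ 12 * c₀⁻¹) := by
  have he0 : (e : Kbar) ≠ 0 := by exact_mod_cast he.ne'
  have hc0 : c₀ ≠ 0 := by
    rintro rfl
    rw [zero_pow hk.ne', zero_mul] at hc
    exact zero_ne_one hc
  have h : (e : Kbar) ^ 12 * c₀⁻¹ = c₀ ^ (k - 1) * zetaE p e ^ b := by
    have h1 : c₀ ^ k = c₀ ^ (k - 1) * c₀ := by
      rw [← pow_succ, Nat.sub_add_cancel hk]
    rw [h1] at hc
    have : ((e : Kbar)⁻¹) ^ 12 * (e : Kbar) ^ 12 = 1 := by
      rw [← mul_pow, inv_mul_cancel₀ he0, one_pow]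
    field_simp
    field_simp at hc
    linear_combination -hc
  rw [h]
  exact ((isIntegral_const p he hep hk hc).pow _).mul (isIntegral_zetaE_zpow p he hep b)

end Constants

/-- The divisibility hypothesis of `cusp_expansion` for `p = 4`, `k = 3`. -/
theorem hdiv_four : ∀ a e : ℕ, a * e = 4 → ((3 : ℕ) : ℤ) ∣ ((4 : ℕ) : ℤ) - ((a * (4 / e) : ℕ) : ℤ) := by
  intro a e hae
  have ha : a ∣ 4 := Dvd.intro _ hae
  have ha4 : a ≤ 4 := Nat.le_of_dvd (by norm_num) ha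
  interval_cases a
  · simp at hae
  · obtain rfl : e = 4 := by omega
    norm_num
  · obtain rfl : e = 2 := by omega
    norm_num
  · omega
  · obtain rfl : e = 1 := by omega
    norm_num

/-- The divisibility hypothesis of `cusp_expansion` for `p = 9`, `k = 8`. -/
theorem hdiv_nine : ∀ a e : ℕ, a * e = 9 → ((8 : ℕ) : ℤ) ∣ ((9 : ℕ) : ℤ) - ((a * (9 / e) : ℕ) : ℤ) := by
  intro a e hae
  have ha : a ∣ 9 := Dvd.intro _ hae
  have ha9 : a ≤ 9 := Nat.le_of_dvd (by norm_num) ha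
  interval_cases a
  · simp at hae
  · obtain rfl : e = 9 := by omega
    norm_num
  · omega
  · obtain rfl : e = 3 := by omega
    norm_num
  · omega
  · omega
  · omega
  · omega
  · omega
  · obtain rfl : e = 1 := by omega
    norm_num

/-! ### Analytic side: the expansions of `Δ(p z)/Δ(z) ∘ γ` at level `M = p c` -/

/-- Passing from level `p` to level `p c`: `q_p = q_{pc}^c`. -/
theorem intgQN_mul_level (p c : ℕ) [NeZero p] [NeZero c] [NeZero (p * c)] {g : ℍ → ℂ}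
    {T : LaurentSeries ℂ} (h : IntgQN p g T) : IntgQN (p * c) g (qExpand ℂ c T) := by
  have h1 := HasQExp.qExpand h c
  have h2 : (fun z => (fun z => g (scaleH p z)) (scaleH c z)) = fun z => g (scaleH (p * c) z) := by
    funext z
    show g (scaleH p (scaleH c z)) = g (scaleH (p * c) z)
    congr 1
    apply UpperHalfPlane.ext
    rw [coe_scaleH, coe_scaleH, coe_scaleH]
    push_cast
    ring
  rw [h2] at h1
  exact h1

/-- The explicit `q_p`-expansion of `compSL (deltaQuot p) γ` for given Hermite data. -/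
theorem intgQN_compSL_of_data (p : ℕ) [NeZero p] (γ : SL(2, ℤ)) {a e : ℕ} {b : ℤ} (ha : 0 < a)
    (he : 0 < e) (hae : a * e = p)
    (hfun : compSL (deltaQuot p) γ = fun z => ((e : ℂ)⁻¹) ^ 12 * deltaAff a e b ha he z) :
    IntgQN p (compSL (deltaQuot p) γ)
      (toC (HahnSeries.C (((e : Kbar)⁻¹) ^ 12) * TK p a e b)) := by
  have hep : e ∣ p := ⟨a, by rw [← hae, mul_comm]⟩
  have h1 : IntgQN p (deltaAff a e b ha he) (toC (TK p a e b)) := intgQN_quot p a e b ha he hep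
  rw [hfun, map_mul, toC_C, map_pow, map_inv₀, map_natCast]
  exact intg_qn_mul p (intg_qn_const p _) h1

/-! ### The main theorem (B5) -/

/-- **(B5)** Let `M = p c`, `r k = 24`, and let `t, u` be elements of the function field of level
`M` with `t^k u = 1`, where the cusp expansions of `u` are the `q_M`-expansions of
`Δ(p z)/Δ(z) ∘ γ`. If `k ∣ p - a (p/e)` for every factorisation `a e = p`, then for every
`γ ∈ SL(2, ℤ)` the cusp expansion of `t` is
`qExpand c (c₀ q_p^o V)`, with primitive Hermite data `(a, e, b)` of `γ`,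
`c₀^k = e^12 ζ_e^(-b)`, `k o + a (p/e) = p`, `V = VK p a e b r`. -/
theorem cusp_expansion (p c M : ℕ) [NeZero p] [NeZero c] [NeZero M] (hM : p * c = M) {k r : ℕ}
    (hk : 0 < k) (hkr : r * k = 24)
    (hdiv : ∀ a e : ℕ, a * e = p → (k : ℤ) ∣ (p : ℤ) - ((a * (p / e) : ℕ) : ℤ))
    (t u : FF M) (htu : t ^ k * u = 1)
    (hT : ∀ (γ : SL(2, ℤ)) (T : LaurentSeries Kbar),
      IntgQN M (compSL (deltaQuot p) γ) (toC T) → (cuspData M).T γ u = T)
    (γ : SL(2, ℤ)) :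
    ∃ (a e : ℕ) (b : ℤ) (c₀ : Kbar) (o : ℤ), 0 < a ∧ 0 < e ∧ a * e = p ∧ 0 ≤ b ∧ b < e ∧
      (∀ g : ℕ, g ∣ a → (g : ℤ) ∣ b → g ∣ e → g = 1) ∧ HermiteRel p γ a e b ∧
      c₀ ^ k * (((e : Kbar)⁻¹) ^ 12 * zetaE p e ^ b) = 1 ∧
      (k : ℤ) * o + ((a * (p / e) : ℕ) : ℤ) = (p : ℤ) ∧
      (cuspData M).T γ t = qExpand Kbar c (EK c₀ o (VK p a e b r)) := by
  subst hM
  obtain ⟨a, e, b, ha, he, hae, hb0, hbe, hprim, hrel, hfun⟩ := compSL_deltaQuot_prim p γ
  have hep : e ∣ p := ⟨a, by rw [← hae, mul_comm]⟩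
  have hp0 : 0 < p := Nat.pos_of_ne_zero (NeZero.ne p)
  have hs : a * (p / e) ≠ 0 :=
    Nat.mul_ne_zero ha.ne' (Nat.div_pos (Nat.le_of_dvd hp0 hep) he).ne'
  obtain ⟨o, ho⟩ := hdiv a e hae
  -- the expansion of `u`
  set T0 : LaurentSeries Kbar := HahnSeries.C (((e : Kbar)⁻¹) ^ 12) * TK p a e b with hT0
  have h1 : IntgQN p (compSL (deltaQuot p) γ) (toC T0) :=
    intgQN_compSL_of_data p γ ha he hae hfun
  have h2 : IntgQN (p * c) (compSL (deltaQuot p) γ) (toC (qExpand Kbar c T0)) := by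
    have := intgQN_mul_level p c h1
    rwa [toC, ← ModularCurve.coeffMap_qExpand] at this
  have hu : (cuspData (p * c)).T γ u = qExpand Kbar c T0 := hT γ _ h2
  -- the `k`-th power of the expansion of `t`
  have hE : ((cuspData (p * c)).T γ t) ^ k * qExpand Kbar c T0 = 1 := by
    rw [← hu, ← map_pow, ← map_mul, htu, map_one]
  -- the constant
  have he0 : (e : Kbar) ≠ 0 := by exact_mod_cast he.ne'
  have hζ0 : zetaE p e ^ b ≠ 0 := by
    apply zpow_ne_zero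
    intro h0
    have := zetaE_pow p hep
    rw [h0, zero_pow he.ne'] at this
    exact zero_ne_one this
  obtain ⟨c₀, hc₀⟩ := IsAlgClosed.exists_pow_nat_eq ((((e : Kbar)⁻¹) ^ 12 * zetaE p e ^ b)⁻¹) hk
  have hc₀' : c₀ ^ k * (((e : Kbar)⁻¹) ^ 12 * zetaE p e ^ b) = 1 := by
    rw [hc₀]
    exact inv_mul_cancel₀ (mul_ne_zero (pow_ne_zero _ (inv_ne_zero he0)) hζ0)
  have ho' : (k : ℤ) * o + ((a * (p / e) : ℕ) : ℤ) = (p : ℤ) := by rw [← ho]; ring
  have hY : (qExpand Kbar c (EK c₀ o (VK p a e b r))) ^ k * qExpand Kbar c T0 = 1 := by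
    rw [← map_pow, ← map_mul, hT0, EK_pow_mul_TK p b hs hkr hc₀' ho', map_one]
  have hYne : qExpand Kbar c (EK c₀ o (VK p a e b r)) ≠ 0 := by
    intro h0
    rw [h0, zero_pow hk.ne', zero_mul] at hY
    exact zero_ne_one hY
  have hT0ne : qExpand Kbar c T0 ≠ 0 := by
    intro h0
    rw [h0, mul_zero] at hY
    exact zero_ne_one hY
  have hpow : ((cuspData (p * c)).T γ t) ^ k =
      (qExpand Kbar c (EK c₀ o (VK p a e b r))) ^ k :=
    mul_right_cancel₀ hT0ne (hE.trans hY.symm)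
  obtain ⟨ξ, hξ, hEξ⟩ := exists_root_of_unity_of_pow_eq hk hYne hpow
  refine ⟨a, e, b, ξ * c₀, o, ha, he, hae, hb0, hbe, hprim, hrel, ?_, ho', ?_⟩
  · rw [mul_pow, hξ, one_mul, hc₀']
  · have h3 : EK (ξ * c₀) o (VK p a e b r) = HahnSeries.C ξ * EK c₀ o (VK p a e b r) := by
      rw [EK, EK, map_mul]
      ring
    rw [hEξ, h3, map_mul, qExpand_C]

end Fermat.Agent.RED.BASE.CuspExpT11

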