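/-
Program H (S18), chapter RED/BASE, helper11: leaf (B5) + (B4), part 2.

The literal interface statements `CuspExp n e M cv ∧ CuspSeparated n cv` of `Interface12` for
`(n, e) = (4, 8)` and `(9, 3)`, at every level `M` divisible by `n`, from `TMem n e n` alone
(`cuspExp_four`, `cuspExp_nine`), with the canonical cusp value function `cvT n e M`.

* `inclFF`, `T_mul_left_of_dvd` : the cusp expansions at level `M` of the elements of `FF n`
  (`n ∣ M`) are invariant under left multiplication by `Γ₀(n)`;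
* `isUnitAway_of_mul_eq`, `IsUnitAway.mul/neg/inv`, `isUnitAway_of_mul` : units away from `m`;
* `cvE` : the value of a Laurent series (`none` if it is not a power series);
* `shape_pole`, `shape_zero`, `shape_middle` : the three cusp shapes;
* `cusp_classify`, `cusp_separated`, `cuspExp_general` : the general statements for `n = s²`.
-/
import Mathlib
import Fermat.Agent.RED.BASE.CuspExpT11
import Fermat.Agent.RED.BASE.Interface12
import Fermat.Agent.RED.BASE.DeltaMem19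
import Fermat.Agent.X0.CuspEquiv

set_option autoImplicit false

noncomputable section

namespace Fermat.Agent.RED.BASE.CuspExpMain11

open Fermat.Agent.X0 Fermat.Agent.X0.Analytic Fermat.Agent.X0.Hermite
open Fermat.Agent.X0.QExpAffine
open UpperHalfPlane ModularCurve
open scoped MatrixGroups
open Fermat.Agent.IG.PR.Interface20 Fermat.Agent.IG.AN.DeltaAffine11
open Fermat.Agent.IG.AN.DeltaQuot19 Fermat.Agent.IG.AN.DeltaAffineBridge11
open Fermat.Agent.RED.BASE.Interface12 Fermat.Agent.RED.BASE.EtaQuot12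
open Fermat.Agent.RED.BASE.CuspExpT11 Fermat.Agent.RED.BASE.QExpMem19
open Fermat.Agent.RED.BASE.DeltaMem19

/-! ### (A2) Two-level invariance: `Γ₀(n)` acts trivially on the expansions of `FF n ⊆ FF M` -/

section TwoLevel

variable {n M : ℕ} [NeZero n] [NeZero M]

/-- The inclusion `FF n → FF M` for `n ∣ M`. -/
def inclFF (hnM : n ∣ M) : FF n →+* FF M where
  toFun x := ⟨x.1, fbar_mono hnM x.2⟩
  map_one' := rfl
  map_mul' _ _ := rfl
  map_zero' := rfl
  map_add' _ _ := rfl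

theorem inclFF_jdF (hnM : n ∣ M) (d : ℕ) [NeZero d] (hd : d ∣ n) :
    inclFF hnM (jdF n d hd) = jdF M d (hd.trans hnM) := rfl

theorem inclFF_algebraMap (hnM : n ∣ M) (c : Kbar) :
    inclFF hnM (algebraMap Kbar (FF n) c) = algebraMap Kbar (FF M) c := rfl

/-- For `x ∈ FF n ⊆ FF M` and `δ ∈ Γ₀(n)`: the expansions at `δ γ` and at `γ` agree. -/
theorem T_mul_left_of_dvd (hnM : n ∣ M) (δ γ : SL(2, ℤ))
    (hδ : δ ∈ CongruenceSubgroup.Gamma0 n) (x : FF n) :
    (cuspData M).T (δ * γ) (inclFF hnM x) = (cuspData M).T γ (inclFF hnM x) := by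
  have key : ((cuspData M).T (δ * γ)).comp (inclFF hnM) = ((cuspData M).T γ).comp (inclFF hnM) := by
    apply CuspEquiv.ringHom_ext_Rsub
    intro u
    induction u using FracR.Rsub_induction with
    | hgen d hd =>
      rw [RingHom.comp_apply, RingHom.comp_apply, FracR.coe_jdR, inclFF_jdF]
      have hdM : d ∣ M := hd.trans hnM
      rw [← coe_jdR M d hdM]
      obtain ⟨m, P, hP, hT⟩ := (cuspData M).spec γ (jdR M d hdM)
      rw [hT]
      apply CuspEquiv.T_eq_of_isQExp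
      have hfun : compSL ((realizeData M).Θ (jdR M d hdM)) (δ * γ) =
          compSL ((realizeData M).Θ (jdR M d hdM)) γ := by
        rw [(realizeData M).jd_eq d hdM, ← (realizeData n).jd_eq d hd]
        funext z
        simp only [compSL]
        rw [mul_smul]
        exact congrFun ((realizeData n).invariant (jdR n d hd) δ hδ) (γ • z)
      rw [hfun]
      exact hP
    | hconst c =>
      rw [RingHom.comp_apply, RingHom.comp_apply]
      have h1 : inclFF hnM ((algebraMap Kbar (Rsub n) c : Rsub n) : FF n) =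
          ((algebraMap Kbar (Rsub M) c : Rsub M) : FF M) := rfl
      rw [h1]
      obtain ⟨m, P, hP, hT⟩ := (cuspData M).spec γ (algebraMap Kbar (Rsub M) c)
      rw [hT]
      apply CuspEquiv.T_eq_of_isQExp
      have hfun : compSL ((realizeData M).Θ (algebraMap Kbar (Rsub M) c)) (δ * γ) =
          compSL ((realizeData M).Θ (algebraMap Kbar (Rsub M) c)) γ := by
        rw [(realizeData M).algebraMap_eq c]
        rfl
      rw [hfun]
      exact hP
    | hadd u v hu hv =>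
      rw [Subalgebra.coe_add, map_add, map_add, hu, hv]
    | hmul u v hu hv =>
      rw [Subalgebra.coe_mul, map_mul, map_mul, hu, hv]
  exact congrFun (congrArg DFunLike.coe key) x

end TwoLevel


/-! ### Units away from `m` -/

section Units

variable {m : ℕ}

theorem isIntegral_natCast_K (j : ℕ) : IsIntegral ℤ (j : Kbar) := by
  have h := isIntegral_algebraMap (R := ℤ) (A := Kbar) (x := (j : ℤ))
  simpa using h

theorem isIntAway_zero : IsIntAway m 0 := isIntAway_of_isIntegral isIntegral_zero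

theorem isUnitAway_of_mul_eq (hm : m ≠ 0) {x y : Kbar} (hx : IsIntegral ℤ x) (hy : IsIntegral ℤ y)
    {j : ℕ} (hxy : x * y = (m : Kbar) ^ j) : IsUnitAway m x := by
  have hm0 : (m : Kbar) ≠ 0 := Nat.cast_ne_zero.mpr hm
  have hx0 : x ≠ 0 := by
    rintro rfl
    rw [zero_mul] at hxy
    exact pow_ne_zero j hm0 hxy.symm
  refine ⟨hx0, isIntAway_of_isIntegral hx, j, ?_⟩
  have : (m : Kbar) ^ j * x⁻¹ = y := by
    rw [← hxy, mul_comm x y, mul_assoc, mul_inv_cancel₀ hx0, mul_one]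
  rw [this]
  exact hy

theorem IsUnitAway.mul {x y : Kbar} (hx : IsUnitAway m x) (hy : IsUnitAway m y) :
    IsUnitAway m (x * y) :=
  ⟨mul_ne_zero hx.1 hy.1, hx.2.1.mul hy.2.1, by rw [mul_inv]; exact hx.2.2.mul hy.2.2⟩

theorem IsUnitAway.neg {x : Kbar} (hx : IsUnitAway m x) : IsUnitAway m (-x) :=
  ⟨neg_ne_zero.mpr hx.1, hx.2.1.neg, by rw [inv_neg]; exact hx.2.2.neg⟩

theorem IsUnitAway.inv {x : Kbar} (hx : IsUnitAway m x) : IsUnitAway m x⁻¹ :=
  ⟨inv_ne_zero hx.1, hx.2.2, by rw [inv_inv]; exact hx.2.1⟩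

/-- A divisor (with integral cofactor) of a unit away from `m` is a unit away from `m`. -/
theorem isUnitAway_of_mul {x y : Kbar} (hx : IsIntegral ℤ x) (hy : IsIntegral ℤ y)
    (h : IsUnitAway m (y * x)) : IsUnitAway m x := by
  have hx0 : x ≠ 0 := by
    rintro rfl
    exact h.1 (mul_zero y)
  refine ⟨hx0, isIntAway_of_isIntegral hx, ?_⟩
  have : x⁻¹ = y * (y * x)⁻¹ := by
    have hy0 : y ≠ 0 := by
      rintro rfl
      exact h.1 (zero_mul x)
    rw [mul_inv, ← mul_assoc, mul_inv_cancel₀ hy0, one_mul]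
  rw [this]
  exact (isIntAway_of_isIntegral hy).mul h.2.2

end Units

/-! ### Integrality of the elements of `ℤ[ζ_p]` -/

theorem isIntegral_of_mem_closure_zetaK (p : ℕ) [NeZero p] {x : Kbar}
    (hx : x ∈ Subring.closure {zetaK p}) : IsIntegral ℤ x := by
  have hle : Subring.closure {zetaK p} ≤ (integralClosure ℤ Kbar).toSubring := by
    rw [Subring.closure_le]
    intro y hy
    rw [Set.mem_singleton_iff] at hy
    subst hy
    show IsIntegral ℤ (zetaK p)
    refine IsIntegral.of_pow (Nat.pos_of_ne_zero (NeZero.ne p)) ?_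
    rw [zetaK_pow_self]
    exact isIntegral_one
  exact hle hx

/-! ### `qExpand` of the explicit expansions -/

section QExpandEK

theorem qExpand_ofPS {R : Type*} [CommRing R] (k : ℕ) [hk : NeZero k] (P : PowerSeries R) :
    qExpand R k (HahnSeries.ofPowerSeries ℤ R P) =
      HahnSeries.ofPowerSeries ℤ R (P.expand k hk.ne) := by
  have h := qExpand_laurentOf k 0 P
  simpa [laurentOf] using h

theorem qExpand_EK (c : ℕ) [hc : NeZero c] (c₀ : Kbar) (o : ℤ) (V : PowerSeries Kbar) :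
    qExpand Kbar c (EK c₀ o V) =
      HahnSeries.C c₀ * HahnSeries.single ((c : ℤ) * o) 1 *
        HahnSeries.ofPowerSeries ℤ Kbar (V.expand c hc.ne) := by
  rw [EK, map_mul, map_mul, qExpand_C, qExpand_single, qExpand_ofPS]

theorem isIntAway_coeff_expand {m : ℕ} (c : ℕ) (hc : c ≠ 0) {V : PowerSeries Kbar}
    (hV : ∀ i, IsIntAway m (PowerSeries.coeff i V)) (i : ℕ) :
    IsIntAway m (PowerSeries.coeff i (V.expand c hc)) := by
  rw [PowerSeries.coeff_expand]
  split_ifs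
  · exact hV _
  · exact isIntAway_zero

end QExpandEK

/-! ### The cusp value of a Laurent series -/

open Classical in
/-- The cusp value of a Laurent series: `some (constant coefficient)` if it is a power series,
`none` otherwise. -/
def cvE (E : LaurentSeries Kbar) : Option Kbar :=
  if h : ∃ P : PowerSeries Kbar, HahnSeries.ofPowerSeries ℤ Kbar P = E then
    some (PowerSeries.constantCoeff h.choose) else none

theorem cvE_ofPS (P : PowerSeries Kbar) :
    cvE (HahnSeries.ofPowerSeries ℤ Kbar P) = some (PowerSeries.constantCoeff P) := by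
  have h : ∃ Q : PowerSeries Kbar,
      HahnSeries.ofPowerSeries ℤ Kbar Q = HahnSeries.ofPowerSeries ℤ Kbar P := ⟨P, rfl⟩
  rw [cvE, dif_pos h]
  have := HahnSeries.ofPowerSeries_injective h.choose_spec
  rw [this]

theorem cvE_eq_none {E : LaurentSeries Kbar} {Q : PowerSeries Kbar}
    (h : E * HahnSeries.ofPowerSeries ℤ Kbar Q = 1) (hQ : PowerSeries.constantCoeff Q = 0) :
    cvE E = none := by
  rw [cvE, dif_neg]
  rintro ⟨P, rfl⟩
  rw [← map_mul] at h
  have h1 : P * Q = 1 := by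
    apply HahnSeries.ofPowerSeries_injective (Γ := ℤ)
    rw [h, map_one]
  have h2 := congrArg PowerSeries.constantCoeff h1
  rw [map_mul, hQ, mul_zero, map_one] at h2
  exact zero_ne_one h2


/-! ### The inverse of the unit part -/

section VKi

variable (p : ℕ) [NeZero p]

/-- The inverse of `VK`. -/
def VKi (a e : ℕ) (b : ℤ) (r : ℕ) : PowerSeries Kbar :=
  affQ WK 0 (a * (p / e)) b (zetaE p e) ^ r * (WKInv.expand p (NeZero.ne p)) ^ r

theorem VK_mul_VKi {a e : ℕ} (b : ℤ) (hs : a * (p / e) ≠ 0) (r : ℕ) :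
    VK p a e b r * VKi p a e b r = 1 := by
  rw [VK, VKi, mul_mul_mul_comm, ← mul_pow, ← mul_pow, ← affQ_mul _ _ _ hs, mul_comm WKInv WK,
    WK_mul_WKInv, affQ_one _ hs, one_pow, one_mul, ← map_mul, WK_mul_WKInv, map_one, one_pow]

theorem constantCoeff_VKi {a e : ℕ} (b : ℤ) (hs : a * (p / e) ≠ 0) (r : ℕ) :
    PowerSeries.constantCoeff (VKi p a e b r) = 1 := by
  have h := congrArg PowerSeries.constantCoeff (VK_mul_VKi p b hs r)
  rw [map_mul, constantCoeff_VK, one_mul, map_one] at h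
  exact h

theorem coeff_VKi_mem (a : ℕ) {e : ℕ} (b : ℤ) (he : 0 < e) (hep : e ∣ p) (r n : ℕ) :
    PowerSeries.coeff n (VKi p a e b r) ∈ Subring.closure {zetaK p} := by
  rw [VKi]
  refine coeff_mul_mem _ (coeff_pow_mem _ (fun n => ?_) r) (coeff_pow_mem _ (fun n => ?_) r) n
  · rw [coeff_affQ]
    split_ifs
    · exact Subring.mul_mem _ (coeff_WK_mem _ _)
        (zpow_mem_of_pow_eq_one _ (zetaE_mem p e) he (zetaE_pow p hep) _)
    · exact Subring.zero_mem _
  · rw [PowerSeries.coeff_expand]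
    split_ifs
    · exact coeff_WKInv_mem _ _
    · exact Subring.zero_mem _

end VKi


/-! ### The three shapes -/

section Shapes

variable {m : ℕ}

theorem ofPS_C_mul_X_pow_mul (lam : Kbar) (A : ℕ) (V : PowerSeries Kbar) :
    HahnSeries.ofPowerSeries ℤ Kbar (PowerSeries.C lam * PowerSeries.X ^ A * V) =
      HahnSeries.C lam * HahnSeries.single (A : ℤ) 1 * HahnSeries.ofPowerSeries ℤ Kbar V := by
  rw [map_mul, map_mul, HahnSeries.ofPowerSeries_C, HahnSeries.ofPowerSeries_X_pow]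

/-- Pole: negative order. -/
theorem shape_pole (c : ℕ) [hc : NeZero c] {c₀ : Kbar} {o : ℤ} {V Vi : PowerSeries Kbar}
    (ho : o < 0) (hc₀ : IsUnitAway m c₀) (hVVi : V * Vi = 1)
    (hVi1 : PowerSeries.constantCoeff Vi = 1) (hVi : ∀ i, IsIntAway m (PowerSeries.coeff i Vi)) :
    cvE (qExpand Kbar c (EK c₀ o V)) = none ∧ CuspShape m (qExpand Kbar c (EK c₀ o V)) none := by
  have hc0 : (0 : ℤ) < c := by exact_mod_cast Nat.pos_of_ne_zero hc.ne
  have hneg : (c : ℤ) * o < 0 := mul_neg_of_pos_of_neg hc0 ho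
  obtain ⟨A, hA⟩ : ∃ A : ℕ, (A : ℤ) = -((c : ℤ) * o) := ⟨(-((c : ℤ) * o)).toNat, by omega⟩
  have hA0 : 0 < A := by omega
  set Q : PowerSeries Kbar := PowerSeries.C c₀⁻¹ * PowerSeries.X ^ A * Vi.expand c hc.ne with hQ
  have hEQ : qExpand Kbar c (EK c₀ o V) * HahnSeries.ofPowerSeries ℤ Kbar Q = 1 := by
    rw [hQ, ofPS_C_mul_X_pow_mul, qExpand_EK]
    have h1 : (HahnSeries.C c₀ : LaurentSeries Kbar) * HahnSeries.C c₀⁻¹ = 1 := by
      rw [← map_mul, mul_inv_cancel₀ hc₀.1, map_one]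
    have h2 : (HahnSeries.single ((c : ℤ) * o) (1 : Kbar) : LaurentSeries Kbar) *
        HahnSeries.single (A : ℤ) 1 = 1 := by
      rw [HahnSeries.single_mul_single, hA, add_neg_cancel, mul_one]
      rfl
    have h3 : HahnSeries.ofPowerSeries ℤ Kbar (V.expand c hc.ne) *
        HahnSeries.ofPowerSeries ℤ Kbar (Vi.expand c hc.ne) = 1 := by
      rw [← map_mul, ← map_mul, hVVi, map_one, map_one]
    calc _ = ((HahnSeries.C c₀ : LaurentSeries Kbar) * HahnSeries.C c₀⁻¹) *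
          ((HahnSeries.single ((c : ℤ) * o) (1 : Kbar) : LaurentSeries Kbar) *
            HahnSeries.single (A : ℤ) 1) *
          (HahnSeries.ofPowerSeries ℤ Kbar (V.expand c hc.ne) *
            HahnSeries.ofPowerSeries ℤ Kbar (Vi.expand c hc.ne)) := by ring
      _ = 1 := by rw [h1, h2, h3, one_mul, one_mul]
  refine ⟨cvE_eq_none hEQ ?_, ?_⟩
  · rw [hQ, map_mul, map_mul, map_pow, PowerSeries.constantCoeff_X, zero_pow hA0.ne', mul_zero,
      zero_mul]
  · refine ⟨A, c₀⁻¹, Vi.expand c hc.ne, hA0, IsUnitAway.inv hc₀, ?_, isIntAway_coeff_expand c hc.ne hVi, ?_⟩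
    · rw [PowerSeries.constantCoeff_expand, hVi1]
    · show (qExpand Kbar c (EK c₀ o V))⁻¹ = _
      rw [← ofPS_C_mul_X_pow_mul]
      exact inv_eq_of_mul_eq_one_right hEQ

/-- Zero: positive order. -/
theorem shape_zero (c : ℕ) [hc : NeZero c] {c₀ : Kbar} {o : ℤ} {V : PowerSeries Kbar}
    (ho : 0 < o) (hc₀ : IsUnitAway m c₀)
    (hV1 : PowerSeries.constantCoeff V = 1) (hV : ∀ i, IsIntAway m (PowerSeries.coeff i V)) :
    cvE (qExpand Kbar c (EK c₀ o V)) = some 0 ∧
      CuspShape m (qExpand Kbar c (EK c₀ o V)) (some 0) := by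
  have hc0 : (0 : ℤ) < c := by exact_mod_cast Nat.pos_of_ne_zero hc.ne
  have hpos : 0 < (c : ℤ) * o := mul_pos hc0 ho
  obtain ⟨A, hA⟩ : ∃ A : ℕ, (A : ℤ) = (c : ℤ) * o := ⟨((c : ℤ) * o).toNat, by omega⟩
  have hA0 : 0 < A := by omega
  have hE : qExpand Kbar c (EK c₀ o V) = HahnSeries.ofPowerSeries ℤ Kbar
      (PowerSeries.C c₀ * PowerSeries.X ^ A * V.expand c hc.ne) := by
    rw [ofPS_C_mul_X_pow_mul, qExpand_EK, hA]
  refine ⟨?_, ?_⟩
  · rw [hE, cvE_ofPS, map_mul, map_mul, map_pow, PowerSeries.constantCoeff_X, zero_pow hA0.ne',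
      mul_zero, zero_mul]
  · refine ⟨A, c₀, V.expand c hc.ne, hA0, hc₀, ?_, isIntAway_coeff_expand c hc.ne hV, ?_⟩
    · rw [PowerSeries.constantCoeff_expand, hV1]
    · show IsIntAway m 0 ∧ qExpand Kbar c (EK c₀ o V) = _
      refine ⟨isIntAway_zero, ?_⟩
      rw [map_zero, zero_add, qExpand_EK, hA]

/-- A power series `1 + μ X^p + ...` is `1 + μ X^p W` with `W(0) = 1`. -/
theorem eq_one_add_mul {p : ℕ} (hp : 0 < p) {V : PowerSeries Kbar} {μ : Kbar} (hμ : μ ≠ 0)
    (hV0 : PowerSeries.constantCoeff V = 1)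
    (hVlt : ∀ i, 0 < i → i < p → PowerSeries.coeff i V = 0) :
    V = 1 + PowerSeries.C μ * PowerSeries.X ^ p *
      PowerSeries.mk (fun i => μ⁻¹ * PowerSeries.coeff (i + p) V) := by
  ext i
  rw [map_add, mul_assoc, PowerSeries.coeff_C_mul, PowerSeries.coeff_X_pow_mul',
    PowerSeries.coeff_one]
  by_cases hi0 : i = 0
  · subst hi0
    rw [if_pos rfl, if_neg (by omega), mul_zero, add_zero,
      PowerSeries.coeff_zero_eq_constantCoeff, hV0]
  · rw [if_neg hi0, zero_add]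
    by_cases hip : p ≤ i
    · rw [if_pos hip, PowerSeries.coeff_mk, Nat.sub_add_cancel hip, ← mul_assoc,
        mul_inv_cancel₀ hμ, one_mul]
    · rw [if_neg hip, mul_zero]
      exact hVlt i (Nat.pos_of_ne_zero hi0) (by omega)

/-- Middle: order zero, with the first non-constant term at `X^p`. -/
theorem shape_middle (c : ℕ) [hc : NeZero c] {p : ℕ} (hp : 0 < p) {c₀ μ : Kbar}
    {V : PowerSeries Kbar} (hc₀ : IsUnitAway m c₀) (hμ : IsUnitAway m μ)
    (hV0 : PowerSeries.constantCoeff V = 1)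
    (hVlt : ∀ i, 0 < i → i < p → PowerSeries.coeff i V = 0) (hVp : PowerSeries.coeff p V = μ)
    (hV : ∀ i, IsIntAway m (PowerSeries.coeff i V)) :
    cvE (qExpand Kbar c (EK c₀ 0 V)) = some c₀ ∧
      CuspShape m (qExpand Kbar c (EK c₀ 0 V)) (some c₀) := by
  set W : PowerSeries Kbar := PowerSeries.mk (fun i => μ⁻¹ * PowerSeries.coeff (i + p) V) with hW
  have hVW : V = 1 + PowerSeries.C μ * PowerSeries.X ^ p * W :=
    eq_one_add_mul hp hμ.1 hV0 hVlt
  have hW0 : PowerSeries.constantCoeff W = 1 := by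
    rw [hW, ← PowerSeries.coeff_zero_eq_constantCoeff, PowerSeries.coeff_mk, zero_add, hVp,
      inv_mul_cancel₀ hμ.1]
  have hWint : ∀ i, IsIntAway m (PowerSeries.coeff i W) := by
    intro i
    rw [hW, PowerSeries.coeff_mk]
    exact hμ.2.2.mul (hV _)
  have hE : qExpand Kbar c (EK c₀ 0 V) = HahnSeries.ofPowerSeries ℤ Kbar
      (PowerSeries.C c₀ * V.expand c hc.ne) := by
    rw [qExpand_EK, map_mul, HahnSeries.ofPowerSeries_C, mul_zero]
    have : (HahnSeries.single (0 : ℤ) (1 : Kbar) : LaurentSeries Kbar) = 1 := rfl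
    rw [this, mul_one]
  have hexp : V.expand c hc.ne = 1 + PowerSeries.C μ * PowerSeries.X ^ (p * c) *
      W.expand c hc.ne := by
    conv_lhs => rw [hVW]
    rw [map_add, map_one, map_mul, map_mul, PowerSeries.expand_C, map_pow, PowerSeries.expand_X,
      ← pow_mul, mul_comm c p]
  refine ⟨?_, ?_⟩
  · rw [hE, cvE_ofPS, map_mul, PowerSeries.constantCoeff_C, PowerSeries.constantCoeff_expand, hV0,
      mul_one]
  · refine ⟨p * c, c₀ * μ, W.expand c hc.ne, Nat.mul_pos hp (Nat.pos_of_ne_zero hc.ne),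
      IsUnitAway.mul hc₀ hμ, ?_, isIntAway_coeff_expand c hc.ne hWint, ?_⟩
    · rw [PowerSeries.constantCoeff_expand, hW0]
    · show IsIntAway m c₀ ∧ qExpand Kbar c (EK c₀ 0 V) = _
      refine ⟨hc₀.2.1, ?_⟩
      rw [hE, hexp, ← ofPS_C_mul_X_pow_mul, ← HahnSeries.ofPowerSeries_C, ← map_add]
      congr 1
      rw [map_mul]
      ring

end Shapes


/-! ### The general classification -/

section General

variable (p : ℕ) [NeZero p]

/-- The leading constant is a unit away from `p`. -/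
theorem isUnitAway_const {e : ℕ} (he : 0 < e) (hep : e ∣ p) {b : ℤ} {k : ℕ} (hk : 0 < k)
    {c₀ : Kbar} (hc : c₀ ^ k * (((e : Kbar)⁻¹) ^ 12 * zetaE p e ^ b) = 1) : IsUnitAway p c₀ := by
  obtain ⟨f, hf⟩ := hep
  have h1 := isIntegral_const p he ⟨f, hf⟩ hk hc
  have h2 := isIntegral_const_inv p he ⟨f, hf⟩ hk hc
  refine isUnitAway_of_mul_eq (NeZero.ne p) h1 ((isIntegral_natCast_K (f ^ 12)).mul h2) (j := 12) ?_
  have hc0 : c₀ ≠ 0 := by
    rintro rfl
    rw [zero_pow hk.ne', zero_mul] at hc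
    exact zero_ne_one hc
  rw [hf]
  push_cast
  field_simp

variable (s k r c M : ℕ) [NeZero c] [NeZero M]

theorem cusp_classify (hM : p * c = M) (hs : s * s = p) (hs1 : 1 < s) (hk : 0 < k)
    (hkr : r * k = 24)
    (hdiv : ∀ a e : ℕ, a * e = p → (k : ℤ) ∣ (p : ℤ) - ((a * (p / e) : ℕ) : ℤ))
    (hcases : ∀ a e : ℕ, a * e = p → (a = p ∧ e = 1) ∨ (a = 1 ∧ e = p) ∨ (a = s ∧ e = s))
    (hr : IsUnitAway p (r : Kbar))
    (hζ : ∀ j : ℤ, ¬ (s : ℤ) ∣ j → IsUnitAway p (zetaE p s ^ j - 1))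
    (t u : FF M) (htu : t ^ k * u = 1)
    (hT : ∀ (γ : SL(2, ℤ)) (T : LaurentSeries Kbar),
      IntgQN M (compSL (deltaQuot p) γ) (toC T) → (cuspData M).T γ u = T)
    (γ : SL(2, ℤ)) :
    CuspShape p ((cuspData M).T γ t) (cvE ((cuspData M).T γ t)) ∧
    (cvE ((cuspData M).T γ t) = none ∨ cvE ((cuspData M).T γ t) = some 0 ∨
      ∃ (b : ℤ) (c₀ : Kbar), cvE ((cuspData M).T γ t) = some c₀ ∧ HermiteRel p γ s s b ∧
        0 ≤ b ∧ b < s ∧ ¬ (s : ℤ) ∣ b ∧
        c₀ ^ k * (((s : Kbar)⁻¹) ^ 12 * zetaE p s ^ b) = 1) := by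
  obtain ⟨a, e, b, c₀, o, ha, he, hae, hb0, hbe, hprim, hrel, hc₀, ho, hE⟩ :=
    cusp_expansion p c M hM hk hkr hdiv t u htu hT γ
  have hep : e ∣ p := ⟨a, by rw [← hae, mul_comm]⟩
  have hp0 : 0 < p := Nat.pos_of_ne_zero (NeZero.ne p)
  have hp4 : 4 ≤ p := by nlinarith
  have hsne : a * (p / e) ≠ 0 :=
    Nat.mul_ne_zero ha.ne' (Nat.div_pos (Nat.le_of_dvd hp0 hep) he).ne'
  have hunit : IsUnitAway p c₀ := isUnitAway_const p he hep hk hc₀
  have hVint : ∀ i, IsIntAway p (PowerSeries.coeff i (VK p a e b r)) := fun i =>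
    isIntAway_of_isIntegral (isIntegral_of_mem_closure_zetaK p (coeff_VK_mem p a b he hep r i))
  have hk0 : (0 : ℤ) < k := by exact_mod_cast hk
  rw [hE]
  rcases hcases a e hae with ⟨h1, h2⟩ | ⟨h1, h2⟩ | ⟨h1, h2⟩
  · -- pole
    have hval : a * (p / e) = p * p := by rw [h1, h2, Nat.div_one]
    rw [hval] at ho
    have ho' : o < 0 := by
      push_cast at ho
      have hpp : (p : ℤ) < p * p := by
        have : (4 : ℤ) ≤ p := by exact_mod_cast hp4
        nlinarith
      by_contra hcon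
      have hcon := not_lt.mp hcon
      have : 0 ≤ (k : ℤ) * o := mul_nonneg hk0.le hcon
      omega
    have hViint : ∀ i, IsIntAway p (PowerSeries.coeff i (VKi p a e b r)) := fun i =>
      isIntAway_of_isIntegral (isIntegral_of_mem_closure_zetaK p (coeff_VKi_mem p a b he hep r i))
    obtain ⟨hcv, hshape⟩ := shape_pole (m := p) c ho' hunit (VK_mul_VKi p b hsne r)
      (constantCoeff_VKi p b hsne r) hViint
    rw [hcv]
    exact ⟨hshape, Or.inl rfl⟩
  · -- zero
    have hval : a * (p / e) = 1 := by rw [h1, h2, Nat.div_self hp0]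
    rw [hval] at ho
    have ho' : 0 < o := by
      push_cast at ho
      have : (4 : ℤ) ≤ p := by exact_mod_cast hp4
      by_contra hcon
      have hcon := not_lt.mp hcon
      have : (k : ℤ) * o ≤ 0 := mul_nonpos_of_nonneg_of_nonpos hk0.le hcon
      omega
    obtain ⟨hcv, hshape⟩ := shape_zero (m := p) c ho' hunit (constantCoeff_VK p a e b r) hVint
    rw [hcv]
    exact ⟨hshape, Or.inr (Or.inl rfl)⟩
  · -- middle
    subst a
    subst e
    have hval : s * (p / s) = p := by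
      rw [← hs, Nat.mul_div_cancel _ ha]
    rw [hval] at ho
    have ho' : o = 0 := by
      have : (k : ℤ) * o = 0 := by linarith
      rcases mul_eq_zero.mp this with h | h
      · omega
      · exact h
    subst ho'
    have hb : ¬ (s : ℤ) ∣ b := by
      intro hdvd
      have := hprim s dvd_rfl hdvd dvd_rfl
      omega
    have hμ : IsUnitAway p ((r : Kbar) * (zetaE p s ^ b - 1)) := IsUnitAway.mul hr (hζ b hb)
    obtain ⟨hcv, hshape⟩ := shape_middle (m := p) c hp0 hunit hμ (constantCoeff_VK p s s b r)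
      (fun i hi0 hip => coeff_VK_middle_of_lt p ha hs b r hi0 hip)
      (coeff_VK_middle p ha hs b r) hVint
    rw [hcv]
    exact ⟨hshape, Or.inr (Or.inr ⟨b, c₀, rfl, hrel, hb0, hbe, hb, hc₀⟩)⟩

end General


section Separated

variable (p : ℕ) [NeZero p]

/-- Two middle constants with different `b` differ by a unit away from `p`. -/
theorem isUnitAway_sub_of_ne {s : ℕ} (hs : s * s = p) (hs1 : 1 < s) {k : ℕ} (hk : 0 < k)
    (hζ : ∀ j : ℤ, ¬ (s : ℤ) ∣ j → IsUnitAway p (zetaE p s ^ j - 1))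
    {b b' : ℤ} (hb0 : 0 ≤ b) (hbs : b < s) (hb0' : 0 ≤ b') (hbs' : b' < s) (hbb : b ≠ b')
    {c₁ c₂ : Kbar} (h1 : c₁ ^ k * (((s : Kbar)⁻¹) ^ 12 * zetaE p s ^ b) = 1)
    (h2 : c₂ ^ k * (((s : Kbar)⁻¹) ^ 12 * zetaE p s ^ b') = 1) : IsUnitAway p (c₁ - c₂) := by
  have hs0 : 0 < s := by omega
  have hsp : s ∣ p := ⟨s, hs.symm⟩
  have hsK : (s : Kbar) ≠ 0 := by exact_mod_cast hs0.ne'
  set z := zetaE p s with hz
  have hz0 : z ≠ 0 := by
    intro h0
    have := zetaE_pow p hsp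
    rw [← hz, h0, zero_pow hs0.ne'] at this
    exact zero_ne_one this
  have hI1 : IsIntegral ℤ c₁ := isIntegral_const p hs0 hsp hk h1
  have hI2 : IsIntegral ℤ c₂ := isIntegral_const p hs0 hsp hk h2
  have hpow1 : c₁ ^ k = (s : Kbar) ^ 12 * z ^ (-b) := by
    have hzb : z ^ b ≠ 0 := zpow_ne_zero _ hz0
    rw [zpow_neg]
    field_simp
    field_simp at h1
    linear_combination h1
  have hpow2 : c₂ ^ k = (s : Kbar) ^ 12 * z ^ (-b') := by
    have hzb : z ^ b' ≠ 0 := zpow_ne_zero _ hz0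
    rw [zpow_neg]
    field_simp
    field_simp at h2
    linear_combination h2
  have hndvd : ¬ (s : ℤ) ∣ (b - b') := by
    intro hdvd
    have habs : |b - b'| < (s : ℤ) := by
      rw [abs_lt]
      constructor <;> omega
    have := Int.eq_zero_of_abs_lt_dvd hdvd habs
    omega
  have hU1 : IsUnitAway p ((s : Kbar) ^ 12) := by
    refine isUnitAway_of_mul_eq (NeZero.ne p) ((isIntegral_natCast_K s).pow 12) isIntegral_one
      (j := 6) ?_
    rw [← hs]
    push_cast
    ring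
  have hU2 : IsUnitAway p (z ^ (-b)) := by
    refine isUnitAway_of_mul_eq (NeZero.ne p) (isIntegral_zetaE_zpow p hs0 hsp (-b))
      (isIntegral_zetaE_zpow p hs0 hsp b) (j := 0) ?_
    rw [pow_zero, ← zpow_add₀ hz0, neg_add_cancel, zpow_zero]
  have hU3 : IsUnitAway p (z ^ (b - b') - 1) := hζ _ hndvd
  have hdiff : c₁ ^ k - c₂ ^ k = -((s : Kbar) ^ 12 * z ^ (-b) * (z ^ (b - b') - 1)) := by
    rw [hpow1, hpow2]
    have : z ^ (-b') = z ^ (-b) * z ^ (b - b') := by
      rw [← zpow_add₀ hz0]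
      congr 1
      ring
    rw [this]
    ring
  have hsum : IsIntegral ℤ (∑ i ∈ Finset.range k, c₁ ^ i * c₂ ^ (k - 1 - i)) :=
    IsIntegral.sum _ fun i _ => (hI1.pow i).mul (hI2.pow _)
  refine isUnitAway_of_mul (hI1.sub hI2) hsum ?_
  rw [geom_sum₂_mul, hdiff]
  exact IsUnitAway.neg (IsUnitAway.mul (IsUnitAway.mul hU1 hU2) hU3)

variable (s k r c M : ℕ) [NeZero c] [NeZero M]

theorem cusp_separated (hM : p * c = M) (hs : s * s = p) (hs1 : 1 < s) (hk : 0 < k)
    (hkr : r * k = 24)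
    (hdiv : ∀ a e : ℕ, a * e = p → (k : ℤ) ∣ (p : ℤ) - ((a * (p / e) : ℕ) : ℤ))
    (hcases : ∀ a e : ℕ, a * e = p → (a = p ∧ e = 1) ∨ (a = 1 ∧ e = p) ∨ (a = s ∧ e = s))
    (hr : IsUnitAway p (r : Kbar))
    (hζ : ∀ j : ℤ, ¬ (s : ℤ) ∣ j → IsUnitAway p (zetaE p s ^ j - 1))
    (t u : FF M) (htu : t ^ k * u = 1)
    (hT : ∀ (γ : SL(2, ℤ)) (T : LaurentSeries Kbar),
      IntgQN M (compSL (deltaQuot p) γ) (toC T) → (cuspData M).T γ u = T)
    (hinv : ∀ δ γ : SL(2, ℤ), δ ∈ CongruenceSubgroup.Gamma0 p →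
      (cuspData M).T (δ * γ) t = (cuspData M).T γ t)
    (γ γ' : SL(2, ℤ)) (c₁ c₂ : Kbar) (h1 : cvE ((cuspData M).T γ t) = some c₁)
    (h2 : cvE ((cuspData M).T γ' t) = some c₂) : c₁ = c₂ ∨ IsUnitAway p (c₁ - c₂) := by
  have hs0 : 0 < s := by omega
  have hsp : s ∣ p := ⟨s, hs.symm⟩
  have hcl := (cusp_classify p s k r c M hM hs hs1 hk hkr hdiv hcases hr hζ t u htu hT γ).2
  have hcl' := (cusp_classify p s k r c M hM hs hs1 hk hkr hdiv hcases hr hζ t u htu hT γ').2
  rw [h1] at hcl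
  rw [h2] at hcl'
  rcases hcl with h | h | ⟨b, c₀, h, hrel, hb0, hbs, hb, hc₀⟩
  · exact absurd h (by simp)
  · obtain rfl : c₁ = 0 := Option.some.inj h
    rcases hcl' with h' | h' | ⟨b', c₀', h', hrel', hb0', hbs', hb', hc₀'⟩
    · exact absurd h' (by simp)
    · obtain rfl : c₂ = 0 := Option.some.inj h'
      exact Or.inl rfl
    · obtain rfl : c₂ = c₀' := Option.some.inj h'
      right
      rw [zero_sub]
      exact IsUnitAway.neg (isUnitAway_const p hs0 hsp hk hc₀')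
  · obtain rfl : c₁ = c₀ := Option.some.inj h
    rcases hcl' with h' | h' | ⟨b', c₀', h', hrel', hb0', hbs', hb', hc₀'⟩
    · exact absurd h' (by simp)
    · obtain rfl : c₂ = 0 := Option.some.inj h'
      right
      rw [sub_zero]
      exact isUnitAway_const p hs0 hsp hk hc₀
    · obtain rfl : c₂ = c₀' := Option.some.inj h'
      by_cases hbb : b = b'
      · left
        subst hbb
        have hmem := mem_Gamma0_of_hermiteRel hs hrel hrel'
        have hE : (cuspData M).T γ' t = (cuspData M).T γ t := by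
          have := hinv (γ' * γ⁻¹) γ hmem
          rwa [inv_mul_cancel_right] at this
        rw [hE, h1] at h2
        exact Option.some.inj h2
      · right
        exact isUnitAway_sub_of_ne p hs hs1 hk hζ hb0 hbs hb0' hbs' hbb hc₀ hc₀'

end Separated


/-! ### The final statements -/

section Final

open Classical in
/-- The cusp value function of `t` at level `M`: `some (t(cusp))` at a finite value, `none` at a
pole. -/
def cvT (n e M : ℕ) [NeZero n] [NeZero M] : SL(2, ℤ) → Option Kbar := fun γ =>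
  if h : TMem n e M then cvE ((cuspData M).T γ (tF M h)) else none

theorem cvT_eq (n e M : ℕ) [NeZero n] [NeZero M] (h : TMem n e M) (γ : SL(2, ℤ)) :
    cvT n e M γ = cvE ((cuspData M).T γ (tF M h)) := by
  rw [cvT, dif_pos h]

/-- **(B5) + (B4)**, general form: `n = s²`, `e k = 24`, `t^k u = 1`. -/
theorem cuspExp_general (n e s k M : ℕ) [NeZero n] [NeZero M] (hnM : n ∣ M) (hs : s * s = n)
    (hs1 : 1 < s) (hk : 0 < k) (hkr : e * k = 24)
    (hpow : tq Kbar n e ^ k * uq Kbar n = 1)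
    (hdiv : ∀ a e' : ℕ, a * e' = n → (k : ℤ) ∣ (n : ℤ) - ((a * (n / e') : ℕ) : ℤ))
    (hcases : ∀ a e' : ℕ, a * e' = n → (a = n ∧ e' = 1) ∨ (a = 1 ∧ e' = n) ∨ (a = s ∧ e' = s))
    (hr : IsUnitAway n (e : Kbar))
    (hζ : ∀ j : ℤ, ¬ (s : ℤ) ∣ j → IsUnitAway n (zetaE n s ^ j - 1))
    (h : TMem n e n) :
    CuspExp n e M (cvT n e M) ∧ CuspSeparated n (cvT n e M) := by
  obtain ⟨c, rfl⟩ := hnM
  have hc : NeZero c := ⟨fun h0 => NeZero.ne (n * c) (by rw [h0, mul_zero])⟩
  have hnM : n ∣ n * c := Dvd.intro c rfl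
  have h' : TMem n e (n * c) := TMem.mono hnM h
  have hnice : IsNice (n * c) (uq Kbar n) (deltaQuot n) := isNice_of_dvd hnM (isNice_deltaQuot n)
  set t : FF (n * c) := tF (n * c) h' with ht
  set u : FF (n * c) := ⟨uq Kbar n, mem_of_isNice hnice⟩ with hu
  have htu : t ^ k * u = 1 := Subtype.ext hpow
  have hT : ∀ (γ : SL(2, ℤ)) (T : LaurentSeries Kbar),
      IntgQN (n * c) (compSL (deltaQuot n) γ) (toC T) → (cuspData (n * c)).T γ u = T :=
    fun γ T hT => T_eq_of_isNice hnice γ T hT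
  have hinv : ∀ δ γ : SL(2, ℤ), δ ∈ CongruenceSubgroup.Gamma0 n →
      (cuspData (n * c)).T (δ * γ) t = (cuspData (n * c)).T γ t :=
    fun δ γ hδ => T_mul_left_of_dvd hnM δ γ hδ (tF n h)
  refine ⟨⟨h', fun γ => ?_⟩, ?_⟩
  · rw [cvT_eq n e (n * c) h' γ]
    exact (cusp_classify n s k e c (n * c) rfl hs hs1 hk hkr hdiv hcases hr hζ t u htu hT γ).1
  · intro γ γ' c₁ c₂ h1 h2
    rw [cvT_eq n e (n * c) h' γ] at h1
    rw [cvT_eq n e (n * c) h' γ'] at h2
    exact cusp_separated n s k e c (n * c) rfl hs hs1 hk hkr hdiv hcases hr hζ t u htu hT hinv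
      γ γ' c₁ c₂ h1 h2

/-! #### `(n, e) = (4, 8)` -/

theorem hcases_four : ∀ a e : ℕ, a * e = 4 →
    (a = 4 ∧ e = 1) ∨ (a = 1 ∧ e = 4) ∨ (a = 2 ∧ e = 2) := by
  intro a e hae
  have ha : a ∣ 4 := Dvd.intro _ hae
  have ha4 : a ≤ 4 := Nat.le_of_dvd (by norm_num) ha
  interval_cases a <;> omega

theorem hzeta_four : ∀ j : ℤ, ¬ ((2 : ℕ) : ℤ) ∣ j → IsUnitAway 4 (zetaE 4 2 ^ j - 1) := by
  intro j hj
  have h42 : (2 : ℕ) ∣ 4 := ⟨2, rfl⟩
  have hz2 : zetaE 4 2 ^ 2 = 1 := zetaE_pow 4 h42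
  have hz1 : zetaE 4 2 ≠ 1 := by
    have := zetaE_zpow_ne_one 4 (a := 2) (by norm_num) h42 (b := 1) (by norm_num)
    rwa [zpow_one] at this
  have hz : zetaE 4 2 = -1 := by
    have h0 : (zetaE 4 2 - 1) * (zetaE 4 2 + 1) = 0 := by linear_combination hz2
    rcases mul_eq_zero.mp h0 with h | h
    · exact absurd (sub_eq_zero.mp h) hz1
    · linear_combination h
  have hodd : Odd j := by
    rw [← Int.not_even_iff_odd, even_iff_two_dvd]
    exact_mod_cast hj
  have hval : zetaE 4 2 ^ j - 1 = -2 := by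
    rw [hz, hodd.neg_one_zpow]
    norm_num
  rw [hval]
  refine isUnitAway_of_mul_eq (m := 4) (by norm_num) (y := -2) ?_ ?_ (j := 1) ?_
  · exact (isIntegral_natCast_K 2).neg
  · exact (isIntegral_natCast_K 2).neg
  · push_cast
    norm_num

/-- **(B5) + (B4)** for `t₄ = q⁻¹ (η(q)/η(q⁴))^8` at every level `M` divisible by `4`. -/
theorem cuspExp_four (M : ℕ) [NeZero M] (hM : 4 ∣ M) (h : TMem 4 8 4) :
    CuspExp 4 8 M (cvT 4 8 M) ∧ CuspSeparated 4 (cvT 4 8 M) := by
  refine cuspExp_general 4 8 2 3 M hM rfl (by norm_num) (by norm_num) (by norm_num) ?_ hdiv_four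
    hcases_four ?_ hzeta_four h
  · have := tq_pow_mul_uq Kbar 4 8 (by norm_num)
    exact this
  · refine isUnitAway_of_mul_eq (m := 4) (by norm_num) (y := 2) (isIntegral_natCast_K 8)
      (isIntegral_natCast_K 2) (j := 2) ?_
    push_cast
    norm_num

/-! #### `(n, e) = (9, 3)` -/

theorem hcases_nine : ∀ a e : ℕ, a * e = 9 →
    (a = 9 ∧ e = 1) ∨ (a = 1 ∧ e = 9) ∨ (a = 3 ∧ e = 3) := by
  intro a e hae
  have ha : a ∣ 9 := Dvd.intro _ hae
  have ha9 : a ≤ 9 := Nat.le_of_dvd (by norm_num) ha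
  interval_cases a <;> omega

theorem hzeta_nine : ∀ j : ℤ, ¬ ((3 : ℕ) : ℤ) ∣ j → IsUnitAway 9 (zetaE 9 3 ^ j - 1) := by
  intro j hj
  have h93 : (3 : ℕ) ∣ 9 := ⟨3, rfl⟩
  have hw3 : (zetaE 9 3 ^ j) ^ 3 = 1 := by
    rw [← zpow_natCast, ← zpow_mul, mul_comm, zpow_mul, zpow_natCast, zetaE_pow 9 h93, one_zpow]
  have hw1 : zetaE 9 3 ^ j ≠ 1 := zetaE_zpow_ne_one 9 (a := 3) (by norm_num) h93 hj
  set x := zetaE 9 3 ^ j - 1 with hx
  have hx0 : x ≠ 0 := sub_ne_zero.mpr hw1
  have hw : zetaE 9 3 ^ j = x + 1 := by rw [hx]; ring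
  rw [hw] at hw3
  have hquad : x ^ 2 + 3 * x + 3 = 0 := by
    have h0 : x * (x ^ 2 + 3 * x + 3) = 0 := by linear_combination hw3
    rcases mul_eq_zero.mp h0 with h | h
    · exact absurd h hx0
    · exact h
  have hxI : IsIntegral ℤ x :=
    (isIntegral_zetaE_zpow 9 (by norm_num) h93 j).sub isIntegral_one
  refine isUnitAway_of_mul_eq (m := 9) (by norm_num) (y := -3 * (x + 3)) hxI ?_ (j := 1) ?_
  · have h3 : IsIntegral ℤ (3 : Kbar) := by simpa using isIntegral_natCast_K 3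
    exact h3.neg.mul (hxI.add h3)
  · push_cast
    linear_combination (-3 : Kbar) * hquad

/-- **(B5) + (B4)** for `t₉ = q⁻¹ (η(q)/η(q⁹))^3` at every level `M` divisible by `9`. -/
theorem cuspExp_nine (M : ℕ) [NeZero M] (hM : 9 ∣ M) (h : TMem 9 3 9) :
    CuspExp 9 3 M (cvT 9 3 M) ∧ CuspSeparated 9 (cvT 9 3 M) := by
  refine cuspExp_general 9 3 3 8 M hM rfl (by norm_num) (by norm_num) (by norm_num) ?_ hdiv_nine
    hcases_nine ?_ hzeta_nine h
  · have := tq_pow_mul_uq Kbar 9 3 (by norm_num)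
    exact this
  · refine isUnitAway_of_mul_eq (m := 9) (by norm_num) (y := 3) (isIntegral_natCast_K 3)
      (isIntegral_natCast_K 3) (j := 1) ?_
    push_cast
    norm_num

end Final

end Fermat.Agent.RED.BASE.CuspExpMain11
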