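/-
Program H (S18), chapter RED/BASE (helper14): **FiniteAvoidsCusps**.

A finite cusp value `c` of the Hauptmodul `t` (i.e. `t - c` vanishes at a place of the base level
`n` lying over `j = ∞`) is not attained at any place `v` of `FF M` with `0 ≤ ord_v j`:
`ord_v (t - c) = 0`.  Mechanism: at the base level `ℚbar(t₀) = FF n`, so `t₀ - c` has exactly one
zero; it is the cusp place; and orders at point places are the analytic orders at both levels
(`Unbranched14.ord_sub_eq_ordH`).
-/
import Mathlib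
import Fermat.Agent.RED.BASE.UnbranchedMain14
import Fermat.Agent.X0.CuspGood
import Fermat.Agent.X0.CuspPlaces

set_option autoImplicit false

open UpperHalfPlane hiding I
open scoped MatrixGroups IntermediateField

namespace Fermat.Agent.RED.BASE.FiniteAvoids14

open Fermat.Agent.X0 Fermat.Agent.X0.PointPlacesD Fermat.Agent.X0.PointPlaces
open Fermat.Agent.X0.FF AlgebraicCurve
open Fermat.Agent.RED.BASE.NoElliptic14 Fermat.Agent.RED.BASE.Unbranched14
open Fermat.Agent.RED.BASE.UnbranchedMain14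
open Fermat.Agent.RED.BASE.Interface12 Fermat.Agent.RED.BASE.EtaQuot12

/-! ### Degree one ⇒ the zero of `x - c` is unique -/

theorem zero_unique_of_finrank_eq_one {K F : Type*} [Field K] [Field F] [Algebra K F]
    [IsAlgClosed K] [CharZero K] {x : F} (hx : IsGen K x)
    (h1 : Module.finrank K⟮x⟯ F = 1) (c : K) (v w : Place K F)
    (hv : 0 < v.ord (x - algebraMap K F c)) (hw : 0 < w.ord (x - algebraMap K F c)) : v = w := by
  classical
  by_contra hne
  have hfin := finite_fibre hx c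
  have hsum := sum_ord_fibre hx c
  rw [h1] at hsum
  have hsum' : ∑ᶠ (u : Place K F) (_ : u ∈ {u : Place K F | 0 < u.ord (x - algebraMap K F c)}),
      u.ord (x - algebraMap K F c) = 1 := by
    simpa using hsum
  rw [finsum_mem_eq_finite_toFinset_sum _ hfin] at hsum'
  have hsub : ({v, w} : Finset (Place K F)) ⊆ hfin.toFinset := by
    intro u hu
    rw [Set.Finite.mem_toFinset]
    rcases Finset.mem_insert.mp hu with rfl | hu
    · exact hv
    · rw [Finset.mem_singleton] at hu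
      rw [hu]
      exact hw
  have hle := Finset.sum_le_sum_of_subset_of_nonneg
    (f := fun u : Place K F => u.ord (x - algebraMap K F c)) hsub (fun u hu _ => by
      rw [Set.Finite.mem_toFinset] at hu
      exact le_of_lt hu)
  rw [hsum', Finset.sum_pair hne] at hle
  have : v.ord (x - algebraMap K F c) + w.ord (x - algebraMap K F c) ≤ 1 := hle
  omega

/-! ### The abstract two-level statement -/

variable {N : ℕ} [NeZero N]

theorem ord_jF_nonneg_pointPlaceD (D : RealizeData N) (z₀ : ℍ) (cj : Kbar)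
    (hc : jFun z₀ = iotaK cj) (g : SL(2, ℤ)) : 0 ≤ (pointPlaceD D z₀ cj hc g).ord (jF N) := by
  set v := pointPlaceD D z₀ cj hc g
  have h1 : jF N - algebraMap Kbar (FF N) cj ∈ v.toValuationSubring :=
    (ffp_mem_iff_ord_nonneg v).mpr (le_of_lt (pointPlaceD_ord_pos D z₀ cj hc g))
  have h2 : algebraMap Kbar (FF N) cj ∈ v.toValuationSubring :=
    (ffp_mem_iff_ord_nonneg v).mpr (le_of_eq (ffp_ord_algebraMap v cj).symm)
  have h3 := v.toValuationSubring.add_mem _ _ h1 h2
  rw [sub_add_cancel] at h3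
  exact (ffp_mem_iff_ord_nonneg v).mp h3

/-- If `t₀ - c` vanishes at a place `w₀` of the base level over `j = ∞`, then `t - c` has order
`0` at every place of `FF N` not over `j = ∞`. -/
theorem ord_sub_eq_zero {N₀ : ℕ} [NeZero N₀] (D : RealizeData N) (C : CuspData N D)
    (D₀ : RealizeData N₀) (C₀ : CuspData N₀ D₀)
    (h2 : ModularCurve.nuTwo N = 0) (h3 : ModularCurve.nuThree N = 0)
    (h2₀ : ModularCurve.nuTwo N₀ = 0) (h3₀ : ModularCurve.nuThree N₀ = 0)
    {t : FF N} {t₀ : FF N₀} {τ : ℍ → ℂ} (hτ : τ ∈ HolH)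
    (ht : IsRealizedBy D t τ) (ht₀ : IsRealizedBy D₀ t₀ τ)
    (hgen : IsGen Kbar t₀) (hdeg : Module.finrank Kbar⟮t₀⟯ (FF N₀) = 1)
    (c : Kbar) (w₀ : Place Kbar (FF N₀)) (hw₀j : w₀.ord (jF N₀) < 0)
    (hw₀ : 0 < w₀.ord (t₀ - algebraMap Kbar (FF N₀) c))
    (v : Place Kbar (FF N)) (hv : 0 ≤ v.ord (jF N)) :
    v.ord (t - algebraMap Kbar (FF N) c) = 0 := by
  obtain ⟨z₀, cj, hc, g, rfl⟩ := exists_pointPlaceD_eq_of_ord_nonneg D C v hv
  have htr := transcendental_of_isRealizedBy D D₀ hτ ht ht₀ hgen.transcendental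
  have hne : t - algebraMap Kbar (FF N) c ≠ 0 := by
    intro h
    apply htr
    rw [sub_eq_zero.mp h]
    exact isAlgebraic_algebraMap c
  have hne₀ : t₀ - algebraMap Kbar (FF N₀) c ≠ 0 := by
    intro h
    apply hgen.transcendental
    rw [sub_eq_zero.mp h]
    exact isAlgebraic_algebraMap c
  have e := ord_sub_eq_ordH D C h2 h3 hτ ht z₀ cj hc g c hne
  have e₀ := ord_sub_eq_ordH D₀ C₀ h2₀ h3₀ hτ ht₀ z₀ cj hc g c hne₀
  by_contra h0
  have hpos : 0 < (pointPlaceD D₀ z₀ cj hc g).ord (t₀ - algebraMap Kbar (FF N₀) c) := by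
    rw [e₀, ← e]
    have : 0 ≤ (pointPlaceD D z₀ cj hc g).ord (t - algebraMap Kbar (FF N) c) := by
      rw [e]
      positivity
    omega
  have heq := zero_unique_of_finrank_eq_one hgen hdeg c _ _ hpos hw₀
  have := ord_jF_nonneg_pointPlaceD D₀ z₀ cj hc g
  rw [heq] at this
  omega

/-! ### The cusp shape gives a zero at the cusp place -/

theorem order_cuspTail {K : Type*} [Field K] (a : ℕ) (lam : K) (hl : lam ≠ 0)
    (V : PowerSeries K) (hV : PowerSeries.constantCoeff V = 1) :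
    (HahnSeries.C lam * HahnSeries.single (a : ℤ) 1 * HahnSeries.ofPowerSeries ℤ K V).order
      = (a : ℤ) := by
  have h1 : (HahnSeries.C lam : LaurentSeries K) ≠ 0 := by
    intro h
    have := congrArg (fun x : LaurentSeries K => x.coeff 0) h
    simp [HahnSeries.C_apply] at this
    exact hl this
  have h2 : (HahnSeries.single (a : ℤ) (1 : K)) ≠ 0 := HahnSeries.single_ne_zero one_ne_zero
  have hc0 : (HahnSeries.ofPowerSeries ℤ K V).coeff 0 = 1 := by
    have := HahnSeries.ofPowerSeries_apply_coeff (Γ := ℤ) V 0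
    rw [Nat.cast_zero] at this
    rw [this, PowerSeries.coeff_zero_eq_constantCoeff, hV]
  have h3 : HahnSeries.ofPowerSeries ℤ K V ≠ 0 := by
    intro h
    rw [h] at hc0
    simp at hc0
  have h3o : (HahnSeries.ofPowerSeries ℤ K V).order = 0 := by
    apply le_antisymm
    · exact HahnSeries.order_le_of_coeff_ne_zero (by rw [hc0]; exact one_ne_zero)
    · by_contra hlt
      rw [not_le] at hlt
      exact h3 (HahnSeries.coeff_order_eq_zero.mp (ModularCurve.ofPowerSeries_coeff_of_neg V hlt))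
  rw [HahnSeries.order_mul (mul_ne_zero h1 h2) h3, HahnSeries.order_mul h1 h2, HahnSeries.order_C,
    HahnSeries.order_single one_ne_zero, h3o]
  ring

/-- A positive order of the cusp expansion `C.T γ f` gives a zero of `f` at a place over `∞`. -/
theorem exists_place_of_order_pos (D : RealizeData N) (C : CuspData N D) (γ : SL(2, ℤ))
    (f : FF N) (hf : 0 < (C.T γ f).order) :
    ∃ w : Place Kbar (FF N), w.ord (jF N) < 0 ∧ 0 < w.ord f := by
  have hC := CuspGood.good C
  have hf0 : f ≠ 0 := by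
    rintro rfl
    rw [map_zero, HahnSeries.order_zero] at hf
    exact lt_irrefl _ hf
  refine ⟨cuspPlace hC γ⁻¹, cuspPlace_ord_jF_neg hC γ⁻¹, ?_⟩
  obtain ⟨m, hm, hspec, -⟩ := cuspPlace_spec hC γ⁻¹
  have h := hspec f hf0
  rw [inv_inv] at h
  rw [h] at hf
  have hm' : (0 : ℤ) < m := by exact_mod_cast hm
  by_contra hneg
  rw [not_lt] at hneg
  nlinarith

/-- **FiniteAvoidsCusps**, literal `Interface12` vocabulary: the cusp value function `cv` is the
one of the BASE level `n`. -/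
theorem finiteAvoidsCusps (n e M : ℕ) [NeZero n] [NeZero M] (hn : 4 ∣ n ∨ 9 ∣ n) (hnM : n ∣ M)
    (hR₀ : TRealize n e n) (hR : TRealize n e M) (hG : TGenBase n e)
    (cv : SL(2, ℤ) → Option Kbar) (hcv : CuspExp n e n cv) :
    ∃ h : TMem n e M, ∀ v : Place Kbar (FF M), 0 ≤ v.ord (jF M) →
      ∀ (γ : SL(2, ℤ)) (c : Kbar), cv γ = some c →
        v.ord (tF M h - algebraMap Kbar (FF M) c) = 0 := by
  have hM : 4 ∣ M ∨ 9 ∣ M := hn.imp (fun h => h.trans hnM) (fun h => h.trans hnM)
  obtain ⟨h₀, a₀, b₀, hb₀, hab₀, hΘ₀⟩ := hR₀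
  obtain ⟨h, a, b, hb, hab, hΘ⟩ := hR
  obtain ⟨h₀', htop⟩ := hG
  obtain ⟨h₀'', hshape⟩ := hcv
  obtain ⟨hgen, hdeg⟩ := isGen_of_adjoin_eq_top (transcendental_jF n) htop
  refine ⟨h, fun v hv γ c hγ => ?_⟩
  have hs := hshape γ
  rw [hγ] at hs
  obtain ⟨k, lam, V, hk, hlam, hV, -, -, hE⟩ := hs
  have hgood := CuspGood.good (cuspData n)
  have hord : 0 < ((cuspData n).T γ (tF n h₀ - algebraMap Kbar (FF n) c)).order := by
    have : (cuspData n).T γ (tF n h₀ - algebraMap Kbar (FF n) c) =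
        HahnSeries.C lam * HahnSeries.single (k : ℤ) 1 * HahnSeries.ofPowerSeries ℤ Kbar V := by
      rw [map_sub, hgood.map_const, hE]
      ring
    rw [this, order_cuspTail k lam hlam.1 V hV]
    exact_mod_cast hk
  obtain ⟨w₀, hw₀j, hw₀⟩ := exists_place_of_order_pos (realizeData n) (cuspData n) γ _ hord
  exact ord_sub_eq_zero (realizeData M) (cuspData M) (realizeData n) (cuspData n)
    (nuTwo_eq_zero hM) (nuThree_eq_zero hM) (nuTwo_eq_zero hn) (nuThree_eq_zero hn)
    (tauFun_mem_HolH n e) ⟨a, b, hb, hab, hΘ⟩ ⟨a₀, b₀, hb₀, hab₀, hΘ₀⟩ hgen hdeg c w₀ hw₀j hw₀ v hv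

end Fermat.Agent.RED.BASE.FiniteAvoids14
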