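/-
Program H (S18), chapter RED/BASE (helper14): **FiniteAvoidsCusps**, with the cusp value
function `cv` taken at the level `M` (`CuspExp n e M cv`), and its contrapositive
"places over a finite cusp value are cusp places".

The zero of `t - c` at the cusp place of level `M` is pushed down to the base level `n` by
restriction of places along `Fbar_n ≤ Fbar_M` (`PlaceRestrict2`), then `FiniteAvoids14.ord_sub_eq_zero`.
-/
import Mathlib
import Fermat.Agent.RED.BASE.FiniteAvoids14
import Fermat.Agent.RED.BASE.QExpMem19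
import Fermat.Agent.RED.LVL.PlaceRestrict2
import Fermat.Agent.X0.GNPsi

set_option autoImplicit false

open UpperHalfPlane hiding I
open scoped MatrixGroups IntermediateField

namespace Fermat.Agent.RED.BASE.FiniteAvoidsM14

open Fermat.Agent.X0 Fermat.Agent.X0.FF AlgebraicCurve ModularCurve
open Fermat.Agent.RED.BASE.NoElliptic14 Fermat.Agent.RED.BASE.Unbranched14
open Fermat.Agent.RED.BASE.UnbranchedMain14 Fermat.Agent.RED.BASE.FiniteAvoids14
open Fermat.Agent.RED.BASE.Interface12 Fermat.Agent.RED.BASE.EtaQuot12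
open Fermat.Agent.RED.BASE.QExpMem19

/-- `Fbar_M` is algebraic over `ℚbar(j)`, hence over every `Fbar_n`. -/
theorem isAlgebraic_fbar (n M : ℕ) [NeZero n] [NeZero M] (x : modularFunctionFieldBar M) :
    IsAlgebraic (modularFunctionFieldBar n) (x : LaurentSeries Kbar) := by
  have hpos : 0 < Module.finrank K0 (Lext M) := by
    rw [finrank_Lext]
    exact GNPsi.gnp_dedekindPsi_pos (NeZero.ne M)
  have hfin : FiniteDimensional K0 (Lext M) := FiniteDimensional.of_finrank_pos hpos
  have h1 : IsAlgebraic K0 (⟨(x : LaurentSeries Kbar), x.2⟩ : Lext M) :=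
    IsAlgebraic.of_finite K0 _
  have h2 : IsAlgebraic K0 (x : LaurentSeries Kbar) :=
    (IntermediateField.isAlgebraic_iff (S := Lext M)).mp h1
  have h3 : IsAlgebraic K0.toSubalgebra (x : LaurentSeries Kbar) := h2
  exact IsAlgebraic.tower_top_of_subalgebra_le
    (A := K0.toSubalgebra) (B := (modularFunctionFieldBar n).toSubalgebra) (K0_le n) h3

/-- restriction of a place of `Fbar_M` to `Fbar_n`, `n ∣ M`. -/
theorem exists_base_place {n M : ℕ} [NeZero n] [NeZero M] (hnM : n ∣ M)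
    (w : Place Kbar (FF M)) :
    ∃ (w₀ : Place Kbar (FF n)) (k : ℕ), 0 < k ∧
      ∀ f : FF n, w.ord (IntermediateField.inclusion (fbar_mono hnM) f) = (k : ℤ) * w₀.ord f := by
  obtain ⟨w₀, k, hk, h, -⟩ := Fermat.Agent.RED.LVL.PlaceRestrict2.exists_restrict_le
    (fbar_mono hnM) (isAlgebraic_fbar n M) w
  exact ⟨w₀, k, hk, h⟩

/-- **FiniteAvoidsCusps**, `cv` at level `M`. -/
theorem finiteAvoidsCusps (n e M : ℕ) [NeZero n] [NeZero M] (hn : 4 ∣ n ∨ 9 ∣ n) (hnM : n ∣ M)
    (hR₀ : TRealize n e n) (hR : TRealize n e M) (hG : TGenBase n e)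
    (cv : SL(2, ℤ) → Option Kbar) (hcv : CuspExp n e M cv) :
    ∃ h : TMem n e M, ∀ v : Place Kbar (FF M), 0 ≤ v.ord (jF M) →
      ∀ (γ : SL(2, ℤ)) (c : Kbar), cv γ = some c →
        v.ord (tF M h - algebraMap Kbar (FF M) c) = 0 := by
  have hM : 4 ∣ M ∨ 9 ∣ M := hn.imp (fun h => h.trans hnM) (fun h => h.trans hnM)
  obtain ⟨h₀, a₀, b₀, hb₀, hab₀, hΘ₀⟩ := hR₀
  obtain ⟨h, a, b, hb, hab, hΘ⟩ := hR
  obtain ⟨h₀', htop⟩ := hG
  obtain ⟨h'', hshape⟩ := hcv
  obtain ⟨hgen, hdeg⟩ := isGen_of_adjoin_eq_top (transcendental_jF n) htop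
  refine ⟨h, fun v hv γ c hγ => ?_⟩
  have hs := hshape γ
  rw [hγ] at hs
  obtain ⟨k, lam, V, hk, hlam, hV, -, -, hE⟩ := hs
  have hgood := CuspGood.good (cuspData M)
  have hord : 0 < ((cuspData M).T γ (tF M h - algebraMap Kbar (FF M) c)).order := by
    have : (cuspData M).T γ (tF M h - algebraMap Kbar (FF M) c) =
        HahnSeries.C lam * HahnSeries.single (k : ℤ) 1 * HahnSeries.ofPowerSeries ℤ Kbar V := by
      rw [map_sub, hgood.map_const, hE]
      ring
    rw [this, order_cuspTail k lam hlam.1 V hV]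
    exact_mod_cast hk
  obtain ⟨w, hwj, hw⟩ := exists_place_of_order_pos (realizeData M) (cuspData M) γ _ hord
  obtain ⟨w₀, m, hm, hres⟩ := exists_base_place hnM w
  have hm' : (0 : ℤ) < m := by exact_mod_cast hm
  -- compatibility of `j`, `t`, constants with the inclusion
  have hj : IntermediateField.inclusion (fbar_mono hnM) (jF n) = jF M := by
    apply Subtype.ext
    show ((jF n : FF n) : LaurentSeries Kbar) = ((jF M : FF M) : LaurentSeries Kbar)
    rw [coe_jF, coe_jF]
  have ht : IntermediateField.inclusion (fbar_mono hnM) (tF n h₀ - algebraMap Kbar (FF n) c)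
      = tF M h - algebraMap Kbar (FF M) c := by
    rw [map_sub, AlgHom.commutes]
    rfl
  have hw₀j : w₀.ord (jF n) < 0 := by
    have := hres (jF n)
    rw [hj] at this
    by_contra hneg
    rw [not_lt] at hneg
    nlinarith
  have hw₀ : 0 < w₀.ord (tF n h₀ - algebraMap Kbar (FF n) c) := by
    have := hres (tF n h₀ - algebraMap Kbar (FF n) c)
    rw [ht] at this
    by_contra hneg
    rw [not_lt] at hneg
    nlinarith
  exact ord_sub_eq_zero (realizeData M) (cuspData M) (realizeData n) (cuspData n)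
    (nuTwo_eq_zero hM) (nuThree_eq_zero hM) (nuTwo_eq_zero hn) (nuThree_eq_zero hn)
    (tauFun_mem_HolH n e) ⟨a, b, hb, hab, hΘ⟩ ⟨a₀, b₀, hb₀, hab₀, hΘ₀⟩ hgen hdeg c w₀ hw₀j hw₀ v hv

/-- **Places over a finite cusp value are cusp places** (`ord_v j < 0`). -/
theorem ord_jF_neg_of_cusp_value (n e M : ℕ) [NeZero n] [NeZero M] (hn : 4 ∣ n ∨ 9 ∣ n)
    (hnM : n ∣ M) (hR₀ : TRealize n e n) (hR : TRealize n e M) (hG : TGenBase n e)
    (cv : SL(2, ℤ) → Option Kbar) (hcv : CuspExp n e M cv) :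
    ∃ h : TMem n e M, ∀ v : Place Kbar (FF M), ∀ (γ : SL(2, ℤ)) (c : Kbar), cv γ = some c →
      0 < v.ord (tF M h - algebraMap Kbar (FF M) c) → v.ord (jF M) < 0 := by
  obtain ⟨h, H⟩ := finiteAvoidsCusps n e M hn hnM hR₀ hR hG cv hcv
  refine ⟨h, fun v γ c hγ hpos => ?_⟩
  by_contra hneg
  rw [not_lt] at hneg
  have := H v hneg γ c hγ
  omega

end Fermat.Agent.RED.BASE.FiniteAvoidsM14
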