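/-
RED/BASE Main, cusp part (helper12): the exports (B4)/(B5) of the BASE chapter of Program H and the
two corollaries on finite places, assembled for `(n, e) = (4, 8)` and `(9, 3)` at every multiple
`M` of `n`.  Together with `Main12.BaseExports` this closes the chapter.

With `cv := CuspExpMain11.cvT n e M` (the value of `t` at the cusp `γ ∞`, `none` = pole):

* `CuspExp n e M cv`      : every cusp expansion of `t` has the shape `CuspShape n _ (cv γ)`;
* `CuspSeparated n cv`    : two finite cusp values are equal or differ by a unit away from `n`;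
* `avoids`                : at the places `v` of `Fbar_M` not over `j = ∞`, `t(v)` is not a cusp value;
* `cuspPlaces`            : the places over a finite cusp value are places over `j = ∞`.
-/
import Fermat.Agent.RED.BASE.Main12
import Fermat.Agent.RED.BASE.CuspExpMain11
import Fermat.Agent.RED.BASE.FiniteAvoidsM14

set_option autoImplicit false

open ModularCurve AlgebraicCurve
open scoped MatrixGroups

namespace Fermat.Agent.RED.BASE.MainCusp12

open Fermat.Agent.X0 Fermat.Agent.RED.BASE.Interface12 Fermat.Agent.RED.BASE.Hauptmodul12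
open Fermat.Agent.RED.BASE.Main12 Fermat.Agent.RED.BASE.CuspExpMain11

/-- the cusp exports of the chapter at level `M`, for the value function `cv`. -/
structure CuspExports (n e M : ℕ) [NeZero n] [NeZero M] (cv : SL(2, ℤ) → Option Kbar) : Prop where
  cuspExp : CuspExp n e M cv
  separated : CuspSeparated n cv
  avoids : ∃ h : TMem n e M, ∀ v : Place Kbar (FF M), 0 ≤ v.ord (jF M) →
    ∀ (γ : SL(2, ℤ)) (c : Kbar), cv γ = some c →
      v.ord (tF M h - algebraMap Kbar (FF M) c) = 0
  cuspPlaces : ∃ h : TMem n e M, ∀ v : Place Kbar (FF M), ∀ (γ : SL(2, ℤ)) (c : Kbar),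
    cv γ = some c → 0 < v.ord (tF M h - algebraMap Kbar (FF M) c) → v.ord (jF M) < 0

theorem cuspExports_of {n e M : ℕ} [NeZero n] [NeZero M] (hb : BaseHyp n e) (hnM : n ∣ M)
    {cv : SL(2, ℤ) → Option Kbar} (h : CuspExp n e M cv ∧ CuspSeparated n cv) :
    CuspExports n e M cv := by
  have hB := baseExports hb M hnM
  exact
    { cuspExp := h.1
      separated := h.2
      avoids := FiniteAvoidsM14.finiteAvoidsCusps n e M hb.four_or_nine hnM hB.realizeBase
        hB.realize hB.genBase cv h.1
      cuspPlaces := FiniteAvoidsM14.ord_jF_neg_of_cusp_value n e M hb.four_or_nine hnM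
        hB.realizeBase hB.realize hB.genBase cv h.1 }

/-- level `4`, exponent `8` (used for odd `ℓ`). -/
theorem cuspExports_four (M : ℕ) [NeZero M] (hM : 4 ∣ M) : CuspExports 4 8 M (cvT 4 8 M) :=
  cuspExports_of baseHyp_four hM (cuspExp_four M hM (tMem baseHyp_four))

/-- level `9`, exponent `3` (used for `ℓ = 2`). -/
theorem cuspExports_nine (M : ℕ) [NeZero M] (hM : 9 ∣ M) : CuspExports 9 3 M (cvT 9 3 M) :=
  cuspExports_of baseHyp_nine hM (cuspExp_nine M hM (tMem baseHyp_nine))

/-- **BASE chapter, closed**: all exports at level `M`. -/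
theorem base_four (M : ℕ) [NeZero M] (hM : 4 ∣ M) :
    BaseExports 4 8 M ∧ CuspExports 4 8 M (cvT 4 8 M) :=
  ⟨baseExports_four M hM, cuspExports_four M hM⟩

theorem base_nine (M : ℕ) [NeZero M] (hM : 9 ∣ M) :
    BaseExports 9 3 M ∧ CuspExports 9 3 M (cvT 9 3 M) :=
  ⟨baseExports_nine M hM, cuspExports_nine M hM⟩

end Fermat.Agent.RED.BASE.MainCusp12
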