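/-
RED/BASE (helper12): (FIN) finiteness of the set of cusp values of the Hauptmodul.

For any value function `cv` with `CuspExp n e M cv`: there is a finite set `S ⊂ ℚbar` containing
every finite cusp value.  Proof: a cusp value `c = cv γ` is the value of `t` at the place
`placeOf M γ`, a pole of `j`; `j` has finitely many poles and `t` has at most one value at a place.
-/
import Fermat.Agent.RED.BASE.MainCusp12
import Fermat.Agent.RED.CUSP.CuspFibre14

set_option autoImplicit false

open ModularCurve AlgebraicCurve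
open scoped MatrixGroups

namespace Fermat.Agent.RED.BASE.CuspFinite12

open Fermat.Agent.X0 Fermat.Agent.RED.BASE.Interface12 Fermat.Agent.RED.BASE.Hauptmodul12
open Fermat.Agent.RED.CUSP.CuspExact16 Fermat.Agent.RED.CUSP.CuspFibre14
open Fermat.Agent.RED.BASE.CuspExpMain11 Fermat.Agent.RED.BASE.MainCusp12

/-- **(FIN)** the finite cusp values form a finite set. -/
theorem exists_finset_cuspValues {n e M : ℕ} [NeZero n] [NeZero M]
    (cv : SL(2, ℤ) → Option Kbar) (hcv : CuspExp n e M cv) :
    ∃ S : Finset Kbar, ∀ (γ : SL(2, ℤ)) (c : Kbar), cv γ = some c → c ∈ S := by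
  classical
  obtain ⟨h, -⟩ := id hcv
  have hj := HasCanDivInst.isGen M
  have hfin := FF.finite_poles hj
  let val : Place Kbar (FF M) → Kbar := fun v =>
    if hv : ∃ c : Kbar, 0 < v.ord (tF M h - algebraMap Kbar (FF M) c) then hv.choose else 0
  refine ⟨hfin.toFinset.image val, fun γ c hγ => ?_⟩
  have hpos := placeOf_ord_sub_pos cv hcv h γ c hγ
  rw [Finset.mem_image]
  refine ⟨placeOf M γ, ?_, ?_⟩
  · rw [Set.Finite.mem_toFinset]
    show (placeOf M γ).ord (jF M) < 0
    have h1 := neg_ord_jF_eq M γ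
    have h2 : (0 : ℤ) < cuspW M γ := by exact_mod_cast cuspW_pos M γ
    omega
  · have hex : ∃ c : Kbar, 0 < (placeOf M γ).ord (tF M h - algebraMap Kbar (FF M) c) := ⟨c, hpos⟩
    show (if hv : ∃ c : Kbar, 0 < (placeOf M γ).ord (tF M h - algebraMap Kbar (FF M) c)
      then hv.choose else 0) = c
    rw [dif_pos hex]
    exact eq_of_ord_sub_pos _ _ _ _ hex.choose_spec hpos

theorem exists_finset_cuspValues_four (M : ℕ) [NeZero M] (hM : 4 ∣ M) :
    ∃ S : Finset Kbar, ∀ (γ : SL(2, ℤ)) (c : Kbar), cvT 4 8 M γ = some c → c ∈ S :=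
  exists_finset_cuspValues _ (cuspExports_four M hM).cuspExp

theorem exists_finset_cuspValues_nine (M : ℕ) [NeZero M] (hM : 9 ∣ M) :
    ∃ S : Finset Kbar, ∀ (γ : SL(2, ℤ)) (c : Kbar), cvT 9 3 M γ = some c → c ∈ S :=
  exists_finset_cuspValues _ (cuspExports_nine M hM).cuspExp

end Fermat.Agent.RED.BASE.CuspFinite12
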