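/-
Program H (S18) / chapter RED/BASE / helper19.

`DeltaMem19` (B2a): the modular units `Δ(q^p)/Δ(q)` and `Δ(q)/Δ(q^p)` lie in the function field
`FF p = ℚbar(j(q^d) : d ∣ p)` of `X₀(p)`, for EVERY level `p ≥ 1` (no primality), and more generally
in `FF M` for every multiple `M` of `p`.

* `isNice_of_dvd`          : niceness at level `M₀` implies niceness at every multiple `M`;
* `deltaQuotInv p`         : the function `z ↦ Δ(z)/Δ(p z)`; `uqInv R p = Δ(q)/Δ(q^p)` in `R((q))`;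
* `isNice_deltaQuot`, `isNice_deltaQuotInv` : the niceness data (`QExpMem19.IsNice`);
* `uq_mem`, `uqInv_mem`    : membership in `modularFunctionFieldBar M`, `p ∣ M`.
-/
import Mathlib
import Fermat.Agent.RED.BASE.QExpMem19
import Fermat.Agent.IG.AN.DeltaQuotExp19
import Fermat.Agent.IG.AN.DeltaAffineBridge11

set_option autoImplicit false
set_option linter.unusedSectionVars false

open ModularCurve UpperHalfPlane ModularForm
open scoped MatrixGroups

noncomputable section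

namespace Fermat.Agent.RED.BASE.DeltaMem19

open Fermat.Agent.X0 Fermat.Agent.X0.Analytic Fermat.Agent.X0.Hermite
  Fermat.Agent.X0.QExpAffine Fermat.Agent.X0.JQExp
open Fermat.Agent.IG.PR.Interface20 Fermat.Agent.IG.AN.DeltaQuot19
  Fermat.Agent.IG.AN.DeltaQuotExp19 Fermat.Agent.IG.AN.DeltaAffine11
open Fermat.Agent.RED.BASE.QExpMem19

local notation "Δ" => ModularForm.discriminant

/-! ### change of level -/

theorem scaleH_mul (a b : ℕ) [NeZero a] [NeZero b] [NeZero (a * b)] (z : ℍ) :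
    scaleH (a * b) z = scaleH a (scaleH b z) := by
  apply UpperHalfPlane.ext
  rw [coe_scaleH, coe_scaleH, coe_scaleH]
  push_cast
  ring

theorem Gamma0_le_of_dvd {M₀ M : ℕ} (h : M₀ ∣ M) :
    CongruenceSubgroup.Gamma0 M ≤ CongruenceSubgroup.Gamma0 M₀ := by
  intro γ hγ
  rw [CongruenceSubgroup.Gamma0_mem] at hγ ⊢
  rw [ZMod.intCast_zmod_eq_zero_iff_dvd] at hγ ⊢
  exact (Int.natCast_dvd_natCast.mpr h).trans hγ

/-- Niceness at level `M₀` implies niceness at every multiple `M` of `M₀`. -/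
theorem isNice_of_dvd {M₀ M : ℕ} [NeZero M₀] [NeZero M] (hdvd : M₀ ∣ M) {f : LaurentSeries Kbar}
    {g : ℍ → ℂ} (h : IsNice M₀ f g) : IsNice M f g where
  hol := h.hol
  inv γ hγ := h.inv γ (Gamma0_le_of_dvd hdvd hγ)
  qexp := h.qexp
  cusp γ := by
    obtain ⟨T, hT⟩ := h.cusp γ
    obtain ⟨k, rfl⟩ := hdvd
    have : NeZero k := ⟨fun hk => NeZero.ne (M₀ * k) (by rw [hk, mul_zero])⟩
    refine ⟨qExpand Kbar k T, ?_⟩
    have h1 : HasQExp (qExpand ℂ k (toC T)) (fun z => compSL g γ (scaleH M₀ (scaleH k z))) :=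
      HasQExp.qExpand hT k
    have h2 : toC (qExpand Kbar k T) = qExpand ℂ k (toC T) := by
      rw [toC, ModularCurve.coeffMap_qExpand]
    show HasQExp (toC (qExpand Kbar k T)) (fun z => compSL g γ (scaleH (M₀ * k) z))
    rw [h2]
    have h3 : (fun z => compSL g γ (scaleH (M₀ * k) z)) =
        fun z => compSL g γ (scaleH M₀ (scaleH k z)) := by
      funext z
      rw [scaleH_mul]
    rw [h3]
    exact h1

/-! ### the unit `Δ(p z)/Δ(z)` -/

variable (p : ℕ) [NeZero p]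

theorem toC_uq : toC (uq Kbar p) = uq ℂ p := by
  rw [toC, coeffMap_uq]

/-- `Δ(q^p)/Δ(q)` with its analytic incarnation is nice at level `p`. -/
theorem isNice_deltaQuot : IsNice p (uq Kbar p) (deltaQuot p) where
  hol := deltaQuot_mem_HolH p
  inv := deltaQuot_invariant p
  qexp := by
    rw [toC_uq]
    exact hasQExp_deltaQuot p
  cusp γ := by
    obtain ⟨T, hT, -⟩ := Fermat.Agent.IG.AN.DeltaAffineBridge11.exists_expansion_compSL p γ
    exact ⟨T, hT⟩

/-! ### the inverse unit `Δ(z)/Δ(p z)` -/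

/-- The function `z ↦ Δ(z)/Δ(p z)`. -/
def deltaQuotInv : ℍ → ℂ := fun z => Δ z / Δ (scaleH p z)

/-- The formal series `Δ(q)/Δ(q^p)`. -/
def uqInv (R : Type*) [CommRing R] : LaurentSeries R := deltaq R * qExpand R p (deltaqInv R)

theorem deltaQuotInv_mul_deltaQuot (z : ℍ) : deltaQuotInv p z * deltaQuot p z = 1 := by
  have h1 : Δ z ≠ 0 := discriminant_ne_zero z
  have h2 : Δ (scaleH p z) ≠ 0 := discriminant_ne_zero _
  rw [deltaQuotInv, deltaQuot]
  field_simp

theorem deltaQuot_ne_zero (z : ℍ) : deltaQuot p z ≠ 0 := by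
  intro h
  have := deltaQuotInv_mul_deltaQuot p z
  rw [h, mul_zero] at this
  exact zero_ne_one this

theorem deltaQuotInv_eq (z : ℍ) : deltaQuotInv p z = (deltaQuot p z)⁻¹ :=
  eq_inv_of_mul_eq_one_left (deltaQuotInv_mul_deltaQuot p z)

theorem deltaq_mul_deltaqInv (R : Type*) [CommRing R] : deltaq R * deltaqInv R = 1 := by
  rw [deltaq, deltaqInv, mul_mul_mul_comm, HahnSeries.single_mul_single, ← map_mul, ← map_mul,
    dedekindEtaUnit_mul_inv]
  simp

theorem uqInv_mul_uq (R : Type*) [CommRing R] : uqInv p R * uq R p = 1 := by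
  have h1 : qExpand R p (deltaq R) * qExpand R p (deltaqInv R) = 1 := by
    rw [← map_mul, deltaq_mul_deltaqInv, map_one]
  calc uqInv p R * uq R p
      = (deltaq R * deltaqInv R) * (qExpand R p (deltaq R) * qExpand R p (deltaqInv R)) := by
        rw [uqInv, uq]
        ring
    _ = 1 := by rw [h1, deltaq_mul_deltaqInv, one_mul]

theorem coeffMap_uqInv {R S : Type*} [CommRing R] [CommRing S] (φ : R →+* S) :
    coeffMap φ (uqInv p R) = uqInv p S := by
  rw [uqInv, uqInv, map_mul, ModularCurve.coeffMap_qExpand, Fermat.Agent.IG.AN.DeltaQuotExp19.coeffMap_deltaq,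
    Fermat.Agent.IG.AN.DeltaQuotExp19.coeffMap_deltaqInv]

theorem deltaQuotInv_mem_HolH : deltaQuotInv p ∈ HolH := by
  have h := div_mem_HolH discriminant_mem_HolH (comp_affH_mem_HolH discriminant_mem_HolH p 1 0
    (Nat.pos_of_ne_zero (NeZero.ne p)) one_pos) (fun z => discriminant_ne_zero _)
  have e : (fun z => Δ z / Δ (affH p 1 0 (Nat.pos_of_ne_zero (NeZero.ne p)) one_pos z)) =
      deltaQuotInv p := by
    funext z
    rw [deltaQuotInv, scaleH_eq_affH]
  rwa [e] at h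

theorem hasQExp_deltaQuotInv : HasQExp (uqInv p ℂ) (deltaQuotInv p) := by
  have h := HasQExp.mul hasQExp_deltaq (hasQExp_deltaqInv.qExpand p)
  have hfun : ((Δ : ℍ → ℂ) * fun z => (Δ (scaleH p z))⁻¹) = deltaQuotInv p := by
    funext z
    simp [deltaQuotInv, div_eq_mul_inv]
  rw [hfun] at h
  exact h

theorem deltaQuotInv_invariant (γ : SL(2, ℤ)) (hγ : γ ∈ CongruenceSubgroup.Gamma0 p) :
    compSL (deltaQuotInv p) γ = deltaQuotInv p := by
  funext z
  show deltaQuotInv p (γ • z) = deltaQuotInv p z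
  rw [deltaQuotInv_eq, deltaQuotInv_eq]
  have h := congrFun (deltaQuot_invariant p γ hγ) z
  have h' : deltaQuot p (γ • z) = deltaQuot p z := h
  rw [h']

/-! ### the cusp expansions of the inverse unit -/

/-- The `q_p`-expansion of `q_p^(a (p/e)) / Δ((a z + b)/e)`. -/
def AKi (a e : ℕ) (b : ℤ) : PowerSeries Kbar :=
  affQ (etaUInv Kbar) 1 (a * (p / e)) b (zetaE p e)

/-- The `q_p`-expansion of `Δ(z)`. -/
def BKi : PowerSeries Kbar := (PowerSeries.X * etaU Kbar).expand p (NeZero.ne p)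

/-- The `q_p`-expansion of `Δ(z) / Δ((a z + b)/e)` over `ℚbar`. -/
def TKi (a e : ℕ) (b : ℤ) : LaurentSeries Kbar :=
  laurentOf (1 * (a * (p / e)) + 0 * p) (AKi p a e b * BKi p)

theorem map_AKi {a e : ℕ} (b : ℤ) (he : 0 < e) (hep : e ∣ p) :
    (AKi p a e b).map iotaK = affQ (etaUInv ℂ) 1 (a * (p / e)) b (zetaC e) := by
  rw [AKi, affQ_map, map_etaUInv, iotaK_zetaE p he hep]

theorem map_BKi : (BKi p).map iotaK = (PowerSeries.X * etaU ℂ).expand p (NeZero.ne p) := by
  rw [BKi, PowerSeries.map_expand, map_mul, PowerSeries.map_X, map_etaU]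

/-- **The `q_p`-expansion of `z ↦ Δ(z) / Δ((a z + b)/e)`**, `e ∣ p`. -/
theorem isQExp_quotInv (a e : ℕ) (b : ℤ) (ha : 0 < a) (he : 0 < e) (hep : e ∣ p) :
    IsQExp p (fun z => Δ z / Δ (affH a e b ha he z)) (1 * (a * (p / e)) + 0 * p)
      ((AKi p a e b * BKi p).map iotaK) := by
  have hA := isQExp_affine (N := p) isQExp_discriminant_inv b ha he hep
  have hB := isQExp_discriminant.level_mul p
  rw [one_mul] at hB
  have hAB := hA.mul hB
  rw [map_mul, map_AKi p b he hep, map_BKi]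
  have hfun : (fun z => Δ z / Δ (affH a e b ha he z)) =
      (fun z => (Δ (affH a e b ha he z))⁻¹) * fun z => Δ z := by
    funext z
    simp [div_eq_mul_inv, mul_comm]
  rw [hfun]
  exact hAB

theorem toC_TKi (a e : ℕ) (b : ℤ) :
    toC (TKi p a e b) =
      laurentOf (1 * (a * (p / e)) + 0 * p) ((AKi p a e b * BKi p).map iotaK) := by
  rw [TKi, toC, Fermat.Agent.X0.coeffMap_laurentOf]

theorem intgQN_quotInv (a e : ℕ) (b : ℤ) (ha : 0 < a) (he : 0 < e) (hep : e ∣ p) :
    IntgQN p (fun z => Δ z / Δ (affH a e b ha he z)) (toC (TKi p a e b)) := by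
  rw [toC_TKi]
  exact intg_qn_of_isQExp p (isQExp_quotInv p a e b ha he hep)

/-- The automorphy step for the inverse unit: `(Δ(z)/Δ(pz)) ∘ γ = e^12 Δ(z)/Δ((a z + b)/e)`. -/
theorem compSL_deltaQuotInv (γ : SL(2, ℤ)) :
    ∃ (a e : ℕ) (b : ℤ) (ha : 0 < a) (he : 0 < e), a * e = p ∧ 0 ≤ b ∧ b < e ∧
      compSL (deltaQuotInv p) γ = fun z => (e : ℂ) ^ 12 * (Δ z / Δ (affH a e b ha he z)) := by
  obtain ⟨a, e, b, ha, he, hae, hb0, hbe, hfun⟩ := compSL_deltaQuot p γ
  refine ⟨a, e, b, ha, he, hae, hb0, hbe, funext fun z => ?_⟩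
  have h1 : deltaQuot p (γ • z) = ((e : ℂ)⁻¹) ^ 12 * deltaAff a e b ha he z := congrFun hfun z
  show deltaQuotInv p (γ • z) = _
  rw [deltaQuotInv_eq, h1, deltaAff]
  have heC : (e : ℂ) ≠ 0 := by exact_mod_cast he.ne'
  have h2 : Δ z ≠ 0 := discriminant_ne_zero z
  have h3 : Δ (affH a e b ha he z) ≠ 0 := discriminant_ne_zero _
  field_simp

/-- Every `SL(2,ℤ)`-translate of `Δ(z)/Δ(pz)` has a `q_p`-expansion over `ℚbar`. -/
theorem exists_expansion_compSL_inv (γ : SL(2, ℤ)) :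
    ∃ T : LaurentSeries Kbar, IntgQN p (compSL (deltaQuotInv p) γ) (toC T) := by
  obtain ⟨a, e, b, ha, he, hae, -, -, hfun⟩ := compSL_deltaQuotInv p γ
  refine ⟨HahnSeries.C ((e : Kbar) ^ 12) * TKi p a e b, ?_⟩
  rw [hfun, map_mul, QExpMem19.toC_C, map_pow, map_natCast]
  exact intg_qn_mul p (intg_qn_const p _) (intgQN_quotInv p a e b ha he (Dvd.intro_left a hae))

theorem toC_uqInv : toC (uqInv p Kbar) = uqInv p ℂ := by
  rw [toC, coeffMap_uqInv]

/-- `Δ(q)/Δ(q^p)` with its analytic incarnation is nice at level `p`. -/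
theorem isNice_deltaQuotInv : IsNice p (uqInv p Kbar) (deltaQuotInv p) where
  hol := deltaQuotInv_mem_HolH p
  inv := deltaQuotInv_invariant p
  qexp := by
    rw [toC_uqInv]
    exact hasQExp_deltaQuotInv p
  cusp := exists_expansion_compSL_inv p

/-! ### membership -/

/-- **(B2a)** `Δ(q^p)/Δ(q) ∈ ℚbar(j(q^d) : d ∣ M)` for every multiple `M` of `p`. -/
theorem uq_mem {M : ℕ} [NeZero M] (hpM : p ∣ M) : uq Kbar p ∈ modularFunctionFieldBar M :=
  mem_of_isNice (isNice_of_dvd hpM (isNice_deltaQuot p))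

/-- **(B2a)** `Δ(q)/Δ(q^p) ∈ ℚbar(j(q^d) : d ∣ M)` for every multiple `M` of `p`. -/
theorem uqInv_mem {M : ℕ} [NeZero M] (hpM : p ∣ M) : uqInv p Kbar ∈ modularFunctionFieldBar M :=
  mem_of_isNice (isNice_of_dvd hpM (isNice_deltaQuotInv p))

end Fermat.Agent.RED.BASE.DeltaMem19
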