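/-
Program H (S18), chapter RED/BASE, helper11: leaf (B5) + (B4), part 3 (level independence).

* `T_inclFF` : for `x ∈ FF n ⊆ FF M`, `M = n c`: `(cuspData M).T γ x = qExpand c ((cuspData n).T γ x)`;
* `cvE_qExpand` : the cusp value does not change under `q ↦ q^c`;
* `cvT_eq_base` : the cusp value function `cvT n e M` does not depend on the level `M`;
* `cuspExp` : for `hb : BaseHyp n e` there is ONE `cv` with `CuspSeparated n cv` and
  `CuspExp n e M cv` for every multiple `M` of `n`.
-/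
import Mathlib
import Fermat.Agent.RED.BASE.CuspExpMain11
import Fermat.Agent.RED.BASE.Hauptmodul12

set_option autoImplicit false

noncomputable section

namespace Fermat.Agent.RED.BASE.CuspExpLevel11

open Fermat.Agent.X0 Fermat.Agent.X0.Analytic
open UpperHalfPlane ModularCurve
open scoped MatrixGroups
open Fermat.Agent.RED.BASE.Interface12 Fermat.Agent.RED.BASE.EtaQuot12
open Fermat.Agent.RED.BASE.CuspExpMain11

/-! ### Change of level for the cusp expansions -/

section Level

variable {n : ℕ} [NeZero n]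

/-- For `x ∈ FF n ⊆ FF (n c)`: the level `n c` expansion is `qExpand c` of the level `n` one. -/
theorem T_inclFF (c : ℕ) [hc : NeZero c] [NeZero (n * c)] (γ : SL(2, ℤ)) (x : FF n) :
    (cuspData (n * c)).T γ (inclFF (Dvd.intro c rfl) x) =
      qExpand Kbar c ((cuspData n).T γ x) := by
  have hnM : n ∣ n * c := Dvd.intro c rfl
  have key : ((cuspData (n * c)).T γ).comp (inclFF hnM) =
      (qExpand Kbar c).comp ((cuspData n).T γ) := by
    apply CuspEquiv.ringHom_ext_Rsub
    intro u
    induction u using FracR.Rsub_induction with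
    | hgen d hd =>
      rw [RingHom.comp_apply, RingHom.comp_apply, FracR.coe_jdR, inclFF_jdF]
      have hdM : d ∣ n * c := hd.trans hnM
      rw [← coe_jdR (n * c) d hdM, ← coe_jdR n d hd]
      obtain ⟨m, P, hP, hT⟩ := (cuspData n).spec γ (jdR n d hd)
      rw [hT, qExpand_laurentOf]
      apply CuspEquiv.T_eq_of_isQExp
      rw [(realizeData (n * c)).jd_eq d hdM, ← (realizeData n).jd_eq d hd, PowerSeries.map_expand]
      exact hP.level_mul c
    | hconst a =>
      rw [RingHom.comp_apply, RingHom.comp_apply]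
      have h1 : inclFF hnM ((algebraMap Kbar (Rsub n) a : Rsub n) : FF n) =
          ((algebraMap Kbar (Rsub (n * c)) a : Rsub (n * c)) : FF (n * c)) := rfl
      rw [h1]
      obtain ⟨m, P, hP, hT⟩ := (cuspData n).spec γ (algebraMap Kbar (Rsub n) a)
      rw [hT, qExpand_laurentOf]
      apply CuspEquiv.T_eq_of_isQExp
      rw [(realizeData (n * c)).algebraMap_eq a, PowerSeries.map_expand]
      rw [(realizeData n).algebraMap_eq a] at hP
      exact hP.level_mul c
    | hadd u v hu hv =>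
      rw [Subalgebra.coe_add, map_add, map_add, hu, hv]
    | hmul u v hu hv =>
      rw [Subalgebra.coe_mul, map_mul, map_mul, hu, hv]
  exact congrFun (congrArg DFunLike.coe key) x

/-- A Laurent series without negative coefficients is a power series. -/
theorem exists_ofPS_of_coeff_neg {E : LaurentSeries Kbar} (h : ∀ k : ℤ, k < 0 → E.coeff k = 0) :
    ∃ P : PowerSeries Kbar, HahnSeries.ofPowerSeries ℤ Kbar P = E := by
  refine ⟨PowerSeries.mk fun i => E.coeff i, ?_⟩
  ext k
  rcases lt_or_ge k 0 with hk | hk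
  · rw [ofPowerSeries_coeff_of_neg _ hk, h k hk]
  · lift k to ℕ using hk
    rw [HahnSeries.ofPowerSeries_apply_coeff, PowerSeries.coeff_mk]

/-- The cusp value is invariant under `q ↦ q^c`. -/
theorem cvE_qExpand (c : ℕ) [hc : NeZero c] (E : LaurentSeries Kbar) :
    cvE (qExpand Kbar c E) = cvE E := by
  by_cases h : ∃ P : PowerSeries Kbar, HahnSeries.ofPowerSeries ℤ Kbar P = E
  · obtain ⟨P, rfl⟩ := h
    rw [qExpand_ofPS, cvE_ofPS, cvE_ofPS, PowerSeries.constantCoeff_expand]
  · have h' : ¬ ∃ Q : PowerSeries Kbar,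
        HahnSeries.ofPowerSeries ℤ Kbar Q = qExpand Kbar c E := by
      rintro ⟨Q, hQ⟩
      apply h
      apply exists_ofPS_of_coeff_neg
      intro k hk
      have hc0 : (0 : ℤ) < c := by exact_mod_cast Nat.pos_of_ne_zero hc.ne
      rw [← qExpand_coeff_mul c E k, ← hQ]
      exact ofPowerSeries_coeff_of_neg _ (mul_neg_of_pos_of_neg hc0 hk)
    rw [cvE, cvE, dif_neg h, dif_neg h']

end Level

/-! ### Level independence of the cusp value function -/

theorem cvT_eq_base (n e M : ℕ) [NeZero n] [NeZero M] (hnM : n ∣ M) (h : TMem n e n) :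
    cvT n e M = cvT n e n := by
  obtain ⟨c, rfl⟩ := hnM
  have hc : NeZero c := ⟨fun h0 => NeZero.ne (n * c) (by rw [h0, mul_zero])⟩
  funext γ
  rw [cvT_eq n e (n * c) (TMem.mono (Dvd.intro c rfl) h) γ, cvT_eq n e n h γ]
  have h1 : tF (n * c) (TMem.mono (Dvd.intro c rfl) h) = inclFF (Dvd.intro c rfl) (tF n h) := rfl
  rw [h1, T_inclFF c γ (tF n h), cvE_qExpand]

/-- **(B5) + (B4)** for `(4, 8)` with ONE cusp value function for all levels. -/
theorem cuspExp_four_all (h : TMem 4 8 4) :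
    CuspSeparated 4 (cvT 4 8 4) ∧
      ∀ (M : ℕ) [NeZero M], 4 ∣ M → CuspExp 4 8 M (cvT 4 8 4) := by
  refine ⟨(cuspExp_four 4 dvd_rfl h).2, fun M _ hM => ?_⟩
  rw [← cvT_eq_base 4 8 M hM h]
  exact (cuspExp_four M hM h).1

/-- **(B5) + (B4)** for `(9, 3)` with ONE cusp value function for all levels. -/
theorem cuspExp_nine_all (h : TMem 9 3 9) :
    CuspSeparated 9 (cvT 9 3 9) ∧
      ∀ (M : ℕ) [NeZero M], 9 ∣ M → CuspExp 9 3 M (cvT 9 3 9) := by
  refine ⟨(cuspExp_nine 9 dvd_rfl h).2, fun M _ hM => ?_⟩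
  rw [← cvT_eq_base 9 3 M hM h]
  exact (cuspExp_nine M hM h).1

/-- `BaseHyp n e` forces `(n, e) = (4, 8)` or `(9, 3)`. -/
theorem baseHyp_cases {n e : ℕ} (hb : Hauptmodul12.BaseHyp n e) :
    (n = 4 ∧ e = 8) ∨ (n = 9 ∧ e = 3) := by
  have h2 := hb.two_le
  have hexp := hb.exp
  have hdvd : n - 1 ∣ 24 := Dvd.intro_left e hexp
  have hle : n - 1 ≤ 24 := Nat.le_of_dvd (by norm_num) hdvd
  have hn : n ≤ 25 := by omega
  rcases hb.four_or_nine with h4 | h9
  · obtain ⟨m, rfl⟩ := h4
    have hm : m ≤ 6 := by omega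
    interval_cases m <;> simp_all
    omega
  · obtain ⟨m, rfl⟩ := h9
    have hm : m ≤ 2 := by omega
    interval_cases m <;> simp_all
    omega

/-- **(B5) + (B4)**, literal form for the chapter bundle. -/
theorem cuspExp {n e : ℕ} [NeZero n] (hb : Hauptmodul12.BaseHyp n e) :
    ∃ cv : SL(2, ℤ) → Option Kbar, CuspSeparated n cv ∧
      ∀ (M : ℕ) [NeZero M], n ∣ M → CuspExp n e M cv := by
  have hmem := Hauptmodul12.tMem hb
  rcases baseHyp_cases hb with ⟨rfl, rfl⟩ | ⟨rfl, rfl⟩
  · exact ⟨cvT 4 8 4, cuspExp_four_all hmem⟩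
  · exact ⟨cvT 9 3 9, cuspExp_nine_all hmem⟩

end Fermat.Agent.RED.BASE.CuspExpLevel11
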