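/-
RED/BASE (helper12): API for `IsIntAway m` / `IsUnitAway m` (integrality over `ℤ[1/m]` inside `ℚbar`),
and the separation lemma for roots of unity used for the cusp values (B4).
-/
import Fermat.Agent.RED.BASE.Interface12

set_option autoImplicit false

namespace Fermat.Agent.RED.BASE.UnitAway12

open Fermat.Agent.X0 Fermat.Agent.RED.BASE.Interface12

variable {m : ℕ}

theorem isIntegral_natCast (k : ℕ) : IsIntegral ℤ (k : Kbar) := by
  have h := isIntegral_algebraMap (R := ℤ) (A := Kbar) (x := (k : ℤ))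
  simpa using h

theorem isIntAway_zero : IsIntAway m (0 : Kbar) := isIntAway_of_isIntegral isIntegral_zero

theorem isIntAway_one : IsIntAway m (1 : Kbar) := isIntAway_of_isIntegral isIntegral_one

theorem isIntAway_natCast (k : ℕ) : IsIntAway m (k : Kbar) :=
  isIntAway_of_isIntegral (isIntegral_natCast k)

theorem isIntAway_intCast (k : ℤ) : IsIntAway m (k : Kbar) :=
  isIntAway_of_isIntegral (by
    have h := isIntegral_algebraMap (R := ℤ) (A := Kbar) (x := k)
    simpa using h)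

theorem _root_.Fermat.Agent.RED.BASE.Interface12.IsIntAway.sub {x y : Kbar} (hx : IsIntAway m x) (hy : IsIntAway m y) :
    IsIntAway m (x - y) := by
  rw [sub_eq_add_neg]
  exact hx.add hy.neg

theorem _root_.Fermat.Agent.RED.BASE.Interface12.IsIntAway.pow {x : Kbar} (hx : IsIntAway m x) (k : ℕ) : IsIntAway m (x ^ k) := by
  induction k with
  | zero => rw [pow_zero]; exact isIntAway_one
  | succ k ih => rw [pow_succ]; exact ih.mul hx

/-- `x^k` integral away from `m` implies `x` integral away from `m`. -/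
theorem _root_.Fermat.Agent.RED.BASE.Interface12.IsIntAway.of_pow {x : Kbar} {k : ℕ} (hk : 0 < k) (hx : IsIntAway m (x ^ k)) :
    IsIntAway m x := by
  obtain ⟨j, hj⟩ := hx
  refine ⟨j, ?_⟩
  have h1 : ((m : Kbar) ^ j * x) ^ k = ((m : Kbar) ^ j) ^ (k - 1) * ((m : Kbar) ^ j * x ^ k) := by
    rw [mul_pow]
    obtain ⟨k', rfl⟩ : ∃ k', k = k' + 1 := ⟨k - 1, by omega⟩
    rw [Nat.add_sub_cancel, pow_succ ((m : Kbar) ^ j) k']
    ring
  have h2 : IsIntegral ℤ (((m : Kbar) ^ j * x) ^ k) := by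
    rw [h1]
    exact (((isIntegral_natCast m).pow j).pow (k - 1)).mul hj
  exact IsIntegral.of_pow hk h2

theorem isIntAway_self_inv (m : ℕ) : IsIntAway m ((m : Kbar))⁻¹ := isIntAway_inv_self m

/-! ### units away from `m` -/

theorem isUnitAway_one : IsUnitAway m (1 : Kbar) :=
  ⟨one_ne_zero, isIntAway_one, by rw [inv_one]; exact isIntAway_one⟩

theorem _root_.Fermat.Agent.RED.BASE.Interface12.IsUnitAway.ne_zero {x : Kbar} (hx : IsUnitAway m x) : x ≠ 0 := hx.1

theorem _root_.Fermat.Agent.RED.BASE.Interface12.IsUnitAway.isIntAway {x : Kbar} (hx : IsUnitAway m x) : IsIntAway m x := hx.2.1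

theorem _root_.Fermat.Agent.RED.BASE.Interface12.IsUnitAway.isIntAway_inv {x : Kbar} (hx : IsUnitAway m x) : IsIntAway m x⁻¹ := hx.2.2

theorem _root_.Fermat.Agent.RED.BASE.Interface12.IsUnitAway.inv {x : Kbar} (hx : IsUnitAway m x) : IsUnitAway m x⁻¹ :=
  ⟨inv_ne_zero hx.1, hx.2.2, by rw [inv_inv]; exact hx.2.1⟩

theorem _root_.Fermat.Agent.RED.BASE.Interface12.IsUnitAway.mul {x y : Kbar} (hx : IsUnitAway m x) (hy : IsUnitAway m y) :
    IsUnitAway m (x * y) :=
  ⟨mul_ne_zero hx.1 hy.1, hx.2.1.mul hy.2.1, by rw [mul_inv]; exact hx.2.2.mul hy.2.2⟩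

theorem _root_.Fermat.Agent.RED.BASE.Interface12.IsUnitAway.div {x y : Kbar} (hx : IsUnitAway m x) (hy : IsUnitAway m y) :
    IsUnitAway m (x / y) := by
  rw [div_eq_mul_inv]
  exact hx.mul hy.inv

theorem _root_.Fermat.Agent.RED.BASE.Interface12.IsUnitAway.neg {x : Kbar} (hx : IsUnitAway m x) : IsUnitAway m (-x) :=
  ⟨neg_ne_zero.mpr hx.1, hx.2.1.neg, by rw [inv_neg]; exact hx.2.2.neg⟩

theorem _root_.Fermat.Agent.RED.BASE.Interface12.IsUnitAway.pow {x : Kbar} (hx : IsUnitAway m x) (k : ℕ) : IsUnitAway m (x ^ k) :=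
  ⟨pow_ne_zero k hx.1, hx.2.1.pow k, by rw [← inv_pow]; exact hx.2.2.pow k⟩

theorem _root_.Fermat.Agent.RED.BASE.Interface12.IsUnitAway.zpow {x : Kbar} (hx : IsUnitAway m x) (k : ℤ) : IsUnitAway m (x ^ k) := by
  cases k with
  | ofNat k => rw [Int.ofNat_eq_natCast, zpow_natCast]; exact hx.pow k
  | negSucc k => rw [zpow_negSucc]; exact (hx.pow (k + 1)).inv

/-- `x^k` a unit away from `m` implies `x` a unit away from `m`. -/
theorem _root_.Fermat.Agent.RED.BASE.Interface12.IsUnitAway.of_pow {x : Kbar} {k : ℕ} (hk : 0 < k) (hx : IsUnitAway m (x ^ k)) :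
    IsUnitAway m x :=
  ⟨fun h => hx.1 (by rw [h, zero_pow hk.ne']), hx.2.1.of_pow hk,
    IsIntAway.of_pow hk (by rw [inv_pow]; exact hx.2.2)⟩

/-- a factorisation `x y = u` of a unit away from `m` into elements integral away from `m`. -/
theorem isUnitAway_of_mul_eq {x y u : Kbar} (hx : IsIntAway m x) (hy : IsIntAway m y)
    (hu : IsUnitAway m u) (h : x * y = u) : IsUnitAway m x := by
  have hx0 : x ≠ 0 := fun h0 => hu.1 (by rw [← h, h0, zero_mul])
  refine ⟨hx0, hx, ?_⟩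
  have hy0 : y ≠ 0 := fun hy0 => hu.1 (by rw [← h, hy0, mul_zero])
  have : x⁻¹ = y * u⁻¹ := by
    rw [← h]
    field_simp
  rw [this]
  exact hy.mul hu.2.2

theorem isUnitAway_self (hm : m ≠ 0) : IsUnitAway m (m : Kbar) :=
  ⟨Nat.cast_ne_zero.mpr hm, isIntAway_natCast m, isIntAway_inv_self m⟩

/-- every natural number dividing a power of `m` is a unit away from `m`. -/
theorem isUnitAway_natCast_of_dvd_pow (hm : m ≠ 0) {d j : ℕ} (hd : d ∣ m ^ j) :
    IsUnitAway m (d : Kbar) := by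
  obtain ⟨c, hc⟩ := hd
  refine isUnitAway_of_mul_eq (isIntAway_natCast d) (isIntAway_natCast c)
    ((isUnitAway_self hm).pow j) ?_
  exact_mod_cast hc.symm

/-- roots of unity are units away from every `m`. -/
theorem isUnitAway_of_pow_eq_one {x : Kbar} {k : ℕ} (hk : 0 < k) (h : x ^ k = 1) :
    IsUnitAway m x :=
  IsUnitAway.of_pow hk (by rw [h]; exact isUnitAway_one)

theorem isIntegral_of_pow_eq_one {x : Kbar} {k : ℕ} (hk : 0 < k) (h : x ^ k = 1) :
    IsIntegral ℤ x :=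
  IsIntegral.of_pow hk (by rw [h]; exact isIntegral_one)

/-! ### separation of roots of unity -/

/-- `1 - ξ` divides `P(1)` for every integer polynomial `P` vanishing at `ξ`. -/
theorem one_sub_mul_eq_eval_one {ξ : Kbar} (P : Polynomial ℤ) (hP : Polynomial.aeval ξ P = 0) :
    ∃ y : Kbar, IsIntegral ℤ ξ → IsIntegral ℤ y ∧ (1 - ξ) * y = ((P.eval 1 : ℤ) : Kbar) := by
  obtain ⟨Q, hQ⟩ := Polynomial.dvd_iff_isRoot.mpr
    (show (P - Polynomial.C (P.eval 1)).IsRoot 1 by simp)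
  refine ⟨Polynomial.aeval ξ Q, fun hξ => ⟨?_, ?_⟩⟩
  · have : Polynomial.aeval ξ Q ∈ Algebra.adjoin ℤ {ξ} := by
      rw [Algebra.adjoin_singleton_eq_range_aeval]
      exact ⟨Q, rfl⟩
    exact IsIntegral.of_mem_of_fg _ (IsIntegral.fg_adjoin_singleton hξ) _ this
  · have h1 := congrArg (Polynomial.aeval ξ) hQ
    rw [map_sub, hP, zero_sub, Polynomial.aeval_C, map_mul, map_sub, Polynomial.aeval_X,
      Polynomial.aeval_C, map_one] at h1
    have h2 : (algebraMap ℤ Kbar) (Polynomial.eval 1 P) = ((P.eval 1 : ℤ) : Kbar) := by simp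
    rw [h2] at h1
    linear_combination h1

/-- if `ξ^(3k) = 1` and `ξ^k ≠ 1` then `1 - ξ` divides `3`. -/
theorem isUnitAway_one_sub_of_pow_three {m : ℕ} (hm : m ≠ 0) (h3 : 3 ∣ m) {ξ : Kbar} {k : ℕ}
    (hk : 0 < k) (h1 : ξ ^ (3 * k) = 1) (h2 : ξ ^ k ≠ 1) : IsUnitAway m (1 - ξ) := by
  have hξ : IsIntegral ℤ ξ := isIntegral_of_pow_eq_one (by omega : 0 < 3 * k) h1
  -- `ξ` is a root of `X^(2k) + X^k + 1`
  have hroot : ξ ^ (2 * k) + ξ ^ k + 1 = 0 := by
    have : (ξ ^ k - 1) * (ξ ^ (2 * k) + ξ ^ k + 1) = 0 := by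
      have : ξ ^ (3 * k) = (ξ ^ k) ^ 3 := by rw [← pow_mul, mul_comm]
      have h2k : ξ ^ (2 * k) = (ξ ^ k) ^ 2 := by rw [← pow_mul, mul_comm]
      rw [h2k]
      linear_combination h1 - this
    rcases mul_eq_zero.mp this with h | h
    · exact absurd (sub_eq_zero.mp h) h2
    · exact h
  set P : Polynomial ℤ := Polynomial.X ^ (2 * k) + Polynomial.X ^ k + 1 with hP
  have hPξ : Polynomial.aeval ξ P = 0 := by
    rw [hP]
    simp only [map_add, map_pow, Polynomial.aeval_X, map_one]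
    exact hroot
  obtain ⟨y, hy⟩ := one_sub_mul_eq_eval_one P hPξ
  obtain ⟨hyint, hmul⟩ := hy hξ
  have hev : P.eval 1 = 3 := by
    rw [hP]
    simp
  rw [hev] at hmul
  have h3u : IsUnitAway m ((3 : ℤ) : Kbar) := by
    have : ((3 : ℤ) : Kbar) = ((3 : ℕ) : Kbar) := by norm_num
    rw [this]
    exact isUnitAway_natCast_of_dvd_pow hm (j := 1) (by rwa [pow_one])
  exact isUnitAway_of_mul_eq
    ((isIntAway_one).sub (isIntAway_of_isIntegral hξ)) (isIntAway_of_isIntegral hyint) h3u hmul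

end Fermat.Agent.RED.BASE.UnitAway12
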